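import Mathlib

/-!
# P-S34 WP3 (abstract layer): place-free two-chart pole spaces

For a commutative `k`-algebra `κ` (a function field, or a product of two function fields: the
ring of functions on a two-component special fibre) and a unit `T` of `κ` (`T * Ti = 1`),

`twoPole k T Ti a b = {y | Tᵃ y integral over k[T], Tiᵇ y integral over k[Ti]}`

is the place-free form of `L(a (T)₀ + b (T)_∞)` (cf. `Gateway/C0/Main.mem_LN_iff_isIntegral` and
`Gateway/Red/Filtered.poleFil`).  All the formal properties used by the C0 machinery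
(monotone, `inf`, products, radical, the shift by `T`) are proved here from integrality alone, on
both the characteristic-0 side (`κ = F`) and the special fibre (`κ = κ₁ × κ₂`).

Mathlib only.
-/

set_option autoImplicit false

noncomputable section

namespace Fermat.Agent.S34x.Lattice2

variable (k : Type*) [Field k] {κ : Type*} [CommRing κ] [Algebra k κ]

/-- `L(a (T)₀ + b (T)_∞)`, place-free. -/
def twoPole (T Ti : κ) (a b : ℕ) : Submodule k κ where
  carrier := {y | IsIntegral (Algebra.adjoin k {T}) (T ^ a * y) ∧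
    IsIntegral (Algebra.adjoin k {Ti}) (Ti ^ b * y)}
  zero_mem' := ⟨by rw [mul_zero]; exact isIntegral_zero, by rw [mul_zero]; exact isIntegral_zero⟩
  add_mem' := fun hx hy => ⟨by rw [mul_add]; exact hx.1.add hy.1,
    by rw [mul_add]; exact hx.2.add hy.2⟩
  smul_mem' := fun c y hy => ⟨by rw [mul_smul_comm]; exact hy.1.smul c,
    by rw [mul_smul_comm]; exact hy.2.smul c⟩

variable {k}

theorem mem_twoPole_iff {T Ti : κ} {a b : ℕ} {y : κ} : y ∈ twoPole k T Ti a b ↔
    IsIntegral (Algebra.adjoin k {T}) (T ^ a * y) ∧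
      IsIntegral (Algebra.adjoin k {Ti}) (Ti ^ b * y) := Iff.rfl

theorem isIntegral_gen (T : κ) : IsIntegral (Algebra.adjoin k {T}) T := by
  have : T = algebraMap (Algebra.adjoin k {T}) κ ⟨T, Algebra.self_mem_adjoin_singleton k T⟩ := rfl
  rw [this]
  exact isIntegral_algebraMap

theorem twoPole_mono (T Ti : κ) {a b a' b' : ℕ} (ha : a ≤ a') (hb : b ≤ b') :
    twoPole k T Ti a b ≤ twoPole k T Ti a' b' := by
  intro y hy
  obtain ⟨d, rfl⟩ := Nat.exists_eq_add_of_le ha
  obtain ⟨e, rfl⟩ := Nat.exists_eq_add_of_le hb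
  refine ⟨?_, ?_⟩
  · rw [pow_add, mul_comm (T ^ a), mul_assoc]
    exact ((isIntegral_gen T).pow d).mul hy.1
  · rw [pow_add, mul_comm (Ti ^ b), mul_assoc]
    exact ((isIntegral_gen Ti).pow e).mul hy.2

theorem twoPole_inf (T Ti : κ) {a b a' b' : ℕ} {y : κ} (hy : y ∈ twoPole k T Ti a b)
    (hy' : y ∈ twoPole k T Ti a' b') : y ∈ twoPole k T Ti (min a a') (min b b') := by
  refine ⟨?_, ?_⟩
  · rcases min_choice a a' with h | h <;> rw [h]
    exacts [hy.1, hy'.1]
  · rcases min_choice b b' with h | h <;> rw [h]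
    exacts [hy.2, hy'.2]

theorem one_mem_twoPole (T Ti : κ) : (1 : κ) ∈ twoPole k T Ti 0 0 :=
  ⟨by rw [pow_zero, mul_one]; exact isIntegral_one, by rw [pow_zero, mul_one]; exact isIntegral_one⟩

theorem mul_mem_twoPole {T Ti : κ} {a b a' b' : ℕ} {x y : κ} (hx : x ∈ twoPole k T Ti a b)
    (hy : y ∈ twoPole k T Ti a' b') : x * y ∈ twoPole k T Ti (a + a') (b + b') := by
  refine ⟨?_, ?_⟩
  · have : T ^ (a + a') * (x * y) = (T ^ a * x) * (T ^ a' * y) := by ring
    rw [this]
    exact hx.1.mul hy.1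
  · have : Ti ^ (b + b') * (x * y) = (Ti ^ b * x) * (Ti ^ b' * y) := by ring
    rw [this]
    exact hx.2.mul hy.2

theorem pow_mem_twoPole {T Ti : κ} {a b : ℕ} {x : κ} (hx : x ∈ twoPole k T Ti a b) (n : ℕ) :
    x ^ n ∈ twoPole k T Ti (n * a) (n * b) := by
  induction n with
  | zero => simpa using one_mem_twoPole (k := k) T Ti
  | succ n ih =>
    rw [pow_succ, Nat.succ_mul, Nat.succ_mul]
    exact mul_mem_twoPole ih hx

/-- The pole spaces are radical: `yᵐ ∈ L(m D) ⇒ y ∈ L(D)`. -/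
theorem twoPole_radical {T Ti : κ} {m : ℕ} (hm : 0 < m) (a b : ℕ) (y : κ)
    (hy : y ^ m ∈ twoPole k T Ti (m * a) (m * b)) : y ∈ twoPole k T Ti a b := by
  refine ⟨?_, ?_⟩
  · have h1 : (T ^ a * y) ^ m = T ^ (m * a) * y ^ m := by rw [mul_pow, ← pow_mul, mul_comm a m]
    exact IsIntegral.of_pow hm (h1 ▸ hy.1)
  · have h1 : (Ti ^ b * y) ^ m = Ti ^ (m * b) * y ^ m := by rw [mul_pow, ← pow_mul, mul_comm b m]
    exact IsIntegral.of_pow hm (h1 ▸ hy.2)

section unit

variable {T Ti : κ} (hT : T * Ti = 1)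
include hT

theorem Ti_pow_mul_T_pow (n : ℕ) : Ti ^ n * T ^ n = 1 := by
  rw [← mul_pow, mul_comm, hT, one_pow]

/-- `T · L((a+1) C₀ + b C∞) = L(a C₀ + (b+1) C∞)`. -/
theorem T_mul_mem_twoPole_iff {a b : ℕ} {y : κ} :
    T * y ∈ twoPole k T Ti a (b + 1) ↔ y ∈ twoPole k T Ti (a + 1) b := by
  have h1 : T ^ a * (T * y) = T ^ (a + 1) * y := by ring
  have h2 : Ti ^ (b + 1) * (T * y) = Ti ^ b * y := by
    have : Ti ^ (b + 1) * (T * y) = Ti ^ b * (T * Ti) * y := by ring
    rw [this, hT, mul_one]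
  rw [mem_twoPole_iff, mem_twoPole_iff, h1, h2]

/-- `Tⁿ · L((a+n) C₀ + b C∞) = L(a C₀ + (b+n) C∞)`. -/
theorem T_pow_mul_mem_twoPole_iff (n : ℕ) {a b : ℕ} {y : κ} :
    T ^ n * y ∈ twoPole k T Ti a (b + n) ↔ y ∈ twoPole k T Ti (a + n) b := by
  induction n generalizing a b y with
  | zero => simp
  | succ n ih =>
    have h1 : T ^ (n + 1) * y = T ^ n * (T * y) := by ring
    have h2 : b + (n + 1) = (b + 1) + n := by ring
    have h3 : a + (n + 1) = a + n + 1 := by ring
    rw [h1, h2, ih, T_mul_mem_twoPole_iff hT, h3]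

/-- `y ∈ L(a C₀ + b C∞) ↔ Tᵃ y ∈ L((a + b) C∞)`. -/
theorem mem_twoPole_iff_pow_mul {a b : ℕ} {y : κ} :
    y ∈ twoPole k T Ti a b ↔ T ^ a * y ∈ twoPole k T Ti 0 (b + a) := by
  rw [T_pow_mul_mem_twoPole_iff hT, zero_add]

theorem T_mem_twoPole : T ∈ twoPole k T Ti 0 1 := by
  have := (T_mul_mem_twoPole_iff (k := k) hT (a := 0) (b := 0) (y := 1)).mpr
    (twoPole_mono T Ti (Nat.zero_le _) le_rfl (one_mem_twoPole T Ti))
  rwa [mul_one] at this

theorem Ti_mem_twoPole : Ti ∈ twoPole k T Ti 1 0 := by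
  rw [← T_mul_mem_twoPole_iff hT, hT]
  exact twoPole_mono T Ti le_rfl (Nat.zero_le _) (one_mem_twoPole T Ti)

/-- Multiplication by the unit `T` is injective. -/
theorem T_pow_mul_injective (n : ℕ) : Function.Injective fun y : κ => T ^ n * y := by
  intro x y hxy
  have := congrArg (fun z => Ti ^ n * z) hxy
  simpa [← mul_assoc, Ti_pow_mul_T_pow hT] using this

end unit

section shift

open Polynomial

variable {T Ti : κ} (hT : T * Ti = 1)
include hT

theorem T_pow_mul_Ti_pow_of_le {j e : ℕ} (hj : j ≤ e) : T ^ j * Ti ^ e = Ti ^ (e - j) := by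
  obtain ⟨d, rfl⟩ := Nat.exists_eq_add_of_le hj
  rw [Nat.add_sub_cancel_left, pow_add, ← mul_assoc, ← mul_pow, hT, one_pow, one_mul]

theorem aeval_mul_pow_mem_adjoin (q : k[X]) {e : ℕ} (he : q.natDegree ≤ e) :
    aeval T q * Ti ^ e ∈ Algebra.adjoin k {Ti} := by
  rw [aeval_eq_sum_range' (Nat.lt_succ_of_le he), Finset.sum_mul]
  refine Subalgebra.sum_mem _ fun j hj => ?_
  have hj' : j ≤ e := Nat.lt_succ_iff.mp (Finset.mem_range.mp hj)
  rw [smul_mul_assoc, T_pow_mul_Ti_pow_of_le hT hj']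
  exact Subalgebra.smul_mem _ (Subalgebra.pow_mem _ (Algebra.self_mem_adjoin_singleton k _) _) _

/-- An element integral over `k[T]` becomes integral over `k[T⁻¹]` after multiplication by a high
power of `T⁻¹` (ring version of `Gateway/Red/Filtered.exists_isIntegral_mul_inv_pow`). -/
theorem exists_isIntegral_pow_mul {f : κ} (hf : IsIntegral (Algebra.adjoin k {T}) f) :
    ∃ m₀ : ℕ, ∀ m, m₀ ≤ m → IsIntegral (Algebra.adjoin k {Ti}) (Ti ^ m * f) := by
  obtain ⟨p, hpm, hpr⟩ := hf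
  set n := p.natDegree with hn
  have hq : ∀ i, ∃ q : k[X], aeval T q = ((p.coeff i : Algebra.adjoin k {T}) : κ) := by
    intro i
    have h1 : ((p.coeff i : Algebra.adjoin k {T}) : κ) ∈ (aeval (R := k) T).range := by
      rw [← Algebra.adjoin_singleton_eq_range_aeval]
      exact (p.coeff i).2
    exact h1
  choose q hq using hq
  refine ⟨(Finset.range (n + 1)).sup fun i => (q i).natDegree, fun m hm => ?_⟩
  have hb : ∀ i : Fin n, ((p.coeff i : Algebra.adjoin k {T}) : κ) * Ti ^ (m * (n - i)) ∈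
      Algebra.adjoin k {Ti} := by
    intro i
    rw [← hq]
    apply aeval_mul_pow_mem_adjoin hT
    have h1 : (q i).natDegree ≤ m :=
      le_trans (Finset.le_sup (f := fun i => (q i).natDegree)
        (Finset.mem_range.mpr (by omega))) hm
    have h2 : 1 ≤ n - (i : ℕ) := by omega
    calc (q i).natDegree ≤ m := h1
      _ = m * 1 := (mul_one m).symm
      _ ≤ m * (n - i) := Nat.mul_le_mul_left m h2
  set S := Algebra.adjoin k {Ti}
  set Q : S[X] := X ^ n + ∑ i : Fin n, C (⟨_, hb i⟩ : S) * X ^ (i : ℕ) with hQ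
  have hQm : Q.Monic := monic_X_pow_add (degree_sum_fin_lt _)
  refine ⟨Q, hQm, ?_⟩
  have hev : eval₂ (algebraMap S κ) (Ti ^ m * f) Q
      = Ti ^ (m * n) * eval₂ (algebraMap (Algebra.adjoin k {T}) κ) f p := by
    rw [hQ, eval₂_add, eval₂_pow, eval₂_X, eval₂_finsetSum]
    have hp : eval₂ (algebraMap (Algebra.adjoin k {T}) κ) f p
        = f ^ n + ∑ i : Fin n, ((p.coeff i : Algebra.adjoin k {T}) : κ) * f ^ (i : ℕ) := by
      rw [eval₂_eq_sum_range, ← hn, Finset.sum_range_succ, add_comm, hpm.coeff_natDegree,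
        Finset.sum_range]
      simp
    rw [hp, mul_add, Finset.mul_sum]
    congr 1
    · rw [mul_pow, ← pow_mul]
    · refine Finset.sum_congr rfl fun i _ => ?_
      rw [eval₂_mul, eval₂_C, eval₂_pow, eval₂_X]
      show ((p.coeff i : Algebra.adjoin k {T}) : κ) * Ti ^ (m * (n - i)) * (Ti ^ m * f) ^ (i : ℕ)
        = _
      have h3 : m * n = m * (n - i) + m * i := by
        rw [← Nat.mul_add, Nat.sub_add_cancel (le_of_lt i.2)]
      rw [mul_pow, ← pow_mul, h3, pow_add]
      ring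
  rw [hev, hpr, mul_zero]

/-- The integral closure of `k[T]` is the union of the spaces `L(b C∞)`. -/
theorem isIntegral_iff_exists_mem_twoPole {y : κ} :
    IsIntegral (Algebra.adjoin k {T}) y ↔ ∃ b, y ∈ twoPole k T Ti 0 b := by
  constructor
  · intro hy
    obtain ⟨m₀, hm₀⟩ := exists_isIntegral_pow_mul hT hy
    exact ⟨m₀, by rw [pow_zero, one_mul]; exact hy, hm₀ m₀ le_rfl⟩
  · rintro ⟨b, hb⟩
    have := hb.1
    rwa [pow_zero, one_mul] at this

end shift

/-- The symmetric description with the roles of the two charts exchanged. -/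
theorem twoPole_swap (T Ti : κ) (a b : ℕ) : twoPole k Ti T b a = twoPole k T Ti a b := by
  ext y
  rw [mem_twoPole_iff, mem_twoPole_iff, and_comm]

end Fermat.Agent.S34x.Lattice2
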