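import Fermat.Agent.S34x.Lattice2.DimBridge
import Fermat.Agent.S34x.Lattice2.TwoPole

/-!
# P-S34, WP3-inst: `DimBridge` in the language of `twoPole`

helper26.  On `κ = E × E` (`E` a function field over `k`, `x` transcendental, `E / k(x)` finite
separable), `T = (x, x ^ q)`, `Ti = T⁻¹`:

* `twoPole_zero_eq_Pb` : `twoPole k T Ti 0 b = Pb 0 C 0 (q • C) b`, `C = (x)_∞`;
* `twoPole_zero_eq_Pb_inv` : `twoPole k T Ti a 0 = Pb 0 C' 0 (q • C') a`, `C' = (x)_0`;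
* `mulPowEquiv` : `twoPole k T Ti a b ≃ₗ[k] twoPole k T Ti 0 (b + a)` (any `k`-algebra, `T Ti = 1`);
* `finite_twoPole`, `finrank_twoPole` : `dim = (q+1) n' (a+b) + 2 - 2 g'` for `(a+b) n' > 2g' - 2`;
* `exists_add_T_mul`, `exists_add_Ti_mul` : one-step generation in both directions.
-/

set_option autoImplicit false
set_option linter.unusedSectionVars false
set_option linter.style.haveILetI false

noncomputable section

namespace Fermat.Agent.S34x.Lattice2.DimBridgeTwoPole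

open AlgebraicCurve Polynomial IntermediateField Module
open Fermat.Agent.Lib.RiemannRoch Fermat.Agent.Lib.RiemannRoch.FunctionFieldRR
open Fermat.Agent.S34x.Lattice2 Fermat.Agent.S34x.Lattice2.Dim
open Fermat.Agent.S34x.Lattice2.DimBridge

section Abstract

variable {k : Type*} [Field k] {κ : Type*} [CommRing κ] [Algebra k κ] {T Ti : κ}
  (hT : T * Ti = 1)

include hT in
theorem Ti_pow_mul_mem_twoPole {a b : ℕ} {z : κ} (hz : z ∈ twoPole k T Ti 0 (b + a)) :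
    Ti ^ a * z ∈ twoPole k T Ti a b := by
  rw [mem_twoPole_iff_pow_mul hT, ← mul_assoc, mul_comm (T ^ a), Ti_pow_mul_T_pow hT, one_mul]
  exact hz

/-- Multiplication by `Tᵃ` : `L(a C₀ + b C∞) ≃ L((a+b) C∞)`. -/
def mulPowEquiv (a b : ℕ) : twoPole k T Ti a b ≃ₗ[k] twoPole k T Ti 0 (b + a) where
  toFun y := ⟨T ^ a * y.1, (mem_twoPole_iff_pow_mul hT).mp y.2⟩
  invFun z := ⟨Ti ^ a * z.1, Ti_pow_mul_mem_twoPole hT z.2⟩
  map_add' y y' := Subtype.ext (mul_add _ _ _)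
  map_smul' c y := Subtype.ext (mul_smul_comm _ _ _)
  left_inv y := Subtype.ext (by
    show Ti ^ a * (T ^ a * y.1) = y.1
    rw [← mul_assoc, Ti_pow_mul_T_pow hT, one_mul])
  right_inv z := Subtype.ext (by
    show T ^ a * (Ti ^ a * z.1) = z.1
    rw [← mul_assoc, mul_comm (T ^ a), Ti_pow_mul_T_pow hT, one_mul])

end Abstract

section Bridge

variable {k E : Type*} [Field k] [Field E] [Algebra k E] {x : E}
  (hx : Transcendental k x) [FiniteDimensional k⟮x⟯ E] [Algebra.IsSeparable k⟮x⟯ E]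

include hx in
omit [FiniteDimensional k⟮x⟯ E] [Algebra.IsSeparable k⟮x⟯ E] in
theorem T_mul_Ti (q : ℕ) : ((x, x ^ q) : E × E) * (x⁻¹, (x ^ q)⁻¹) = 1 := by
  have hx0 : x ≠ 0 := by
    rintro rfl
    exact hx isAlgebraic_zero
  ext
  · simp [hx0]
  · simp [hx0]

include hx in
/-- `twoPole k T Ti 0 b = L(b C) × L(b q C)`, `C = (x)_∞`. -/
theorem twoPole_zero_eq_Pb {C : Divisor k E} (hC : ∀ v : Place k E, C v = max 0 (-(v.ord x)))
    {q : ℕ} (hq : 0 < q) (b : ℕ) :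
    twoPole k ((x, x ^ q) : E × E) (x⁻¹, (x ^ q)⁻¹) 0 b = Pb 0 C 0 (q • C) b := by
  ext z
  rw [mem_twoPole_iff, pow_zero, one_mul, mem_Pb_iff_isIntegral hx hC hq]

include hx in
/-- `twoPole k T Ti a 0 = L(a C') × L(a q C')`, `C' = (x)_0`. -/
theorem twoPole_zero_eq_Pb_inv {C' : Divisor k E} (hC' : ∀ v : Place k E, C' v = max 0 (v.ord x))
    {q : ℕ} (hq : 0 < q) (a : ℕ) :
    twoPole k ((x, x ^ q) : E × E) (x⁻¹, (x ^ q)⁻¹) a 0 = Pb 0 C' 0 (q • C') a := by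
  ext z
  rw [mem_twoPole_iff, pow_zero, one_mul, mem_Pb_inv_iff_isIntegral hx hC' hq, and_comm]

variable [IsAlgClosed k]

include hx in
theorem finite_twoPole {q : ℕ} (hq : 0 < q) (a b : ℕ) :
    Module.Finite k (twoPole k ((x, x ^ q) : E × E) (x⁻¹, (x ^ q)⁻¹) a b) := by
  obtain ⟨C, hC, -⟩ := exists_poleDiv hx hx
  haveI : Module.Finite k (twoPole k ((x, x ^ q) : E × E) (x⁻¹, (x ^ q)⁻¹) 0 (b + a)) := by
    rw [twoPole_zero_eq_Pb hx hC hq]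
    exact finite_Pb_pow hx q _
  exact Module.Finite.equiv (mulPowEquiv (T_mul_Ti hx q) a b).symm

include hx in
/-- **Riemann-Roch for the two-chart pole spaces of `κ' × κ'`.** -/
theorem finrank_twoPole {q : ℕ} (hq : 0 < q) {a b : ℕ}
    (hab : 2 * (genusFF k E : ℤ) - 2 < ((a + b : ℕ) : ℤ) * (finrank k⟮x⟯ E : ℤ)) :
    (finrank k (twoPole k ((x, x ^ q) : E × E) (x⁻¹, (x ^ q)⁻¹) a b) : ℤ) =
      (((q + 1) * finrank k⟮x⟯ E : ℕ) : ℤ) * ((a + b : ℕ) : ℤ) + (2 - 2 * (genusFF k E : ℤ)) := by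
  obtain ⟨C, hC, hCdeg⟩ := exists_poleDiv hx hx
  rw [(mulPowEquiv (T_mul_Ti hx q) a b).finrank_eq, twoPole_zero_eq_Pb hx hC hq,
    finrank_Pb_pow hx hCdeg hq (b := b + a) (by rwa [add_comm b a]), add_comm b a]

include hx in
/-- One-step generation towards `∞`: for `a + b ≥ b₀ + 1`, every `p ∈ L(a C₀ + (b+1) C∞)` is
`y + T z` with `y, z ∈ L(a C₀ + b C∞)`. -/
theorem exists_add_T_mul {q : ℕ} (hq : 0 < q) {b₀ : ℕ}
    (hb₀ : 2 * (genusFF k E : ℤ) - 2 < b₀ * (finrank k⟮x⟯ E : ℤ)) {a b : ℕ}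
    (hab : b₀ + 1 ≤ a + b) {p : E × E}
    (hp : p ∈ twoPole k ((x, x ^ q) : E × E) (x⁻¹, (x ^ q)⁻¹) a (b + 1)) :
    ∃ y ∈ twoPole k ((x, x ^ q) : E × E) (x⁻¹, (x ^ q)⁻¹) a b,
      ∃ z ∈ twoPole k ((x, x ^ q) : E × E) (x⁻¹, (x ^ q)⁻¹) a b,
        p = y + ((x, x ^ q) : E × E) * z := by
  obtain ⟨C, hC, hCdeg⟩ := exists_poleDiv hx hx
  have hT := T_mul_Ti hx q
  have h1 : ((x, x ^ q) : E × E) ^ a * p ∈ Pb 0 C 0 (q • C) (b + a + 1) := by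
    rw [← twoPole_zero_eq_Pb hx hC hq, show b + a + 1 = (b + 1) + a by ring]
    exact (mem_twoPole_iff_pow_mul hT).mp hp
  obtain ⟨y, hy, z, hz, hyz⟩ :=
    exists_add_mul_of_mem_Pb_succ hx hC hCdeg hq hb₀ (b + a) (by omega) h1
  rw [← twoPole_zero_eq_Pb hx hC hq] at hy hz
  refine ⟨_, Ti_pow_mul_mem_twoPole hT hy, _, Ti_pow_mul_mem_twoPole hT hz, ?_⟩
  have h2 : ((x⁻¹, (x ^ q)⁻¹) : E × E) ^ a * (((x, x ^ q) : E × E) ^ a * p) = p := by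
    rw [← mul_assoc, Ti_pow_mul_T_pow hT, one_mul]
  rw [← h2, hyz]
  ring

include hx in
/-- One-step generation towards `0`: for `a + b ≥ b₀ + 1`, every `p ∈ L((a+1) C₀ + b C∞)` is
`y + Ti z` with `y, z ∈ L(a C₀ + b C∞)`. -/
theorem exists_add_Ti_mul {q : ℕ} (hq : 0 < q) {b₀ : ℕ}
    (hb₀ : 2 * (genusFF k E : ℤ) - 2 < b₀ * (finrank k⟮x⟯ E : ℤ)) {a b : ℕ}
    (hab : b₀ + 1 ≤ a + b) {p : E × E}
    (hp : p ∈ twoPole k ((x, x ^ q) : E × E) (x⁻¹, (x ^ q)⁻¹) (a + 1) b) :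
    ∃ y ∈ twoPole k ((x, x ^ q) : E × E) (x⁻¹, (x ^ q)⁻¹) a b,
      ∃ z ∈ twoPole k ((x, x ^ q) : E × E) (x⁻¹, (x ^ q)⁻¹) a b,
        p = y + ((x⁻¹, (x ^ q)⁻¹) : E × E) * z := by
  have hT := T_mul_Ti hx q
  -- `T p ∈ L(a C₀ + (b+1) C∞)`
  have h1 : ((x, x ^ q) : E × E) * p ∈
      twoPole k ((x, x ^ q) : E × E) (x⁻¹, (x ^ q)⁻¹) a (b + 1) :=
    (T_mul_mem_twoPole_iff hT).mpr hp
  obtain ⟨y, hy, z, hz, hyz⟩ := exists_add_T_mul hx hq hb₀ hab h1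
  -- `p = Ti y + z`
  refine ⟨z, hz, y, hy, ?_⟩
  have hTi : ((x⁻¹, (x ^ q)⁻¹) : E × E) * ((x, x ^ q) : E × E) = 1 := by
    rw [mul_comm]; exact hT
  have h2 : ((x⁻¹, (x ^ q)⁻¹) : E × E) * (((x, x ^ q) : E × E) * p) = p := by
    rw [← mul_assoc, hTi, one_mul]
  rw [← h2, hyz, mul_add, ← mul_assoc, hTi, one_mul, add_comm]

end Bridge

end Fermat.Agent.S34x.Lattice2.DimBridgeTwoPole
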