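import Fermat.Agent.S34x.Lattice2.AssembleCounts
import Fermat.Agent.S34x.Inst.CountsInst

/-!
# P-S34 (T4) at a two-component special fibre `E × E`, `T̄ = (x, x ^ q)`

`exists_const_mul_pow_of_counts` with the `k`-side inputs (`P(0,b)` finite dimensional, generated in
degree one) discharged by `Lattice2/DimBridgeTwoPole` (helper26) and the Riemann-Roch counts
`hdimS`, `hdimN` discharged by `Inst/CountsInst.exists_counts_prod` (helper72):

`R : RedSetup2 A S k (E × E)` with `E / k(x)` finite separable, `C.T = (x, x ^ q)` and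
`[F : K(t)] = (q + 1) [E : k(x)]`.  The remaining hypotheses are: the cartesian property `hcart`,
(L2) + the separating element + (N1) on both charts, and the Galois facts.
-/

set_option autoImplicit false
set_option linter.unusedSectionVars false
set_option linter.style.haveILetI false

noncomputable section

namespace Fermat.Agent.S34x.Lattice2

open AlgebraicCurve Module IntermediateField
open Fermat.Agent.Gateway.C0 Fermat.Agent.S34x.C0two
open Fermat.Agent.S34x.Inst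

variable {K : Type*} [Field K] [IsAlgClosed K] [CharZero K] {A : ValuationSubring K}
  {F : Type*} [Field F] [Algebra K F] {S : SmallRing F}
  {k : Type*} [Field k] [IsAlgClosed k] {E : Type*} [Field E] [Algebra k E] {x : E}
  (hx : Transcendental k x) [FiniteDimensional k⟮x⟯ E] [Algebra.IsSeparable k⟮x⟯ E]
  {q : ℕ} (hq : 0 < q)
  {R : RedSetup2 A S k (E × E)} (C : ChartCoord R) (hT : C.T = (x, x ^ q))
  (ht : Transcendental K C.t) [FiniteDimensional K⟮C.t⟯ F]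
  {Dt : Divisor K F} (hDt : ∀ v : Place K F, Dt v = v.ord C.t)
  (hn : finrank K⟮C.t⟯ F = (q + 1) * finrank k⟮x⟯ E)
  (hcart : ∀ V : Submodule K F, FiniteDimensional K V → (R.lat V).FG)

include hx hq hT in
/-- generation in degree one of `P(0,b)` on `E × E` (`DimBridgeTwoPole.exists_add_T_mul`) -/
theorem exists_hgen_prod : ∃ b₀ : ℕ, ∀ b, b₀ ≤ b → ∀ p ∈ C.Pk 0 (b + 1),
    ∃ y ∈ C.Pk 0 b, ∃ z ∈ C.Pk 0 b, p = y + C.T * z := by
  obtain ⟨b₀, hb₀⟩ := DimBridge.exists_threshold hx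
  refine ⟨b₀ + 1, fun b hb p hp => ?_⟩
  rw [CountsInst.Pk_eq hx C hT] at hp ⊢
  rw [hT]
  exact DimBridgeTwoPole.exists_add_T_mul hx hq hb₀ (a := 0) (b := b) (by omega) hp

variable (hL2 : C.IsL2) (hL2₀ : C.swap.IsL2)
  (he : ∃ c : E, IsIntegral (Algebra.adjoin k {C.T.2}) c ∧ ((1 : E), c * C.T.2) ∈ C.Bbar)
  (he₀ : ∃ c : E, IsIntegral (Algebra.adjoin k {C.Ti.2}) c ∧
    ((1 : E), c * C.Ti.2) ∈ C.swap.Bbar)
  {m : ℕ} (hm : IsUnit ((m : ℕ) : A)) (hm2 : 2 ≤ m)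
  (g : SemilinearAut K F) (hgt : g • C.t = C.t) (hgO : ∀ f ∈ S.O, g • f ∈ S.O)
  (hgres : ∀ (f : F) (hf : f ∈ S.O), R.res ⟨g • f, hgO f hf⟩ = R.res ⟨f, hf⟩)
  {p : ℕ} (hp : 2 ≤ p)
  (hN1 : ∀ g : C.B₂, ∃ g' : C.B₂, ((0 : C.B₁), g - g' ^ p) ∈ C.BbarT)
  {p₀ : ℕ} (hp₀ : 2 ≤ p₀)
  (hN1₀ : ∀ g : C.swap.B₂, ∃ g' : C.swap.B₂, ((0 : C.swap.B₁), g - g' ^ p₀) ∈ C.swap.BbarT)

include hx hq hT ht hDt hn hcart hL2 hL2₀ he he₀ hm hm2 hgt hgres hp hN1 hp₀ hN1₀ in
/-- **(T4) at a two-component special fibre `E × E` with `T̄ = (x, x ^ q)`**: for every normalised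
pair `(w, D)`, `g • w / w = c * v ^ m`. -/
theorem exists_const_mul_pow_of_prod
    {w : F} (hw0 : w ≠ 0) (hwO : w ∈ S.O) (hwiO : w⁻¹ ∈ S.O) (hw1 : R.res ⟨w, hwO⟩ = 1)
    {D : Divisor K F} (hD : ∀ v : Place K F, (m : ℤ) * D v = v.ord w) :
    ∃ (c : K) (v : F), g • w / w = algebraMap K F c * v ^ m := by
  haveI := isSeparable_adjoin_of_charZero (K := K) C.t
  haveI hPfin : ∀ b, FiniteDimensional k (C.Pk 0 b) := fun b => CountsInst.finite_Pk hx hq C hT 0 b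
  obtain ⟨b₀, hgen⟩ := exists_hgen_prod hx hq C hT
  obtain ⟨δ, -, b₂, hdimS, hdimN⟩ := CountsInst.exists_counts_prod hx hq C hT ht hDt hn
    (fun E' _ b => hcart _ ((TwoCharts.ofDivisor Dt).LM_finite ht E' 0 b))
  exact exists_const_mul_pow_of_counts C ht hDt hcart hgen hL2 hL2₀ he he₀ δ b₂ hdimS hm hm2 g hgt
    hgO hgres hp hN1 hp₀ hN1₀ hdimN hw0 hwO hwiO hw1 hD

end Fermat.Agent.S34x.Lattice2
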