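import Fermat.Agent.S34x.Lattice2.TwoPole

/-!
# P-S34 WP3 (abstract layer): integrality and pole spaces in a product of two rings

For commutative `k`-algebras `κ₁`, `κ₂` (the function fields of the two components of the special
fibre) and `T = (T₁, T₂) : κ₁ × κ₂`: an element `(y₁, y₂)` is integral over `k[T] ⊆ κ₁ × κ₂` iff
`yᵢ` is integral over `k[Tᵢ] ⊆ κᵢ` for `i = 1, 2`.  Hence the place-free pole spaces `twoPole` of
`κ₁ × κ₂` are the products of the pole spaces of the two components.  Mathlib only.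
-/

set_option autoImplicit false

noncomputable section

namespace Fermat.Agent.S34x.Lattice2

open Polynomial

section ringhom

variable {R R' S₁ S₂ S : Type*} [CommRing R] [CommRing R'] [CommRing S] [CommRing S₁] [CommRing S₂]

/-- Integrality along a ring hom only depends on its range. -/
theorem isIntegralElem_of_range_le (f : R →+* S) (g : R' →+* S) (h : f.range ≤ g.range) {x : S}
    (hx : f.IsIntegralElem x) : g.IsIntegralElem x := by
  obtain ⟨p, hp, hpx⟩ := hx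
  have hl : p.map f ∈ Polynomial.lifts g := by
    rw [Polynomial.lifts_iff_coeff_lifts]
    intro i
    rw [Polynomial.coeff_map]
    exact h ⟨_, rfl⟩
  obtain ⟨q, hq, -, hqm⟩ := Polynomial.lifts_and_natDegree_eq_and_monic hl (hp.map _)
  refine ⟨q, hqm, ?_⟩
  rw [← Polynomial.eval_map, hq, Polynomial.eval_map]
  exact hpx

/-- Integrality along a ring hom into a product is componentwise. -/
theorem isIntegralElem_prod_iff (f₁ : R →+* S₁) (f₂ : R →+* S₂) (x₁ : S₁) (x₂ : S₂) :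
    (f₁.prod f₂).IsIntegralElem (x₁, x₂) ↔ f₁.IsIntegralElem x₁ ∧ f₂.IsIntegralElem x₂ := by
  constructor
  · rintro ⟨p, hp, hpx⟩
    refine ⟨⟨p, hp, ?_⟩, ⟨p, hp, ?_⟩⟩
    · have := congrArg (RingHom.fst S₁ S₂) hpx
      rwa [Polynomial.hom_eval₂, RingHom.fst_comp_prod, map_zero] at this
    · have := congrArg (RingHom.snd S₁ S₂) hpx
      rwa [Polynomial.hom_eval₂, RingHom.snd_comp_prod, map_zero] at this
  · rintro ⟨⟨p₁, hp₁, hpx₁⟩, ⟨p₂, hp₂, hpx₂⟩⟩
    refine ⟨p₁ * p₂, hp₁.mul hp₂, ?_⟩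
    apply Prod.ext
    · have : (RingHom.fst S₁ S₂) (eval₂ (f₁.prod f₂) (x₁, x₂) (p₁ * p₂)) = 0 := by
        rw [Polynomial.hom_eval₂, RingHom.fst_comp_prod]
        show eval₂ f₁ x₁ (p₁ * p₂) = 0
        rw [eval₂_mul, hpx₁, zero_mul]
      exact this
    · have : (RingHom.snd S₁ S₂) (eval₂ (f₁.prod f₂) (x₁, x₂) (p₁ * p₂)) = 0 := by
        rw [Polynomial.hom_eval₂, RingHom.snd_comp_prod]
        show eval₂ f₂ x₂ (p₁ * p₂) = 0
        rw [eval₂_mul, hpx₂, mul_zero]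
      exact this

end ringhom

variable {k : Type*} [Field k] {κ : Type*} [CommRing κ] [Algebra k κ]
  {κ₁ κ₂ : Type*} [CommRing κ₁] [CommRing κ₂] [Algebra k κ₁] [Algebra k κ₂]

/-- Integrality over `k[T]` is integrality along `aeval T : k[X] → κ`. -/
theorem isIntegral_adjoin_iff_isIntegralElem (T y : κ) :
    IsIntegral (Algebra.adjoin k {T}) y ↔
      ((Polynomial.aeval T : k[X] →ₐ[k] κ) : k[X] →+* κ).IsIntegralElem y := by
  have hr : (algebraMap (Algebra.adjoin k {T}) κ).range =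
      ((Polynomial.aeval T : k[X] →ₐ[k] κ) : k[X] →+* κ).range := by
    ext z
    constructor
    · rintro ⟨⟨s, hs⟩, rfl⟩
      rw [Algebra.adjoin_singleton_eq_range_aeval] at hs
      obtain ⟨P, rfl⟩ := hs
      exact ⟨P, rfl⟩
    · rintro ⟨P, rfl⟩
      refine ⟨⟨aeval T P, ?_⟩, rfl⟩
      rw [Algebra.adjoin_singleton_eq_range_aeval]
      exact ⟨P, rfl⟩
  exact ⟨isIntegralElem_of_range_le _ _ hr.le, isIntegralElem_of_range_le _ _ hr.ge⟩

theorem aeval_prod_eq (T₁ : κ₁) (T₂ : κ₂) :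
    ((Polynomial.aeval ((T₁, T₂) : κ₁ × κ₂) : k[X] →ₐ[k] κ₁ × κ₂) : k[X] →+* κ₁ × κ₂) =
      ((Polynomial.aeval T₁ : k[X] →ₐ[k] κ₁) : k[X] →+* κ₁).prod
        ((Polynomial.aeval T₂ : k[X] →ₐ[k] κ₂) : k[X] →+* κ₂) := by
  apply Polynomial.ringHom_ext
  · intro a
    simp [Prod.algebraMap_apply]
  · simp

/-- **Integrality over `k[(T₁, T₂)]` in a product is componentwise.** -/
theorem isIntegral_adjoin_prod_iff (T₁ y₁ : κ₁) (T₂ y₂ : κ₂) :
    IsIntegral (Algebra.adjoin k {((T₁, T₂) : κ₁ × κ₂)}) ((y₁, y₂) : κ₁ × κ₂) ↔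
      IsIntegral (Algebra.adjoin k {T₁}) y₁ ∧ IsIntegral (Algebra.adjoin k {T₂}) y₂ := by
  rw [isIntegral_adjoin_iff_isIntegralElem, isIntegral_adjoin_iff_isIntegralElem,
    isIntegral_adjoin_iff_isIntegralElem, aeval_prod_eq, isIntegralElem_prod_iff]

/-- The pole spaces of a product are the products of the pole spaces. -/
theorem mem_twoPole_prod_iff (T Ti y : κ₁ × κ₂) (a b : ℕ) :
    y ∈ twoPole k T Ti a b ↔ y.1 ∈ twoPole k T.1 Ti.1 a b ∧ y.2 ∈ twoPole k T.2 Ti.2 a b := by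
  obtain ⟨T₁, T₂⟩ := T
  obtain ⟨Ti₁, Ti₂⟩ := Ti
  obtain ⟨y₁, y₂⟩ := y
  simp only [mem_twoPole_iff]
  have e1 : ((T₁, T₂) : κ₁ × κ₂) ^ a * (y₁, y₂) = (T₁ ^ a * y₁, T₂ ^ a * y₂) := by
    ext <;> simp
  have e2 : ((Ti₁, Ti₂) : κ₁ × κ₂) ^ b * (y₁, y₂) = (Ti₁ ^ b * y₁, Ti₂ ^ b * y₂) := by
    ext <;> simp
  rw [e1, e2, isIntegral_adjoin_prod_iff, isIntegral_adjoin_prod_iff]
  tauto

theorem twoPole_prod_eq (T Ti : κ₁ × κ₂) (a b : ℕ) :
    twoPole k T Ti a b = (twoPole k T.1 Ti.1 a b).prod (twoPole k T.2 Ti.2 a b) := by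
  ext y
  rw [mem_twoPole_prod_iff, Submodule.mem_prod]

end Fermat.Agent.S34x.Lattice2
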