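import Fermat.Agent.S34x.Lattice2.Setup
import Fermat.Agent.S34x.Lattice2.ProdIntegral
import Fermat.Agent.S34x.Goursat

/-!
# P-S34 WP3 (abstract layer): the (L2)-structure and the transport to `B̃₁ × B̃₂`

Residue ring `κ = κ₁ × κ₂` (two components).  For a chart coordinate `C`:

* `C.B₁`, `C.B₂`: the integral closures of `k[T₁]` in `κ₁`, of `k[T₂]` in `κ₂` (coordinate rings of
  the two components of the normalised special fibre on the chart `t ≠ ∞`);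
  `C.Btilde = B₁ × B₂` (`mem_Btilde_iff_prod`);
* `C.IsL2`: both projections `B̄ → B₁`, `B̄ → B₂` are onto ((L2) of `S34_PLAN`);
* `C.incl : B₁ × B₂ →ₐ[k] κ₁ × κ₂`, `C.BbarT`, `W.NbarT i`, `C.PT b`, `W.NbT i b`: the reduced
  chart ring, the reduced twisted modules and the pole filtration as subobjects of the TYPE
  `B₁ × B₂`, with the hypotheses `h1 h2 hBN hpowN hNN'` of `Goursat.exists_sum_mul_eq_one_of_glued`
  and `hmono htop hNb hNP hSb hSP` of `UB.finrank_quotient_le_finrank_quotient`;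
* `TwistFam.exists_sum_mul_eq_one`: (N1)+(N2) for `N_1`, `N_{m-1}`, pushed to `κ`;
* `TwistFam.exists_one_of_glued`: (N1)+(N2)+(N3), the hypothesis `hone` of `TheoremB`.
-/

set_option autoImplicit false
set_option linter.unusedSectionVars false

noncomputable section

namespace Fermat.Agent.S34x.Lattice2

open Fermat.Agent.S34x.C0two Module

variable {K : Type*} [Field K] {A : ValuationSubring K} {F : Type*} [Field F] [Algebra K F]
  {S : SmallRing F} {k κ₁ κ₂ : Type*} [Field k] [CommRing κ₁] [CommRing κ₂] [Algebra k κ₁]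
  [Algebra k κ₂] {R : RedSetup2 A S k (κ₁ × κ₂)}

/-- comap along an injective linear map of a subspace of the range does not change the
dimension -/
def comapEquivOfLeRange {k V W : Type*} [Field k] [AddCommGroup V] [Module k V] [AddCommGroup W]
    [Module k W] (φ : V →ₗ[k] W) (hφ : Function.Injective φ) (U : Submodule k W)
    (hU : U ≤ LinearMap.range φ) : (U.comap φ) ≃ₗ[k] U :=
  LinearEquiv.ofBijective
    { toFun := fun x => ⟨φ x.1, x.2⟩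
      map_add' := fun x y => Subtype.ext (map_add φ x.1 y.1)
      map_smul' := fun c x => Subtype.ext (map_smul φ c x.1) }
    ⟨fun x y h => Subtype.ext (hφ (congrArg Subtype.val h)),
      fun u => by
        obtain ⟨v, hv⟩ := hU u.2
        exact ⟨⟨v, by show φ v ∈ U; rw [hv]; exact u.2⟩, Subtype.ext hv⟩⟩

namespace ChartCoord

variable (C : ChartCoord R)

/-- the coordinate ring of the first component: the integral closure of `k[T₁]` in `κ₁` -/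
def B₁ : Subalgebra k κ₁ := (integralClosure (Algebra.adjoin k {C.T.1}) κ₁).restrictScalars k

/-- the coordinate ring of the second component: the integral closure of `k[T₂]` in `κ₂` -/
def B₂ : Subalgebra k κ₂ := (integralClosure (Algebra.adjoin k {C.T.2}) κ₂).restrictScalars k

theorem mem_B₁_iff {f : κ₁} : f ∈ C.B₁ ↔ IsIntegral (Algebra.adjoin k {C.T.1}) f := Iff.rfl

theorem mem_B₂_iff {g : κ₂} : g ∈ C.B₂ ↔ IsIntegral (Algebra.adjoin k {C.T.2}) g := Iff.rfl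

/-- `B̃ = B₁ × B₂`. -/
theorem mem_Btilde_iff_prod {y : κ₁ × κ₂} : y ∈ C.Btilde ↔ y.1 ∈ C.B₁ ∧ y.2 ∈ C.B₂ := by
  rw [mem_Btilde_iff, mem_B₁_iff, mem_B₂_iff, ← isIntegral_adjoin_prod_iff]

/-- **(L2)**: both projections of the reduced chart ring onto the coordinate rings of the two
components are surjective. -/
structure IsL2 : Prop where
  fst : ∀ f : κ₁, IsIntegral (Algebra.adjoin k {C.T.1}) f → ∃ g : κ₂, (f, g) ∈ C.Bbar
  snd : ∀ g : κ₂, IsIntegral (Algebra.adjoin k {C.T.2}) g → ∃ f : κ₁, (f, g) ∈ C.Bbar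

/-- (L2) from liftings: every element of `B₁` (resp. `B₂`) is the first (resp. second) component
of the reduction of an element of `S.O` integral over `K[t]`. -/
theorem IsL2.of_lift
    (h₁ : ∀ f : κ₁, IsIntegral (Algebra.adjoin k {C.T.1}) f → ∃ (x : F) (hx : x ∈ S.O),
      IsIntegral (Algebra.adjoin K {C.t}) x ∧ (R.res ⟨x, hx⟩).1 = f)
    (h₂ : ∀ g : κ₂, IsIntegral (Algebra.adjoin k {C.T.2}) g → ∃ (x : F) (hx : x ∈ S.O),
      IsIntegral (Algebra.adjoin K {C.t}) x ∧ (R.res ⟨x, hx⟩).2 = g) : C.IsL2 := by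
  constructor
  · intro f hf
    obtain ⟨x, hx, hxi, rfl⟩ := h₁ f hf
    obtain ⟨b, hb⟩ := (isIntegral_iff_exists_mem_twoPole C.t_mul_tinv).mp hxi
    exact ⟨(R.res ⟨x, hx⟩).2, C.res_mem_Bbar hx hb⟩
  · intro g hg
    obtain ⟨x, hx, hxi, rfl⟩ := h₂ g hg
    obtain ⟨b, hb⟩ := (isIntegral_iff_exists_mem_twoPole C.t_mul_tinv).mp hxi
    exact ⟨(R.res ⟨x, hx⟩).1, C.res_mem_Bbar hx hb⟩

/-- the inclusion `B₁ × B₂ → κ₁ × κ₂` -/
def incl : C.B₁ × C.B₂ →ₐ[k] κ₁ × κ₂ :=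
  ((C.B₁.val).comp (AlgHom.fst k C.B₁ C.B₂)).prod ((C.B₂.val).comp (AlgHom.snd k C.B₁ C.B₂))

@[simp] theorem incl_apply (z : C.B₁ × C.B₂) : C.incl z = ((z.1 : κ₁), (z.2 : κ₂)) := rfl

theorem incl_injective : Function.Injective C.incl := by
  intro z z' h
  have h1 := congrArg Prod.fst h
  have h2 := congrArg Prod.snd h
  simp only [incl_apply] at h1 h2
  exact Prod.ext (Subtype.ext h1) (Subtype.ext h2)

theorem mem_Btilde_iff_range {y : κ₁ × κ₂} : y ∈ C.Btilde ↔ ∃ z, C.incl z = y := by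
  rw [mem_Btilde_iff_prod]
  constructor
  · rintro ⟨h1, h2⟩
    exact ⟨(⟨y.1, h1⟩, ⟨y.2, h2⟩), rfl⟩
  · rintro ⟨z, rfl⟩
    exact ⟨z.1.2, z.2.2⟩

theorem Btilde_le_range : Subalgebra.toSubmodule C.Btilde ≤ LinearMap.range C.incl.toLinearMap := by
  intro y hy
  obtain ⟨z, hz⟩ := C.mem_Btilde_iff_range.mp hy
  exact ⟨z, hz⟩

/-- the reduced chart ring inside `B₁ × B₂` -/
def BbarT : Subalgebra k (C.B₁ × C.B₂) := C.Bbar.comap C.incl

theorem mem_BbarT_iff {z : C.B₁ × C.B₂} : z ∈ C.BbarT ↔ C.incl z ∈ C.Bbar := Iff.rfl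

/-- the pole filtration `P(0,b)` inside `B₁ × B₂` -/
def PT (b : ℕ) : Submodule k (C.B₁ × C.B₂) := (C.Pk 0 b).comap C.incl.toLinearMap

theorem mem_PT_iff {b : ℕ} {z : C.B₁ × C.B₂} : z ∈ C.PT b ↔ C.incl z ∈ C.Pk 0 b := Iff.rfl

theorem PT_mono : Monotone C.PT := fun _ _ h _ hz => C.Pk_mono le_rfl h hz

/-- the pole filtration exhausts `B₁ × B₂` -/
theorem exists_mem_PT (z : C.B₁ × C.B₂) : ∃ b, z ∈ C.PT b :=
  C.mem_Btilde_iff_exists.mp (C.mem_Btilde_iff_range.mpr ⟨z, rfl⟩)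

/-- `PT b ≃ Pk 0 b`. -/
def PTEquiv (b : ℕ) : C.PT b ≃ₗ[k] C.Pk 0 b :=
  comapEquivOfLeRange C.incl.toLinearMap C.incl_injective (C.Pk 0 b)
    ((C.Pk_zero_le_Btilde b).trans C.Btilde_le_range)

theorem finrank_PT (b : ℕ) : finrank k (C.PT b) = finrank k (C.Pk 0 b) :=
  (C.PTEquiv b).finrank_eq

theorem finite_PT (b : ℕ) [Module.Finite k (C.Pk 0 b)] : Module.Finite k (C.PT b) :=
  Module.Finite.equiv (C.PTEquiv b).symm

variable {C}

/-- `h1` of Goursat. -/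
theorem IsL2.h1 (h : C.IsL2) : ∀ f : C.B₁, ∃ g : C.B₂, (f, g) ∈ C.BbarT := by
  intro f
  obtain ⟨g, hg⟩ := h.fst f.1 f.2
  have hg2 : g ∈ C.B₂ := (C.mem_Btilde_iff_prod.mp (C.Bbar_le_Btilde hg)).2
  exact ⟨⟨g, hg2⟩, hg⟩

/-- `h2` of Goursat. -/
theorem IsL2.h2 (h : C.IsL2) : ∀ g : C.B₂, ∃ f : C.B₁, (f, g) ∈ C.BbarT := by
  intro g
  obtain ⟨f, hf⟩ := h.snd g.1 g.2
  have hf1 : f ∈ C.B₁ := (C.mem_Btilde_iff_prod.mp (C.Bbar_le_Btilde hf)).1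
  exact ⟨⟨f, hf1⟩, hf⟩

end ChartCoord

namespace TwistFam

variable {C : ChartCoord R} {m : ℕ} (W : TwistFam C m)

/-- the reduced twisted module `N_i` inside `B₁ × B₂` -/
def NbarT (i : ℕ) : Submodule k (C.B₁ × C.B₂) := (W.Nbar i).comap C.incl.toLinearMap

theorem mem_NbarT_iff {i : ℕ} {z : C.B₁ × C.B₂} : z ∈ W.NbarT i ↔ C.incl z ∈ W.Nbar i := Iff.rfl

/-- the reduction of `L(i D + b C∞) ∩ O` inside `B₁ × B₂` -/
def NbT (i b : ℕ) : Submodule k (C.B₁ × C.B₂) :=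
  (R.redLat (W.L i 0 b)).comap C.incl.toLinearMap

theorem NbT_le_NbarT (i b : ℕ) : W.NbT i b ≤ W.NbarT i := fun _ hz => W.redLat_le_Nbar i b hz

theorem NbT_le_PT (hm : 0 < m) (i b : ℕ) : W.NbT i b ≤ C.PT b :=
  fun _ hz => W.redLat_le_Pk hm i 0 b hz

/-- `NbT i b ≃ red (L(i D + b C∞) ∩ O)`. -/
def NbTEquiv (hm : 0 < m) (i b : ℕ) : W.NbT i b ≃ₗ[k] R.redLat (W.L i 0 b) :=
  comapEquivOfLeRange C.incl.toLinearMap C.incl_injective _
    (((W.redLat_le_Pk hm i 0 b).trans (C.Pk_zero_le_Btilde b)).trans C.Btilde_le_range)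

theorem finrank_NbT (hm : 0 < m) (i b : ℕ) :
    finrank k (W.NbT i b) = finrank k (R.redLat (W.L i 0 b)) :=
  (W.NbTEquiv hm i b).finrank_eq

theorem NbarT_zero : W.NbarT 0 = Subalgebra.toSubmodule C.BbarT := by
  ext z
  rw [mem_NbarT_iff, W.Nbar_zero]
  rfl

/-- `hBN` of Goursat. -/
theorem BbarT_mul_mem_NbarT (i : ℕ) : ∀ b ∈ C.BbarT, ∀ n ∈ W.NbarT i, b * n ∈ W.NbarT i := by
  intro b hb n hn
  rw [mem_NbarT_iff, map_mul]
  exact W.Bbar_mul_mem_Nbar hb hn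

/-- `hpowN` of Goursat with `e = m - 1`. -/
theorem mul_pow_mem_BbarT (hm : 0 < m) (i : ℕ) :
    ∀ n₀ ∈ W.NbarT i, ∀ n ∈ W.NbarT i, n₀ * n ^ (m - 1) ∈ C.BbarT := by
  intro n₀ hn₀ n hn
  rw [ChartCoord.mem_BbarT_iff, map_mul, map_pow]
  exact W.mul_pow_mem_Bbar hm hn₀ hn

/-- `hNN'` of Goursat. -/
theorem mul_mem_BbarT {i j : ℕ} (hij : i + j = m) :
    ∀ n ∈ W.NbarT i, ∀ n' ∈ W.NbarT j, n * n' ∈ C.BbarT := by
  intro n hn n' hn'
  rw [ChartCoord.mem_BbarT_iff, map_mul]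
  exact W.mul_mem_Bbar hij hn hn'

/-- **(N1) + (N2)** for the pair `(N_i, N_j)`, `i + j = m`, in `κ`: if (L2) holds, the glueing ring
is reduced (`hN1`) and the codimensions of `N_i`, `N_j` in `B̃` are at most that of `B̄` (node
count), then `1 = ∑ f f'` with `f ∈ N_i`, `f' ∈ N_j`. -/
theorem exists_sum_mul_eq_one [IsAlgClosed k] (hm : 0 < m) (hL2 : C.IsL2)
    [Module.Finite k ((C.B₁ × C.B₂) ⧸ Subalgebra.toSubmodule C.BbarT)]
    (p : ℕ) (hp : 2 ≤ p)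
    (hN1 : ∀ g : C.B₂, ∃ g' : C.B₂, ((0 : C.B₁), g - g' ^ p) ∈ C.BbarT)
    {i j : ℕ} (hij : i + j = m)
    [Module.Finite k ((C.B₁ × C.B₂) ⧸ W.NbarT i)] [Module.Finite k ((C.B₁ × C.B₂) ⧸ W.NbarT j)]
    (hcodim : finrank k ((C.B₁ × C.B₂) ⧸ W.NbarT i) ≤
      finrank k ((C.B₁ × C.B₂) ⧸ Subalgebra.toSubmodule C.BbarT))
    (hcodim' : finrank k ((C.B₁ × C.B₂) ⧸ W.NbarT j) ≤
      finrank k ((C.B₁ × C.B₂) ⧸ Subalgebra.toSubmodule C.BbarT)) :
    ∃ (r : ℕ) (f f' : Fin r → κ₁ × κ₂), (∀ l, f l ∈ W.Nbar i) ∧ (∀ l, f' l ∈ W.Nbar j) ∧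
      ∑ l, f l * f' l = 1 := by
  obtain ⟨r, a, b, ha, hb, hsum⟩ := Goursat.exists_sum_mul_eq_one_of_glued C.BbarT hL2.h1 hL2.h2
    p hp hN1 (W.NbarT i) (W.NbarT j) (W.BbarT_mul_mem_NbarT i) (W.BbarT_mul_mem_NbarT j)
    (W.mul_pow_mem_BbarT hm i) (W.mul_pow_mem_BbarT hm j) hcodim hcodim' (W.mul_mem_BbarT hij)
  refine ⟨r, fun l => C.incl (a l), fun l => C.incl (b l), ha, hb, ?_⟩
  have := congrArg C.incl hsum
  rw [map_sum, map_one] at this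
  rw [← this]
  exact Finset.sum_congr rfl fun l _ => (map_mul C.incl (a l) (b l)).symm

/-- **(N1) + (N2) + (N3)**: the hypothesis `hone` of `TheoremB` on the chart of `C`. -/
theorem exists_one_of_glued [IsAlgClosed k] (hm : 2 ≤ m) (hL2 : C.IsL2)
    [Module.Finite k ((C.B₁ × C.B₂) ⧸ Subalgebra.toSubmodule C.BbarT)]
    (p : ℕ) (hp : 2 ≤ p)
    (hN1 : ∀ g : C.B₂, ∃ g' : C.B₂, ((0 : C.B₁), g - g' ^ p) ∈ C.BbarT)
    [Module.Finite k ((C.B₁ × C.B₂) ⧸ W.NbarT 1)]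
    [Module.Finite k ((C.B₁ × C.B₂) ⧸ W.NbarT (m - 1))]
    (hcodim : finrank k ((C.B₁ × C.B₂) ⧸ W.NbarT 1) ≤
      finrank k ((C.B₁ × C.B₂) ⧸ Subalgebra.toSubmodule C.BbarT))
    (hcodim' : finrank k ((C.B₁ × C.B₂) ⧸ W.NbarT (m - 1)) ≤
      finrank k ((C.B₁ × C.B₂) ⧸ Subalgebra.toSubmodule C.BbarT))
    {σ : F →+* F} (hσO : ∀ x ∈ S.O, σ x ∈ S.O)
    (hσres : ∀ (x : F) (hx : x ∈ S.O), R.res ⟨σ x, hσO x hx⟩ = R.res ⟨x, hx⟩)
    (LE : ℕ → Submodule K F) (hLE : Monotone LE)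
    (hN3 : ∀ {b b' : ℕ} {x y : F}, x ∈ W.L 1 0 b → y ∈ W.L (m - 1) 0 b' →
      σ x * y * W.u ∈ LE (b + b')) :
    ∃ (n : ℕ) (g : F) (hg : g ∈ S.O), g ∈ LE n ∧ R.res ⟨g, hg⟩ = 1 := by
  obtain ⟨r, f, f', hf, hf', hsum⟩ := W.exists_sum_mul_eq_one (by omega) hL2 p hp hN1
    (i := 1) (j := m - 1) (by omega) hcodim hcodim'
  exact W.exists_one_of_sum hσO hσres LE hLE hN3 f f' hf hf' hsum

end TwistFam

end Fermat.Agent.S34x.Lattice2
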