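import Fermat.Agent.S34x.Lattice2.Setup

/-!
# P-S34 WP3 (abstract layer): the second chart

`C.swap` is the chart coordinate `t⁻¹` (the chart `t ≠ 0`); `W.swap` the same twisted family
with the roles of `C₀` and `C∞` exchanged: `W.swap.L i a b = W.L i b a`.  All statements about
the chart `t ≠ ∞` (`Bbar`, `Nbar`, `IsL2`, `exists_one_of_glued`, …) apply to the chart `t ≠ 0`
through `swap`; e.g. `W.swap.Nbar i = ⋃_a red (L(i D + a C₀) ∩ O)`.
-/

set_option autoImplicit false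
set_option linter.unusedSectionVars false

noncomputable section

namespace Fermat.Agent.S34x.Lattice2

open Fermat.Agent.S34x.C0two

variable {K : Type*} [Field K] {A : ValuationSubring K} {F : Type*} [Field F] [Algebra K F]
  {S : SmallRing F} {k κ : Type*} [Field k] [CommRing κ] [Algebra k κ]
  {R : RedSetup2 A S k κ}

namespace ChartCoord

variable (C : ChartCoord R)

theorem tinvinv_mem : C.t⁻¹⁻¹ ∈ S.O := by rw [inv_inv]; exact C.t_mem

theorem res_tinvinv : R.res ⟨C.t⁻¹⁻¹, C.tinvinv_mem⟩ = R.res ⟨C.t, C.t_mem⟩ :=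
  res_congr R (inv_inv C.t) _ _

/-- The chart `t ≠ 0`, with coordinate `t⁻¹`. -/
def swap : ChartCoord R where
  t := C.t⁻¹
  t_ne := inv_ne_zero C.t_ne
  t_mem := C.tinv_mem
  tinv_mem := C.tinvinv_mem
  hint1 := C.hint2
  hint2 := by
    intro f hf h
    rw [C.res_tinvinv]
    rw [inv_inv] at h
    exact C.hint1 f hf h

@[simp] theorem swap_t : C.swap.t = C.t⁻¹ := rfl

theorem swap_T : C.swap.T = C.Ti := rfl

theorem swap_Ti : C.swap.Ti = C.T := C.res_tinvinv

theorem swap_LN (a b : ℕ) : C.swap.LN a b = C.LN b a := by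
  show twoPole K C.t⁻¹ C.t⁻¹⁻¹ a b = twoPole K C.t C.t⁻¹ b a
  rw [inv_inv, twoPole_swap]

theorem swap_Pk (a b : ℕ) : C.swap.Pk a b = C.Pk b a := by
  show twoPole k C.swap.T C.swap.Ti a b = twoPole k C.T C.Ti b a
  rw [swap_T, swap_Ti, twoPole_swap]

end ChartCoord

namespace TwistFam

variable {C : ChartCoord R} {m : ℕ} (W : TwistFam C m)

/-- The same twisted family, seen from the chart `t ≠ 0`. -/
def swap : TwistFam C.swap m where
  L i a b := W.L i b a
  L_zero a b := by rw [W.L_zero, C.swap_LN]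
  L_mono ha hb := W.L_mono hb ha
  L_mul hx hy := W.L_mul hx hy
  L_inf hx hx' := W.L_inf hx hx'
  L_shift {i a b x} := by
    show C.t⁻¹ * x ∈ W.L i (b + 1) a ↔ x ∈ W.L i b (a + 1)
    rw [← W.L_shift (x := C.t⁻¹ * x), ← mul_assoc, C.t_mul_tinv, one_mul]
  u := W.u
  u_ne := W.u_ne
  u_mem := W.u_mem
  uinv_mem := W.uinv_mem
  res_u := W.res_u
  u_mul hx := W.u_mul hx
  uinv_mul hx := W.uinv_mul hx

@[simp] theorem swap_L (i a b : ℕ) : W.swap.L i a b = W.L i b a := rfl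

@[simp] theorem swap_u : W.swap.u = W.u := rfl

/-- `W.swap.Nbar i = ⋃_a red (L(i D + a C₀) ∩ O)`. -/
theorem mem_swap_Nbar_iff {i : ℕ} {y : κ} : y ∈ W.swap.Nbar i ↔
    ∃ (a : ℕ) (x : F) (hx : x ∈ S.O), x ∈ W.L i a 0 ∧ R.res ⟨x, hx⟩ = y := Iff.rfl

end TwistFam

end Fermat.Agent.S34x.Lattice2
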