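import Fermat.Agent.S34x.C0two.Count
import Fermat.Agent.S34x.Lattice2.TwoPole

/-!
# P-S34 WP3 (abstract layer): two-chart lattices over a small ring and their reductions

Setting: `R : C0two.RedSetup2 A S k κ` (`S.O = O_∞ ∩ O_0`, `κ = κ_∞ × κ_0`).

* `ChartCoord R`: a chart coordinate `t` (unit of `S.O`) for which integrality over `K[t]`,
  `K[t⁻¹]` survives reduction (`hint1`, `hint2` = (L1)).  `C.LN a b = L(a C₀ + b C∞)` and
  `C.Pk a b` (special fibre) are the place-free `twoPole` spaces; `C.SC` is the specialisation.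
* `TwistFam C m`: a family `L i a b = L(i D + a C₀ + b C∞)` of twisted spaces with `div u = m D`,
  `res u = 1`.  Derived: Step 1 (`redLat_le_Pk`), the reduced chart ring `Bbar`, the reduced twisted
  modules `Nbar i`, their multiplicative structure, and the formal fields of `C0two.TwistSystem`.
-/

set_option autoImplicit false
set_option linter.unusedSectionVars false

noncomputable section

namespace Fermat.Agent.S34x.Lattice2

open Fermat.Agent.S34x.C0two Module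

variable {K : Type*} [Field K] {A : ValuationSubring K} {F : Type*} [Field F] [Algebra K F]
  {S : SmallRing F} {k κ : Type*} [Field k] [CommRing κ] [Algebra k κ]

/-! ### generalities on `lat`, `redLat` -/

section gen

variable (R : RedSetup2 A S k κ)

theorem lat_mono {V W : Submodule K F} (h : V ≤ W) : R.lat V ≤ R.lat W :=
  fun _ hx => ⟨h hx.1, hx.2⟩

theorem redLat_mono {V W : Submodule K F} (h : V ≤ W) : R.redLat V ≤ R.redLat W := by
  rintro _ ⟨x, hx, hxV, rfl⟩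
  exact ⟨x, hx, h hxV, rfl⟩

theorem res_mem_redLat {V : Submodule K F} {x : F} (hx : x ∈ S.O) (hxV : x ∈ V) :
    R.res ⟨x, hx⟩ ∈ R.redLat V := ⟨x, hx, hxV, rfl⟩

theorem res_mul {x y : F} (hx : x ∈ S.O) (hy : y ∈ S.O) :
    R.res ⟨x * y, S.O.mul_mem hx hy⟩ = R.res ⟨x, hx⟩ * R.res ⟨y, hy⟩ :=
  map_mul R.res ⟨x, hx⟩ ⟨y, hy⟩

theorem res_pow {x : F} (hx : x ∈ S.O) (n : ℕ) :
    R.res ⟨x ^ n, S.O.pow_mem hx n⟩ = R.res ⟨x, hx⟩ ^ n :=
  map_pow R.res ⟨x, hx⟩ n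

theorem res_congr {x y : F} (h : x = y) (hx : x ∈ S.O) (hy : y ∈ S.O) :
    R.res ⟨x, hx⟩ = R.res ⟨y, hy⟩ := by
  subst h; rfl

end gen

/-- A chart coordinate: a unit `t` of `S.O` such that integrality over `K[t]` and over `K[t⁻¹]`
is preserved by the reduction map ((L1)). -/
structure ChartCoord (R : RedSetup2 A S k κ) where
  t : F
  t_ne : t ≠ 0
  t_mem : t ∈ S.O
  tinv_mem : t⁻¹ ∈ S.O
  hint1 : ∀ (f : F) (hf : f ∈ S.O), IsIntegral (Algebra.adjoin K {t}) f →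
    IsIntegral (Algebra.adjoin k {R.res ⟨t, t_mem⟩}) (R.res ⟨f, hf⟩)
  hint2 : ∀ (f : F) (hf : f ∈ S.O), IsIntegral (Algebra.adjoin K {t⁻¹}) f →
    IsIntegral (Algebra.adjoin k {R.res ⟨t⁻¹, tinv_mem⟩}) (R.res ⟨f, hf⟩)

namespace ChartCoord

variable {R : RedSetup2 A S k κ} (C : ChartCoord R)

/-- the reduction of `t` -/
def T : κ := R.res ⟨C.t, C.t_mem⟩

/-- the reduction of `t⁻¹` -/
def Ti : κ := R.res ⟨C.t⁻¹, C.tinv_mem⟩

theorem t_mul_tinv : C.t * C.t⁻¹ = 1 := mul_inv_cancel₀ C.t_ne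

theorem T_mul_Ti : C.T * C.Ti = 1 := by
  rw [T, Ti, ← map_mul]
  have : (⟨C.t, C.t_mem⟩ : S.O) * ⟨C.t⁻¹, C.tinv_mem⟩ = 1 := Subtype.ext C.t_mul_tinv
  rw [this, map_one]

/-- `L(a C₀ + b C∞)` in characteristic `0`. -/
def LN (a b : ℕ) : Submodule K F := twoPole K C.t C.t⁻¹ a b

/-- `L(a C̄₀ + b C̄∞)` on the special fibre (componentwise poles, no glueing condition). -/
def Pk (a b : ℕ) : Submodule k κ := twoPole k C.T C.Ti a b

theorem t_pow_mem (n : ℕ) : C.t ^ n ∈ S.O := S.O.pow_mem C.t_mem n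

theorem tinv_pow_mem (n : ℕ) : C.t⁻¹ ^ n ∈ S.O := S.O.pow_mem C.tinv_mem n

theorem res_t_pow_mul (n : ℕ) {x : F} (hx : x ∈ S.O) :
    R.res ⟨C.t ^ n * x, S.O.mul_mem (C.t_pow_mem n) hx⟩ = C.T ^ n * R.res ⟨x, hx⟩ := by
  rw [res_mul R (C.t_pow_mem n) hx, res_pow R C.t_mem n]; rfl

theorem res_tinv_pow_mul (n : ℕ) {x : F} (hx : x ∈ S.O) :
    R.res ⟨C.t⁻¹ ^ n * x, S.O.mul_mem (C.tinv_pow_mem n) hx⟩ = C.Ti ^ n * R.res ⟨x, hx⟩ := by
  rw [res_mul R (C.tinv_pow_mem n) hx, res_pow R C.tinv_mem n]; rfl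

/-- **(L1), specialisation**: `L(a C₀ + b C∞) ∩ O` reduces into `L(a C̄₀ + b C̄∞)`. -/
theorem SC (a b : ℕ) (x : F) (hx : x ∈ S.O) (hxL : x ∈ C.LN a b) :
    R.res ⟨x, hx⟩ ∈ C.Pk a b := by
  obtain ⟨h1, h2⟩ := hxL
  refine ⟨?_, ?_⟩
  · have := C.hint1 _ (S.O.mul_mem (C.t_pow_mem a) hx) h1
    rwa [C.res_t_pow_mul a hx] at this
  · have := C.hint2 _ (S.O.mul_mem (C.tinv_pow_mem b) hx) h2
    rwa [C.res_tinv_pow_mul b hx] at this

theorem redLat_LN_le (a b : ℕ) : R.redLat (C.LN a b) ≤ C.Pk a b := by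
  rintro _ ⟨x, hx, hxL, rfl⟩
  exact C.SC a b x hx hxL

theorem t_mem_LN : C.t ∈ C.LN 0 1 := T_mem_twoPole C.t_mul_tinv

theorem tinv_mem_LN : C.t⁻¹ ∈ C.LN 1 0 := Ti_mem_twoPole C.t_mul_tinv

theorem one_mem_LN : (1 : F) ∈ C.LN 0 0 := one_mem_twoPole _ _

theorem T_mem_Pk : C.T ∈ C.Pk 0 1 := T_mem_twoPole C.T_mul_Ti

end ChartCoord

/-- A family of twisted spaces `L i a b = L(i D + a C₀ + b C∞)`, `div u = m D`, `res u = 1`. -/
structure TwistFam {R : RedSetup2 A S k κ} (C : ChartCoord R) (m : ℕ) where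
  L : ℕ → ℕ → ℕ → Submodule K F
  L_zero : ∀ a b, L 0 a b = C.LN a b
  L_mono : ∀ {i a b a' b' : ℕ}, a ≤ a' → b ≤ b' → L i a b ≤ L i a' b'
  L_mul : ∀ {i j a b a' b' : ℕ} {x y : F}, x ∈ L i a b → y ∈ L j a' b' →
    x * y ∈ L (i + j) (a + a') (b + b')
  L_inf : ∀ {i a b a' b' : ℕ} {x : F}, x ∈ L i a b → x ∈ L i a' b' →
    x ∈ L i (min a a') (min b b')
  /-- `t · L(i D + (a+1) C₀ + b C∞) = L(i D + a C₀ + (b+1) C∞)` -/
  L_shift : ∀ {i a b : ℕ} {x : F}, C.t * x ∈ L i a (b + 1) ↔ x ∈ L i (a + 1) b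
  u : F
  u_ne : u ≠ 0
  u_mem : u ∈ S.O
  uinv_mem : u⁻¹ ∈ S.O
  res_u : R.res ⟨u, u_mem⟩ = 1
  u_mul : ∀ {i a b : ℕ} {x : F}, x ∈ L (i + m) a b → u * x ∈ L i a b
  uinv_mul : ∀ {i a b : ℕ} {x : F}, x ∈ L i a b → u⁻¹ * x ∈ L (i + m) a b

namespace TwistFam

variable {R : RedSetup2 A S k κ} {C : ChartCoord R} {m : ℕ} (W : TwistFam C m)

theorem res_uinv : R.res ⟨W.u⁻¹, W.uinv_mem⟩ = 1 := by
  have h1 : (⟨W.u, W.u_mem⟩ : S.O) * ⟨W.u⁻¹, W.uinv_mem⟩ = 1 :=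
    Subtype.ext (mul_inv_cancel₀ W.u_ne)
  have h2 := congrArg R.res h1
  rwa [map_mul, W.res_u, one_mul, map_one] at h2

theorem one_mem_L : (1 : F) ∈ W.L 0 0 0 := by
  rw [W.L_zero]; exact C.one_mem_LN

theorem pow_mem_L {i a b : ℕ} {x : F} (hx : x ∈ W.L i a b) (n : ℕ) :
    x ^ n ∈ W.L (n * i) (n * a) (n * b) := by
  induction n with
  | zero => simpa using W.one_mem_L
  | succ n ih =>
    rw [pow_succ, Nat.succ_mul, Nat.succ_mul, Nat.succ_mul]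
    exact W.L_mul ih hx

theorem u_pow_mul {r j a b : ℕ} {y : F} (hy : y ∈ W.L (r + j * m) a b) :
    W.u ^ j * y ∈ W.L r a b := by
  induction j generalizing y with
  | zero => simpa using hy
  | succ j ih =>
    have h1 : r + (j + 1) * m = (r + j * m) + m := by ring
    rw [h1] at hy
    have h2 := ih (W.u_mul hy)
    have h3 : W.u ^ (j + 1) * y = W.u ^ j * (W.u * y) := by ring
    rw [h3]
    exact h2

/-- the `m`-th power trick: `x ∈ L(iD + …) ⇒ uⁱ xᵐ ∈ L(m …)`. -/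
theorem u_pow_mul_pow_mem {i a b : ℕ} {x : F} (hx : x ∈ W.L i a b) :
    W.u ^ i * x ^ m ∈ C.LN (m * a) (m * b) := by
  rw [← W.L_zero]
  apply W.u_pow_mul
  have := W.pow_mem_L hx m
  rwa [zero_add, mul_comm i m]

theorem u_pow_mem (n : ℕ) : W.u ^ n ∈ S.O := S.O.pow_mem W.u_mem n

theorem res_u_pow (n : ℕ) : R.res ⟨W.u ^ n, W.u_pow_mem n⟩ = 1 := by
  rw [res_pow R W.u_mem n, W.res_u, one_pow]

/-- **Step 1**: the twisted lattices reduce into the (unglued) pole spaces of the special fibre. -/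
theorem SC_twist (hm : 0 < m) (i a b : ℕ) (x : F) (hx : x ∈ S.O) (hxL : x ∈ W.L i a b) :
    R.res ⟨x, hx⟩ ∈ C.Pk a b := by
  apply twoPole_radical hm
  have h1 := C.SC (m * a) (m * b) _ (S.O.mul_mem (W.u_pow_mem i) (S.O.pow_mem hx m))
    (W.u_pow_mul_pow_mem hxL)
  rwa [res_mul R (W.u_pow_mem i) (S.O.pow_mem hx m), W.res_u_pow, one_mul, res_pow R hx m] at h1

theorem redLat_le_Pk (hm : 0 < m) (i a b : ℕ) : R.redLat (W.L i a b) ≤ C.Pk a b := by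
  rintro _ ⟨x, hx, hxL, rfl⟩
  exact W.SC_twist hm i a b x hx hxL

end TwistFam

/-! ### The reduced chart ring and its normalisation -/

namespace ChartCoord

variable {R : RedSetup2 A S k κ} (C : ChartCoord R)

theorem LN_mono {a b a' b' : ℕ} (ha : a ≤ a') (hb : b ≤ b') : C.LN a b ≤ C.LN a' b' :=
  twoPole_mono _ _ ha hb

theorem Pk_mono {a b a' b' : ℕ} (ha : a ≤ a') (hb : b ≤ b') : C.Pk a b ≤ C.Pk a' b' :=
  twoPole_mono _ _ ha hb

theorem LN_mul {a b a' b' : ℕ} {x y : F} (hx : x ∈ C.LN a b) (hy : y ∈ C.LN a' b') :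
    x * y ∈ C.LN (a + a') (b + b') := mul_mem_twoPole hx hy

/-- The reduced chart ring `B̄ = ⋃_b red (L(b C∞) ∩ O)` of the chart `t ≠ ∞`. -/
def Bbar : Subalgebra k κ where
  carrier := {y | ∃ b, y ∈ R.redLat (C.LN 0 b)}
  mul_mem' := by
    rintro _ _ ⟨b, x, hx, hxL, rfl⟩ ⟨b', y, hy, hyL, rfl⟩
    exact ⟨b + b', x * y, S.O.mul_mem hx hy, by simpa using C.LN_mul hxL hyL,
      res_mul R hx hy⟩
  add_mem' := by
    rintro _ _ ⟨b, hb⟩ ⟨b', hb'⟩
    exact ⟨max b b', Submodule.add_mem _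
      (redLat_mono R (C.LN_mono le_rfl (le_max_left _ _)) hb)
      (redLat_mono R (C.LN_mono le_rfl (le_max_right _ _)) hb')⟩
  algebraMap_mem' := fun c => ⟨0, by
    rw [Algebra.algebraMap_eq_smul_one]
    exact Submodule.smul_mem _ c ⟨1, S.O.one_mem, C.one_mem_LN, map_one R.res⟩⟩

theorem mem_Bbar_iff {y : κ} : y ∈ C.Bbar ↔
    ∃ (b : ℕ) (x : F) (hx : x ∈ S.O), x ∈ C.LN 0 b ∧ R.res ⟨x, hx⟩ = y := Iff.rfl

theorem res_mem_Bbar {b : ℕ} {x : F} (hx : x ∈ S.O) (hxL : x ∈ C.LN 0 b) :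
    R.res ⟨x, hx⟩ ∈ C.Bbar := ⟨b, x, hx, hxL, rfl⟩

theorem T_mem_Bbar : C.T ∈ C.Bbar := C.res_mem_Bbar C.t_mem C.t_mem_LN

/-- The normalisation `B̃` of the reduced chart ring: the integral closure of `k[T]` in `κ`. -/
def Btilde : Subalgebra k κ :=
  (integralClosure (Algebra.adjoin k {C.T}) κ).restrictScalars k

theorem mem_Btilde_iff {y : κ} : y ∈ C.Btilde ↔ IsIntegral (Algebra.adjoin k {C.T}) y := Iff.rfl

/-- `B̃ = ⋃_b L(b C̄∞)`. -/
theorem mem_Btilde_iff_exists {y : κ} : y ∈ C.Btilde ↔ ∃ b, y ∈ C.Pk 0 b :=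
  isIntegral_iff_exists_mem_twoPole C.T_mul_Ti

theorem Pk_zero_le_Btilde (b : ℕ) : C.Pk 0 b ≤ Subalgebra.toSubmodule C.Btilde :=
  fun _ hy => C.mem_Btilde_iff_exists.mpr ⟨b, hy⟩

theorem Bbar_le_Btilde : C.Bbar ≤ C.Btilde := by
  rintro _ ⟨b, hb⟩
  exact C.Pk_zero_le_Btilde b (C.redLat_LN_le 0 b hb)

end ChartCoord

/-! ### The reduced twisted modules -/

namespace TwistFam

variable {R : RedSetup2 A S k κ} {C : ChartCoord R} {m : ℕ} (W : TwistFam C m)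

/-- `N_i = ⋃_b red (L(i D + b C∞) ∩ O)`. -/
def Nbar (i : ℕ) : Submodule k κ where
  carrier := {y | ∃ b, y ∈ R.redLat (W.L i 0 b)}
  zero_mem' := ⟨0, Submodule.zero_mem _⟩
  add_mem' := by
    rintro _ _ ⟨b, hb⟩ ⟨b', hb'⟩
    exact ⟨max b b', Submodule.add_mem _
      (redLat_mono R (W.L_mono le_rfl (le_max_left _ _)) hb)
      (redLat_mono R (W.L_mono le_rfl (le_max_right _ _)) hb')⟩
  smul_mem' := by
    rintro c _ ⟨b, hb⟩
    exact ⟨b, Submodule.smul_mem _ c hb⟩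

theorem mem_Nbar_iff {i : ℕ} {y : κ} : y ∈ W.Nbar i ↔
    ∃ (b : ℕ) (x : F) (hx : x ∈ S.O), x ∈ W.L i 0 b ∧ R.res ⟨x, hx⟩ = y := Iff.rfl

theorem res_mem_Nbar {i b : ℕ} {x : F} (hx : x ∈ S.O) (hxL : x ∈ W.L i 0 b) :
    R.res ⟨x, hx⟩ ∈ W.Nbar i := ⟨b, x, hx, hxL, rfl⟩

theorem Nbar_zero : W.Nbar 0 = Subalgebra.toSubmodule C.Bbar := by
  ext y
  rw [Subalgebra.mem_toSubmodule, mem_Nbar_iff, ChartCoord.mem_Bbar_iff]
  simp only [W.L_zero]

theorem mul_mem_Nbar {i j : ℕ} {x y : κ} (hx : x ∈ W.Nbar i) (hy : y ∈ W.Nbar j) :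
    x * y ∈ W.Nbar (i + j) := by
  obtain ⟨b, x, hx, hxL, rfl⟩ := hx
  obtain ⟨b', y, hy, hyL, rfl⟩ := hy
  exact ⟨b + b', x * y, S.O.mul_mem hx hy, by simpa using W.L_mul hxL hyL, res_mul R hx hy⟩

theorem Bbar_mul_mem_Nbar {i : ℕ} {x y : κ} (hx : x ∈ C.Bbar) (hy : y ∈ W.Nbar i) :
    x * y ∈ W.Nbar i := by
  have hx' : x ∈ W.Nbar 0 := by rw [W.Nbar_zero]; exact hx
  have := W.mul_mem_Nbar hx' hy
  rwa [zero_add] at this

theorem Nbar_add_m (i : ℕ) : W.Nbar (i + m) = W.Nbar i := by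
  ext y
  constructor
  · rintro ⟨b, x, hx, hxL, rfl⟩
    refine ⟨b, W.u * x, S.O.mul_mem W.u_mem hx, W.u_mul hxL, ?_⟩
    rw [res_mul R W.u_mem hx, W.res_u, one_mul]
  · rintro ⟨b, x, hx, hxL, rfl⟩
    refine ⟨b, W.u⁻¹ * x, S.O.mul_mem W.uinv_mem hx, W.uinv_mul hxL, ?_⟩
    rw [res_mul R W.uinv_mem hx, W.res_uinv, one_mul]

theorem Nbar_m : W.Nbar m = Subalgebra.toSubmodule C.Bbar := by
  have := W.Nbar_add_m 0
  rw [zero_add] at this
  rw [this, W.Nbar_zero]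

/-- `N_i · N_j ⊆ B̄` when `i + j = m`. -/
theorem mul_mem_Bbar {i j : ℕ} (hij : i + j = m) {x y : κ} (hx : x ∈ W.Nbar i)
    (hy : y ∈ W.Nbar j) : x * y ∈ C.Bbar := by
  have := W.mul_mem_Nbar hx hy
  rwa [hij, W.Nbar_m] at this

/-- `N_i^m ⊆ B̄`. -/
theorem pow_mem_Bbar {i : ℕ} {y : κ} (hy : y ∈ W.Nbar i) : y ^ m ∈ C.Bbar := by
  obtain ⟨b, x, hx, hxL, rfl⟩ := hy
  have h1 := W.u_pow_mul_pow_mem hxL
  rw [Nat.mul_zero] at h1
  have h2 := C.res_mem_Bbar (S.O.mul_mem (W.u_pow_mem i) (S.O.pow_mem hx m)) h1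
  rwa [res_mul R (W.u_pow_mem i) (S.O.pow_mem hx m), W.res_u_pow, one_mul, res_pow R hx m] at h2

/-- `n₀ n^(m-1) ∈ B̄` for `n₀, n ∈ N_i` (the hypothesis `hpowN` of `Goursat.mul_eq_of_glued`). -/
theorem mul_pow_mem_Bbar (hm : 0 < m) {i : ℕ} {n₀ n : κ} (hn₀ : n₀ ∈ W.Nbar i)
    (hn : n ∈ W.Nbar i) : n₀ * n ^ (m - 1) ∈ C.Bbar := by
  obtain ⟨b₀, x₀, hx₀, hxL₀, rfl⟩ := hn₀
  obtain ⟨b, x, hx, hxL, rfl⟩ := hn
  have h1 : x₀ * x ^ (m - 1) ∈ W.L (i + (m - 1) * i) (0 + (m - 1) * 0) (b₀ + (m - 1) * b) :=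
    W.L_mul hxL₀ (W.pow_mem_L hxL (m - 1))
  have e1 : i + (m - 1) * i = 0 + i * m := by
    obtain ⟨d, rfl⟩ : ∃ d, m = d + 1 := ⟨m - 1, by omega⟩
    simp only [Nat.add_sub_cancel]
    ring
  rw [e1, Nat.mul_zero, Nat.add_zero] at h1
  have h2 := W.u_pow_mul h1
  rw [W.L_zero] at h2
  have hO : x₀ * x ^ (m - 1) ∈ S.O := S.O.mul_mem hx₀ (S.O.pow_mem hx _)
  have h3 := C.res_mem_Bbar (S.O.mul_mem (W.u_pow_mem i) hO) h2
  rwa [res_mul R (W.u_pow_mem i) hO, W.res_u_pow, one_mul, res_mul R hx₀ (S.O.pow_mem hx _),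
    res_pow R hx] at h3

theorem Nbar_le_Btilde (hm : 0 < m) (i : ℕ) : W.Nbar i ≤ Subalgebra.toSubmodule C.Btilde := by
  rintro _ ⟨b, hb⟩
  exact C.Pk_zero_le_Btilde b (W.redLat_le_Pk hm i 0 b hb)

/-- the piece of `N_i` with poles bounded by `b` is the reduction of `L(i D + b C∞) ∩ O`;
it lies in `L(b C̄∞)` -/
theorem redLat_le_Nbar (i b : ℕ) : R.redLat (W.L i 0 b) ≤ W.Nbar i := fun _ hy => ⟨b, hy⟩

/-- **(N3)**.  Let `σ` be a ring endomorphism of `F` preserving `S.O` and inducing the identity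
on the residue ring (an element of the inertia group), and `LE b = L(E + b C∞)`,
`E = σ D - D`, so that `σ x * y * u ∈ LE (b + b')` for `x ∈ L(D + b C∞)`,
`y ∈ L((m-1) D + b' C∞)`.  If `1 = ∑ fⱼ f'ⱼ` with `fⱼ ∈ N_1`, `f'ⱼ ∈ N_{m-1}`, then some `LE n`
contains an element `g ∈ S.O` with `res g = 1`. -/
theorem exists_one_of_sum {σ : F →+* F} (hσO : ∀ x ∈ S.O, σ x ∈ S.O)
    (hσres : ∀ (x : F) (hx : x ∈ S.O), R.res ⟨σ x, hσO x hx⟩ = R.res ⟨x, hx⟩)
    (LE : ℕ → Submodule K F) (hLE : Monotone LE)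
    (hN3 : ∀ {b b' : ℕ} {x y : F}, x ∈ W.L 1 0 b → y ∈ W.L (m - 1) 0 b' →
      σ x * y * W.u ∈ LE (b + b'))
    {r : ℕ} (f f' : Fin r → κ) (hf : ∀ j, f j ∈ W.Nbar 1) (hf' : ∀ j, f' j ∈ W.Nbar (m - 1))
    (hsum : ∑ j, f j * f' j = 1) :
    ∃ (n : ℕ) (g : F) (hg : g ∈ S.O), g ∈ LE n ∧ R.res ⟨g, hg⟩ = 1 := by
  classical
  choose b x hx hxL hxres using hf
  choose b' y hy hyL hyres using hf'
  have hterm : ∀ j, σ (x j) * y j * W.u ∈ S.O := fun j =>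
    S.O.mul_mem (S.O.mul_mem (hσO _ (hx j)) (hy j)) W.u_mem
  have hgO : ∑ j, σ (x j) * y j * W.u ∈ S.O := S.O.sum_mem fun j _ => hterm j
  refine ⟨∑ j, (b j + b' j), ∑ j, σ (x j) * y j * W.u, hgO, ?_, ?_⟩
  · refine Submodule.sum_mem _ fun j _ => ?_
    exact hLE (Finset.single_le_sum (f := fun j => b j + b' j) (fun _ _ => Nat.zero_le _)
      (Finset.mem_univ j)) (hN3 (hxL j) (hyL j))
  · rw [R.res_sum Finset.univ _ hterm hgO, ← hsum]
    refine Finset.sum_congr rfl fun j _ => ?_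
    rw [res_mul R (S.O.mul_mem (hσO _ (hx j)) (hy j)) W.u_mem, W.res_u, mul_one,
      res_mul R (hσO _ (hx j)) (hy j), hσres _ (hx j), hxres j, hyres j]

end TwistFam

/-! ### Dimension of the reduction of a cartesian lattice -/

section finrank

variable (R : RedSetup2 A S k κ)

/-- The reduction of a cartesian lattice `V ∩ O` has dimension at most `dim_K V` (together with
`RedSetup2.finrank_le_of_fg`: exactly `dim_K V`). -/
theorem finrank_redLat_le (V : Submodule K F) [FiniteDimensional K V] (hfg : (R.lat V).FG) :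
    Module.Finite k (R.redLat V) ∧ finrank k (R.redLat V) ≤ finrank K V := by
  classical
  set Λ := R.lat V with hΛ
  have : Module.Finite A Λ := Module.Finite.iff_fg.mpr hfg
  have : Module.Flat A Λ :=
    Module.Flat.flat_iff_torsion_eq_bot_of_isBezout.mpr
      (Submodule.isTorsionFree_iff_torsion_eq_bot.mp inferInstance)
  have : Module.Free A Λ := Module.free_of_flat_of_isLocalRing
  set ι := Module.Free.ChooseBasisIndex A Λ
  set b : Basis ι A Λ := Module.Free.chooseBasis A Λ with hb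
  have hbO : ∀ i, ((b i : Λ) : F) ∈ S.O := fun i => (b i).2.2
  have hbV : ∀ i, ((b i : Λ) : F) ∈ V := fun i => (b i).2.1
  -- the basis is `K`-linearly independent inside `V`
  have hliA : LinearIndependent A fun i => ((b i : Λ) : F) :=
    b.linearIndependent.map' Λ.subtype Λ.ker_subtype
  have hliK : LinearIndependent K fun i => ((b i : Λ) : F) :=
    (LinearIndependent.iff_fractionRing A K).mp hliA
  have hliV : LinearIndependent K fun i => (⟨((b i : Λ) : F), hbV i⟩ : V) := by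
    apply LinearIndependent.of_comp V.subtype
    exact hliK
  have hcard : Fintype.card ι ≤ finrank K V := hliV.fintype_card_le_finrank
  -- the reductions of the basis span `redLat V`
  set rb : ι → κ := fun i => R.res ⟨((b i : Λ) : F), hbO i⟩ with hrb
  have hspan : R.redLat V ≤ Submodule.span k (Set.range rb) := by
    rintro _ ⟨x, hx, hxV, rfl⟩
    have hxΛ : x ∈ Λ := ⟨hxV, hx⟩
    have hrepr := b.sum_repr ⟨x, hxΛ⟩
    have hxF : x = ∑ i, (b.repr ⟨x, hxΛ⟩ i) • ((b i : Λ) : F) := by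
      have := congrArg (Subtype.val) hrepr
      simp only at this
      refine this.symm.trans ?_
      rw [Submodule.coe_sum]
      rfl
    have hmem : ∀ i, (b.repr ⟨x, hxΛ⟩ i) • ((b i : Λ) : F) ∈ S.O :=
      fun i => R.smul_mem_O _ (hbO i)
    have hs : ∑ i, (b.repr ⟨x, hxΛ⟩ i) • ((b i : Λ) : F) ∈ S.O := hxF ▸ hx
    rw [res_congr R hxF hx hs, R.res_sum _ _ hmem hs]
    refine Submodule.sum_mem _ fun i _ => ?_
    rw [R.res_smul _ (hbO i)]
    exact Submodule.smul_mem _ _ (Submodule.subset_span ⟨i, rfl⟩)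
  have hfin : Module.Finite k (Submodule.span k (Set.range rb)) :=
    FiniteDimensional.span_of_finite k (Set.finite_range _)
  have hfin' : Module.Finite k (R.redLat V) := Submodule.finiteDimensional_of_le hspan
  refine ⟨hfin', ?_⟩
  calc finrank k (R.redLat V) ≤ finrank k (Submodule.span k (Set.range rb)) :=
        Submodule.finrank_mono hspan
    _ ≤ Fintype.card ι := finrank_range_le_card _
    _ ≤ finrank K V := hcard

/-- The reduction of a cartesian lattice has exactly the dimension of the space. -/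
theorem finrank_redLat_eq (V : Submodule K F) [FiniteDimensional K V] (hfg : (R.lat V).FG) :
    finrank k (R.redLat V) = finrank K V := by
  obtain ⟨hfin, hle⟩ := finrank_redLat_le R V hfg
  refine le_antisymm hle ?_
  exact R.finrank_le_of_fg V (R.lat V) (fun f => Iff.rfl) hfg (R.redLat V)
    (fun x hx => ⟨x, hx.2, hx.1, rfl⟩)

end finrank

end Fermat.Agent.S34x.Lattice2
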