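/-
Copyright (c) 2026. Released under Apache 2.0 license as described in the file LICENSE.
-/
import Fermat.Agent.S34x.UBMain
import Fermat.Agent.S34x.Lattice2.L2
import Fermat.Agent.S34x.Lattice2.Swap

/-!
# P-S34, WP-UB: the saturation and the node count in the `ChartCoord` vocabulary

helper7.  Bridge from the abstract assembly `UBMain.lean` (type-level `O`, `ρ : O →ₐ[A] Ω`) to
helper50's `Lattice2` vocabulary (`R : RedSetup2 A S k κ`, `C : ChartCoord R`, `W : TwistFam C m`).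

* `ChartCoord.CuspSep`: `B̃ / B̄` has no `T`-torsion (no node over the cusps of the chart).
* `ChartCoord.exists_sat_overlap`: **saturation**, `B̄ˣ ⊓ P(0,b) ≤ red (L(b C∞) ∩ O)` for `b ≥ b₁`.
  The hypotheses `hker`, `hkerx`, `hcap` of `Saturation` are automatic in this setting.
  `exists_sat`, `exists_sat_both`, `TwistFam.exists_sat_PT`: the chart forms (`hsat` of
  `ExistsOne.exists_one_of_counts`), on both charts.
* `ChartCoord.CuspSep.of_isL2` (`κ = κ₁ × κ₂`): cusp separation from (L2) + the separating element.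
* `TwistFam.codim_le`, `codim_le_swap`, `codim_main`, `codim_main_of_isL2`: the node count
  `codim N_i ≤ codim B̄ = δ` on both charts = `Module.Finite` instances + `hcodim` of
  `W.exists_one_of_glued` / `W.swap.exists_one_of_glued`.
-/

set_option autoImplicit false
set_option linter.unusedSectionVars false
set_option linter.style.haveILetI false

noncomputable section

namespace Fermat.Agent.S34x.Lattice2

open Fermat.Agent.S34x.C0two Module IsLocalRing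

variable {K : Type*} [Field K] {A : ValuationSubring K} {F : Type*} [Field F] [Algebra K F]
  {S : SmallRing F} {k κ : Type*} [Field k] [CommRing κ] [Algebra k κ]
  {R : RedSetup2 A S k κ}

namespace ChartCoord

variable (C : ChartCoord R)

/-- **Cusp separation**: `B̃ / B̄` has no `T`-torsion, i.e. there is no node over the cusps
`T = ∞` of the chart. -/
def CuspSep : Prop := ∀ z ∈ C.Btilde, C.T * z ∈ C.Bbar → z ∈ C.Bbar

theorem T_pow_mul_Ti_pow (n : ℕ) : C.T ^ n * C.Ti ^ n = 1 := by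
  rw [← mul_pow, C.T_mul_Ti, one_pow]

theorem t_pow_mul_tinv_pow (n : ℕ) : C.t ^ n * C.t⁻¹ ^ n = 1 := by
  rw [← mul_pow, C.t_mul_tinv, one_pow]

/-- `red (L(a C₀) ∩ O) = T⁻ᵃ red (L(a C∞) ∩ O)`. -/
theorem mem_redLat_LN_left_iff {a : ℕ} {y : κ} :
    y ∈ R.redLat (C.LN a 0) ↔ ∃ v ∈ R.redLat (C.LN 0 a), y = C.Ti ^ a * v := by
  constructor
  · rintro ⟨x, hx, hxL, rfl⟩
    have h1 : C.t ^ a * x ∈ C.LN 0 a := by
      have := (mem_twoPole_iff_pow_mul C.t_mul_tinv).mp hxL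
      rwa [zero_add] at this
    refine ⟨_, ⟨C.t ^ a * x, S.O.mul_mem (C.t_pow_mem a) hx, h1, rfl⟩, ?_⟩
    rw [C.res_t_pow_mul a hx, ← mul_assoc, mul_comm (C.Ti ^ a), C.T_pow_mul_Ti_pow, one_mul]
  · rintro ⟨_, ⟨x, hx, hxL, rfl⟩, rfl⟩
    refine ⟨C.t⁻¹ ^ a * x, S.O.mul_mem (C.tinv_pow_mem a) hx, ?_, C.res_tinv_pow_mul a hx⟩
    rw [LN, mem_twoPole_iff_pow_mul C.t_mul_tinv, zero_add, ← mul_assoc, C.t_pow_mul_tinv_pow,
      one_mul]
    exact hxL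

/-- `P(a,0) = T⁻ᵃ P(0,a)`. -/
theorem mem_Pk_left_iff {a : ℕ} {y : κ} :
    y ∈ C.Pk a 0 ↔ ∃ p ∈ C.Pk 0 a, y = C.Ti ^ a * p := by
  constructor
  · intro hy
    have h1 : C.T ^ a * y ∈ C.Pk 0 a := by
      have := (mem_twoPole_iff_pow_mul C.T_mul_Ti).mp hy
      rwa [zero_add] at this
    refine ⟨_, h1, ?_⟩
    rw [← mul_assoc, mul_comm (C.Ti ^ a), C.T_pow_mul_Ti_pow, one_mul]
  · rintro ⟨p, hp, rfl⟩
    rw [Pk, mem_twoPole_iff_pow_mul C.T_mul_Ti, zero_add, ← mul_assoc, C.T_pow_mul_Ti_pow,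
      one_mul]
    exact hp

theorem mem_swap_Bbar_iff {z : κ} :
    z ∈ C.swap.Bbar ↔ ∃ a, ∃ v ∈ R.redLat (C.LN 0 a), z = C.Ti ^ a * v := by
  rw [mem_Bbar_iff]
  constructor
  · rintro ⟨a, x, hx, hxL, rfl⟩
    rw [C.swap_LN] at hxL
    exact ⟨a, C.mem_redLat_LN_left_iff.mp ⟨x, hx, hxL, rfl⟩⟩
  · rintro ⟨a, v, hv, rfl⟩
    obtain ⟨x, hx, hxL, hres⟩ := C.mem_redLat_LN_left_iff.mpr ⟨v, hv, rfl⟩
    exact ⟨a, x, hx, by rw [C.swap_LN]; exact hxL, hres⟩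

theorem mem_swap_Btilde_iff {z : κ} :
    z ∈ C.swap.Btilde ↔ ∃ a, ∃ p ∈ C.Pk 0 a, z = C.Ti ^ a * p := by
  rw [mem_Btilde_iff_exists]
  refine exists_congr fun a => ?_
  rw [C.swap_Pk, C.mem_Pk_left_iff]

/-- **Saturation on the overlap, `ChartCoord` form** (`UBMain.exists_forall_mem_red_of_mem_overlap`
instantiated at `O := S.O`, `ρ := R.res`, `L b := L(b C∞) ∩ O`, `P b := P(0,b)`).
Inputs: the lattices `L(b C∞) ∩ O` are finitely generated (cartesian), the spaces `P(0,b)` are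
finite-dimensional and generated in degree one from `b₀` on, and the cusp separation holds on
both charts.  Then there is `b₁` with `B̄ˣ ⊓ P(0,b) ≤ red (L(b C∞) ∩ O)` for `b ≥ b₁`, where
`B̄ˣ = ⋃ T⁻ᵃ B̄`.  The hypotheses `hker`, `hkerx` (from `R.base.unram`) and `hcap` (from the
`twoPole` description) of `Saturation` are automatic. -/
theorem exists_sat_overlap (hcart : ∀ b, (R.lat (C.LN 0 b)).FG)
    (hPfin : ∀ b, Module.Finite k (C.Pk 0 b)) (b₀ : ℕ)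
    (hP : ∀ b, b₀ ≤ b → ∀ p ∈ C.Pk 0 (b + 1), ∃ p₁ ∈ C.Pk 0 b, ∃ p₂ ∈ C.Pk 0 b,
      p = p₁ + C.T * p₂)
    (hsep₁ : C.CuspSep) (hsep₂ : C.swap.CuspSep) :
    ∃ b₁ : ℕ, ∀ b, b₁ ≤ b → ∀ y ∈ C.Pk 0 b, (∃ a, ∃ v ∈ C.Bbar, y = C.Ti ^ a * v) →
      y ∈ R.redLat (C.LN 0 b) := by
  classical
  -- the algebra structures
  let φ : A →+* S.O :=
    ((algebraMap K F).comp A.subtype).codRestrict S.O (fun a => R.algebraMap_mem a)
  letI algO : Algebra A S.O := φ.toAlgebra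
  letI algk : Algebra A k := R.π.toAlgebra
  letI algκ : Algebra A κ := ((algebraMap k κ).comp R.π).toAlgebra
  haveI : IsScalarTower A k κ := IsScalarTower.of_algebraMap_eq (fun _ => rfl)
  have hk : Function.Surjective (algebraMap A k) := R.π_surj
  let ρ : S.O →ₐ[A] κ := { R.res with commutes' := fun a => R.res_algebraMap a }
  have hρ : ∀ x : S.O, ρ x = R.res x := fun _ => rfl
  let t : (S.O)ˣ := ⟨⟨C.t, C.t_mem⟩, ⟨C.t⁻¹, C.tinv_mem⟩, Subtype.ext C.t_mul_tinv,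
    Subtype.ext (by rw [mul_comm]; exact C.t_mul_tinv)⟩
  have hcoe_smul : ∀ (a : A) (x : S.O), ((a • x : S.O) : F) = a • (x : F) := by
    intro a x
    rw [Algebra.smul_def, R.smul_eq]
    rfl
  -- the lattices inside `S.O`
  let L : ℕ → Submodule A S.O := fun b =>
    { carrier := {x | (x : F) ∈ C.LN 0 b}
      zero_mem' := (C.LN 0 b).zero_mem
      add_mem' := fun hx hy => (C.LN 0 b).add_mem hx hy
      smul_mem' := fun a x hx => by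
        show ((a • x : S.O) : F) ∈ C.LN 0 b
        rw [hcoe_smul]
        exact (C.LN 0 b).smul_mem (a : K) hx }
  have hL : ∀ (b : ℕ) (x : S.O), x ∈ L b ↔ (x : F) ∈ C.LN 0 b := fun _ _ => Iff.rfl
  have hred : ∀ b, SaturationK.redK hk ρ (L b) = R.redLat (C.LN 0 b) := by
    intro b
    ext y
    constructor
    · rintro ⟨x, hx, rfl⟩
      exact ⟨x.1, x.2, hx, rfl⟩
    · rintro ⟨x, hx, hxV, rfl⟩
      exact ⟨⟨x, hx⟩, hxV, rfl⟩
  have hmono : Monotone L := fun b b' h x hx => C.LN_mono le_rfl h hx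
  have htL : ∀ b, ∀ f ∈ L b, (t : S.O) * f ∈ L (b + 1) := by
    intro b f hf
    show C.t * (f : F) ∈ C.LN 0 (b + 1)
    exact (T_mul_mem_twoPole_iff C.t_mul_tinv).mpr (C.LN_mono (Nat.zero_le 1) le_rfl hf)
  -- unramifiedness: a small element of a saturated lattice is `ϖ •` an element of the lattice
  have hunram : ∀ z : S.O, ρ z = 0 → ∃ ϖ ∈ maximalIdeal A, ∃ y : S.O, z = ϖ • y ∧
      (ϖ ≠ 0 → (y : F) = ((ϖ : A) : K)⁻¹ • (z : F)) := by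
    intro z hz
    have hsmall : Small S (z : F) := (R.small_iff z.2).mpr hz
    obtain ⟨ϖ, hϖ, y, hy, hzy⟩ := R.base.unram _ hsmall
    refine ⟨ϖ, hϖ, ⟨y, hy⟩, Subtype.ext ?_, fun hϖ0 => ?_⟩
    · rw [hcoe_smul]
      exact hzy
    · show y = _
      rw [hzy]
      have h3 : ϖ • y = ((ϖ : A) : K) • y := rfl
      rw [h3, smul_smul, inv_mul_cancel₀ (by exact_mod_cast hϖ0), one_smul]
  have hfg : ∀ b, (L b).FG := by
    intro b
    let incO : S.O →ₗ[A] F :=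
      { toFun := fun x => (x : F)
        map_add' := fun _ _ => rfl
        map_smul' := fun a x => hcoe_smul a x }
    have hinj : Function.Injective incO := fun x y h => Subtype.ext h
    have hmap : (L b).map incO = R.lat (C.LN 0 b) := by
      ext y
      constructor
      · rintro ⟨x, hx, rfl⟩
        exact ⟨hx, x.2⟩
      · rintro ⟨hyV, hyO⟩
        exact ⟨⟨y, hyO⟩, hyV, rfl⟩
    exact Submodule.fg_of_fg_map_injective incO hinj (hmap ▸ hcart b)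
  have hker : ∀ b, ∀ f ∈ L b, ρ f = 0 → f ∈ maximalIdeal A • L b := by
    intro b f hf hf0
    obtain ⟨ϖ, hϖ, y, hfy, hy⟩ := hunram f hf0
    by_cases hϖ0 : ϖ = 0
    · rw [hfy, hϖ0, zero_smul]
      exact Submodule.zero_mem _
    · rw [hfy]
      refine Submodule.smul_mem_smul hϖ ?_
      show (y : F) ∈ C.LN 0 b
      rw [hy hϖ0]
      exact (C.LN 0 b).smul_mem _ hf
  have hupow : ∀ b : ℕ, ((Saturation.upow t (-(b : ℤ)) : S.O) : F) = C.t⁻¹ ^ b := by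
    intro b
    have : Saturation.upow t (-(b : ℤ)) = ((t⁻¹ : (S.O)ˣ) : S.O) ^ b := by
      simp [Saturation.upow, zpow_neg]
    rw [this]
    rfl
  have hcap : ∀ b : ℕ, Saturation.chartB L ⊓ Saturation.tw A t b (Saturation.chartB' t L) ≤ L b := by
    rintro b x ⟨hx1, hx2⟩
    obtain ⟨c, hc⟩ := (Saturation.mem_chartB_iff hmono).mp hx1
    obtain ⟨a, ha⟩ := (Saturation.mem_chartB'_iff t hmono htL).mp ((Saturation.mem_tw_iff t).mp hx2)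
    have hc1 := ((hL c x).mp hc).1
    have ha2 := ((hL a _).mp ha).2
    refine (hL b x).mpr ⟨hc1, ?_⟩
    have e : C.t⁻¹ ^ a * (((t : S.O) ^ a * (Saturation.upow t (-(b : ℤ)) * x) : S.O) : F)
        = C.t⁻¹ ^ b * (x : F) := by
      have e1 : (((t : S.O) ^ a * (Saturation.upow t (-(b : ℤ)) * x) : S.O) : F)
          = C.t ^ a * (C.t⁻¹ ^ b * (x : F)) := by
        rw [Subring.coe_mul, Subring.coe_mul, hupow]
        rfl
      rw [e1, ← mul_assoc, mul_comm (C.t⁻¹ ^ a), C.t_pow_mul_tinv_pow, one_mul]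
    rw [← e]
    exact ha2
  have hkerx : ∀ z ∈ Saturation.chartBx t L, ρ z = 0 →
      z ∈ maximalIdeal A • Saturation.chartBx t L := by
    intro z hz hz0
    obtain ⟨a, c, hac⟩ := (Saturation.mem_chartBx_iff t hmono htL).mp hz
    obtain ⟨ϖ, hϖ, y, hzy, hy⟩ := hunram z hz0
    by_cases hϖ0 : ϖ = 0
    · rw [hzy, hϖ0, zero_smul]
      exact Submodule.zero_mem _
    · rw [hzy]
      refine Submodule.smul_mem_smul hϖ ?_
      refine (Saturation.mem_chartBx_iff t hmono htL).mpr ⟨a, c, ?_⟩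
      show C.t ^ a * (y : F) ∈ C.LN 0 c
      rw [hy hϖ0, mul_smul_comm]
      exact (C.LN 0 c).smul_mem _ hac
  have hPmono : Monotone fun b => C.Pk 0 b := fun _ _ h => C.Pk_mono le_rfl h
  have hTP : ∀ b, ∀ p ∈ C.Pk 0 b, ρ (t : S.O) * p ∈ C.Pk 0 (b + 1) := by
    intro b p hp
    exact (T_mul_mem_twoPole_iff C.T_mul_Ti).mpr (C.Pk_mono (Nat.zero_le 1) le_rfl hp)
  have hLP : ∀ b, ∀ f ∈ L b, ρ f ∈ C.Pk 0 b := fun b f hf => C.SC 0 b f.1 f.2 hf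
  have hsep : ∀ z : κ, (∃ a, ∃ p ∈ C.Pk 0 a, z = ρ ((t⁻¹ : (S.O)ˣ) : S.O) ^ a * p) →
      (∃ a, ∃ v ∈ SaturationK.redK hk ρ (L a),
        ρ ((t⁻¹ : (S.O)ˣ) : S.O) * z = ρ ((t⁻¹ : (S.O)ˣ) : S.O) ^ a * v) →
      ∃ a, ∃ v ∈ SaturationK.redK hk ρ (L a), z = ρ ((t⁻¹ : (S.O)ˣ) : S.O) ^ a * v := by
    intro z hz hsz
    simp only [hred] at hsz ⊢
    exact C.mem_swap_Bbar_iff.mp
      (hsep₂ z (C.mem_swap_Btilde_iff.mpr hz) (C.mem_swap_Bbar_iff.mpr hsz))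
  have hsep₁' : ∀ z : κ, (∃ c, z ∈ C.Pk 0 c) →
      (∃ c, ρ (t : S.O) * z ∈ SaturationK.redK hk ρ (L c)) →
      ∃ c, z ∈ SaturationK.redK hk ρ (L c) := by
    intro z hz hTz
    simp only [hred] at hTz ⊢
    exact hsep₁ z (C.mem_Btilde_iff_exists.mpr hz) hTz
  obtain ⟨b₁, hb₁⟩ := UBMain.exists_forall_mem_red_of_mem_overlap hk ρ t hmono htL hfg hker hcap
    hkerx (fun b => C.Pk 0 b) hPmono hTP hPfin hLP b₀ hP hsep hsep₁'
  refine ⟨b₁, fun b hb y hyP hy => ?_⟩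
  rw [← hred]
  refine hb₁ b hb y hyP ?_
  obtain ⟨a, v, ⟨c, hc⟩, rfl⟩ := hy
  exact ⟨a, c, v, by rw [hred]; exact hc, rfl⟩

/-- **Saturation of the first chart, `ChartCoord` form**: `B̄ ⊓ P(0,b) ≤ red (L(b C∞) ∩ O)` for
`b ≥ b₁` (the hypothesis `hsat` of `UB.finrank_quotient_le_finrank_quotient` /
`ExistsOne.exists_one_of_counts`). -/
theorem exists_sat (hcart : ∀ b, (R.lat (C.LN 0 b)).FG)
    (hPfin : ∀ b, Module.Finite k (C.Pk 0 b)) (b₀ : ℕ)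
    (hP : ∀ b, b₀ ≤ b → ∀ p ∈ C.Pk 0 (b + 1), ∃ p₁ ∈ C.Pk 0 b, ∃ p₂ ∈ C.Pk 0 b,
      p = p₁ + C.T * p₂)
    (hsep₁ : C.CuspSep) (hsep₂ : C.swap.CuspSep) :
    ∃ b₁ : ℕ, ∀ b, b₁ ≤ b → ∀ y ∈ C.Pk 0 b, y ∈ C.Bbar → y ∈ R.redLat (C.LN 0 b) := by
  obtain ⟨b₁, hb₁⟩ := C.exists_sat_overlap hcart hPfin b₀ hP hsep₁ hsep₂
  exact ⟨b₁, fun b hb y hyP hy => hb₁ b hb y hyP ⟨0, y, hy, by rw [pow_zero, one_mul]⟩⟩

/-- The saturation of the SECOND chart follows from the saturation on the overlap: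
`B̄' ⊓ P(b,0) ≤ red (L(b C₀) ∩ O)`. -/
theorem sat_swap_of_sat_overlap {b : ℕ}
    (hsatx : ∀ y ∈ C.Pk 0 b, (∃ a, ∃ v ∈ C.Bbar, y = C.Ti ^ a * v) → y ∈ R.redLat (C.LN 0 b)) :
    ∀ y ∈ C.swap.Pk 0 b, y ∈ C.swap.Bbar → y ∈ R.redLat (C.swap.LN 0 b) := by
  intro y hyP hyB
  rw [C.swap_Pk, C.mem_Pk_left_iff] at hyP
  obtain ⟨p, hp, rfl⟩ := hyP
  obtain ⟨a, v, hv, hav⟩ := C.mem_swap_Bbar_iff.mp hyB
  rw [C.swap_LN, C.mem_redLat_LN_left_iff]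
  refine ⟨p, hsatx p hp ?_, rfl⟩
  have hvB : v ∈ C.Bbar := ⟨a, hv⟩
  -- `p = T ^ b * (Ti ^ a * v)`
  have hp' : p = C.T ^ b * (C.Ti ^ a * v) := by
    rw [← hav, ← mul_assoc, C.T_pow_mul_Ti_pow, one_mul]
  rcases le_total b a with h | h
  · refine ⟨a - b, v, hvB, ?_⟩
    have e : C.Ti ^ a = C.Ti ^ (a - b) * C.Ti ^ b := by rw [← pow_add, Nat.sub_add_cancel h]
    rw [hp', e]
    linear_combination (C.Ti ^ (a - b) * v) * C.T_pow_mul_Ti_pow b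
  · refine ⟨0, C.T ^ (b - a) * v, mul_mem (pow_mem C.T_mem_Bbar _) hvB, ?_⟩
    have e : C.T ^ b = C.T ^ (b - a) * C.T ^ a := by rw [← pow_add, Nat.sub_add_cancel h]
    rw [hp', e, pow_zero, one_mul]
    linear_combination (C.T ^ (b - a) * v) * C.T_pow_mul_Ti_pow a

/-- **Saturation of both charts** from one set of hypotheses. -/
theorem exists_sat_both (hcart : ∀ b, (R.lat (C.LN 0 b)).FG)
    (hPfin : ∀ b, Module.Finite k (C.Pk 0 b)) (b₀ : ℕ)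
    (hP : ∀ b, b₀ ≤ b → ∀ p ∈ C.Pk 0 (b + 1), ∃ p₁ ∈ C.Pk 0 b, ∃ p₂ ∈ C.Pk 0 b,
      p = p₁ + C.T * p₂)
    (hsep₁ : C.CuspSep) (hsep₂ : C.swap.CuspSep) :
    ∃ b₁ : ℕ, ∀ b, b₁ ≤ b →
      (∀ y ∈ C.Pk 0 b, y ∈ C.Bbar → y ∈ R.redLat (C.LN 0 b)) ∧
      (∀ y ∈ C.swap.Pk 0 b, y ∈ C.swap.Bbar → y ∈ R.redLat (C.swap.LN 0 b)) := by
  obtain ⟨b₁, hb₁⟩ := C.exists_sat_overlap hcart hPfin b₀ hP hsep₁ hsep₂
  refine ⟨b₁, fun b hb => ⟨fun y hyP hy => ?_, C.sat_swap_of_sat_overlap (hb₁ b hb)⟩⟩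
  exact hb₁ b hb y hyP ⟨0, y, hy, by rw [pow_zero, one_mul]⟩

end ChartCoord

/-! ### The twisted lattices on the second chart -/

namespace TwistFam

variable {C : ChartCoord R} {m : ℕ} (W : TwistFam C m)

/-- `tⁿ · L(i D + (a+n) C₀ + b C∞) = L(i D + a C₀ + (b+n) C∞)`. -/
theorem t_pow_mul_mem_L_iff (n : ℕ) {i a b : ℕ} {x : F} :
    C.t ^ n * x ∈ W.L i a (b + n) ↔ x ∈ W.L i (a + n) b := by
  induction n generalizing a b x with
  | zero => simp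
  | succ n ih =>
    have h1 : C.t ^ (n + 1) * x = C.t ^ n * (C.t * x) := by ring
    have h2 : b + (n + 1) = (b + 1) + n := by ring
    have h3 : a + (n + 1) = a + n + 1 := by ring
    rw [h1, h2, ih, W.L_shift, h3]

/-- `red (L(i D + a C₀) ∩ O) = T⁻ᵃ red (L(i D + a C∞) ∩ O)`. -/
theorem mem_redLat_L_left_iff {i a : ℕ} {y : κ} :
    y ∈ R.redLat (W.L i a 0) ↔ ∃ v ∈ R.redLat (W.L i 0 a), y = C.Ti ^ a * v := by
  constructor
  · rintro ⟨x, hx, hxL, rfl⟩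
    have h1 : C.t ^ a * x ∈ W.L i 0 a := by
      have := (W.t_pow_mul_mem_L_iff a (i := i) (a := 0) (b := 0) (x := x)).mpr
        (by rwa [zero_add])
      rwa [zero_add] at this
    refine ⟨_, ⟨C.t ^ a * x, S.O.mul_mem (C.t_pow_mem a) hx, h1, rfl⟩, ?_⟩
    rw [C.res_t_pow_mul a hx, ← mul_assoc, mul_comm (C.Ti ^ a), C.T_pow_mul_Ti_pow, one_mul]
  · rintro ⟨_, ⟨x, hx, hxL, rfl⟩, rfl⟩
    refine ⟨C.t⁻¹ ^ a * x, S.O.mul_mem (C.tinv_pow_mem a) hx, ?_, C.res_tinv_pow_mul a hx⟩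
    have := (W.t_pow_mul_mem_L_iff a (i := i) (a := 0) (b := 0) (x := C.t⁻¹ ^ a * x)).mp
      (by rwa [zero_add, ← mul_assoc, C.t_pow_mul_tinv_pow, one_mul])
    rwa [zero_add] at this

theorem mem_swap_Nbar_iff' {i : ℕ} {z : κ} :
    z ∈ W.swap.Nbar i ↔ ∃ a, ∃ v ∈ R.redLat (W.L i 0 a), z = C.Ti ^ a * v := by
  rw [W.mem_swap_Nbar_iff]
  constructor
  · rintro ⟨a, x, hx, hxL, rfl⟩
    exact ⟨a, W.mem_redLat_L_left_iff.mp ⟨x, hx, hxL, rfl⟩⟩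
  · rintro ⟨a, v, hv, rfl⟩
    obtain ⟨x, hx, hxL, hres⟩ := W.mem_redLat_L_left_iff.mpr ⟨v, hv, rfl⟩
    exact ⟨a, x, hx, hxL, hres⟩

end TwistFam

/-! ### Two components: cusp separation from (L2), and the node count -/

section Prod

variable {κ₁ κ₂ : Type*} [CommRing κ₁] [CommRing κ₂] [Algebra k κ₁] [Algebra k κ₂]
  {R : RedSetup2 A S k (κ₁ × κ₂)}

namespace ChartCoord

variable {C : ChartCoord R}

/-- **Cusp separation from (L2) and the separating element** (`UB.mem_of_mul_mem`): if both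
projections of `B̄` are onto and `(1, c * T₂) ∈ B̄` for some `c ∈ B₂`, then `B̃ / B̄` has no
`T`-torsion. -/
theorem CuspSep.of_isL2 (hL2 : C.IsL2) {c : κ₂} (hc : IsIntegral (Algebra.adjoin k {C.T.2}) c)
    (he : ((1 : κ₁), c * C.T.2) ∈ C.Bbar) : C.CuspSep := by
  intro z hz hTz
  obtain ⟨z', rfl⟩ := C.mem_Btilde_iff_range.mp hz
  obtain ⟨Tt, hTt⟩ := C.mem_Btilde_iff_range.mp (C.Bbar_le_Btilde C.T_mem_Bbar)
  have hTt2 : (Tt.2 : κ₂) = C.T.2 := by rw [← hTt]; rfl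
  have hs : Tt ∈ C.BbarT := by
    rw [mem_BbarT_iff, hTt]
    exact C.T_mem_Bbar
  have he' : ((1 : C.B₁), (⟨c, hc⟩ : C.B₂) * Tt.2) ∈ C.BbarT := by
    rw [mem_BbarT_iff]
    have : C.incl ((1 : C.B₁), (⟨c, hc⟩ : C.B₂) * Tt.2) = ((1 : κ₁), c * C.T.2) := by
      rw [incl_apply]
      simp [hTt2]
    rw [this]
    exact he
  have hz' : Tt * z' ∈ C.BbarT := by
    rw [mem_BbarT_iff, map_mul, hTt]
    exact hTz
  exact UB.mem_of_mul_mem C.BbarT hL2.h1 hL2.h2 hs he' hz'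

end ChartCoord

namespace TwistFam

variable {C : ChartCoord R} {m : ℕ} (W : TwistFam C m)

/-- **Node count, first chart** (`hcodim` of `W.exists_one_of_glued`,
`Goursat.exists_sum_mul_eq_one_of_glued`, `ExistsOne.one_mem_mul_of_comap`): from the saturation
`hsat` (`C.exists_sat`) and the Riemann-Roch counts, `B̄` has codimension exactly `δ` in
`B₁ × B₂` and `N_i` has codimension at most `δ`. -/
theorem codim_le (hm : 0 < m) (hPfin : ∀ b, Module.Finite k (C.Pk 0 b)) (δ b₂ : ℕ)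
    (hdimS : ∀ b, b₂ ≤ b → finrank k (C.Pk 0 b) = finrank k (R.redLat (C.LN 0 b)) + δ)
    (hsat : ∀ b, b₂ ≤ b → ∀ y ∈ C.Pk 0 b, y ∈ C.Bbar → y ∈ R.redLat (C.LN 0 b))
    (i : ℕ)
    (hdimN : ∀ b, b₂ ≤ b → finrank k (C.Pk 0 b) ≤ finrank k (R.redLat (W.L i 0 b)) + δ) :
    Module.Finite k ((C.B₁ × C.B₂) ⧸ W.NbarT i) ∧
      Module.Finite k ((C.B₁ × C.B₂) ⧸ Subalgebra.toSubmodule C.BbarT) ∧
      finrank k ((C.B₁ × C.B₂) ⧸ Subalgebra.toSubmodule C.BbarT) = δ ∧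
      finrank k ((C.B₁ × C.B₂) ⧸ W.NbarT i) ≤
        finrank k ((C.B₁ × C.B₂) ⧸ Subalgebra.toSubmodule C.BbarT) := by
  have : ∀ b, FiniteDimensional k (C.Pk 0 b) := hPfin
  refine UBMain.finrank_quotient_le_of_embedding C.incl.toLinearMap C.incl_injective
    (fun b => C.Pk 0 b) (fun _ _ h => C.Pk_mono le_rfl h) ?_
    (fun b => R.redLat (W.L i 0 b)) (fun b => R.redLat (C.LN 0 b))
    (fun b => W.redLat_le_Pk hm i 0 b) (fun b => C.redLat_LN_le 0 b)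
    (W.NbarT i) (Subalgebra.toSubmodule C.BbarT) (fun _ => Iff.rfl) (fun _ => Iff.rfl)
    δ b₂ hdimN hdimS (fun b hb y hy hyB => hsat b hb y hy hyB)
  intro ω
  rw [← C.mem_Btilde_iff_exists, C.mem_Btilde_iff_range]
  rfl

/-- **Node count, second chart** (the chart `t ≠ 0`, `C.swap`, `W.swap`): from the saturation on
the overlap `hsatx` (`C.exists_sat_overlap`) and the SAME counts as for the first chart, `B̄'` has
codimension exactly `δ` in `B₁' × B₂'` and `N_i'` has codimension at most `δ`.  No hypothesis on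
the mirrored filtration `P(a,0)` is needed. -/
theorem codim_le_swap (hm : 0 < m) (hPfin : ∀ b, Module.Finite k (C.Pk 0 b)) (δ b₂ : ℕ)
    (hdimS : ∀ b, b₂ ≤ b → finrank k (C.Pk 0 b) = finrank k (R.redLat (C.LN 0 b)) + δ)
    (hsatx : ∀ b, b₂ ≤ b → ∀ y ∈ C.Pk 0 b, (∃ a, ∃ v ∈ C.Bbar, y = C.Ti ^ a * v) →
      y ∈ R.redLat (C.LN 0 b))
    (i : ℕ)
    (hdimN : ∀ b, b₂ ≤ b → finrank k (C.Pk 0 b) ≤ finrank k (R.redLat (W.L i 0 b)) + δ) :
    Module.Finite k ((C.swap.B₁ × C.swap.B₂) ⧸ W.swap.NbarT i) ∧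
      Module.Finite k ((C.swap.B₁ × C.swap.B₂) ⧸ Subalgebra.toSubmodule C.swap.BbarT) ∧
      finrank k ((C.swap.B₁ × C.swap.B₂) ⧸ Subalgebra.toSubmodule C.swap.BbarT) = δ ∧
      finrank k ((C.swap.B₁ × C.swap.B₂) ⧸ W.swap.NbarT i) ≤
        finrank k ((C.swap.B₁ × C.swap.B₂) ⧸ Subalgebra.toSubmodule C.swap.BbarT) := by
  refine UBMain.finrank_quotient_le_of_embedding_twist C.T C.Ti C.T_mul_Ti (fun b => C.Pk 0 b)
    (fun b => R.redLat (C.LN 0 b)) (fun b => R.redLat (W.L i 0 b)) ?_ hPfin ?_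
    (fun b => C.redLat_LN_le 0 b) (fun b => W.redLat_le_Pk hm i 0 b)
    C.swap.incl.toLinearMap C.swap.incl_injective ?_
    (Subalgebra.toSubmodule C.swap.BbarT) ?_ δ b₂ hdimS ?_ hdimN (W.swap.NbarT i) ?_
  · intro b p hp
    exact (T_mul_mem_twoPole_iff C.T_mul_Ti).mpr (C.Pk_mono (Nat.zero_le 1) le_rfl hp)
  · rintro c _ ⟨x, hx, hxL, rfl⟩
    refine ⟨C.t * x, S.O.mul_mem C.t_mem hx, ?_, res_mul R C.t_mem hx⟩
    exact (T_mul_mem_twoPole_iff C.t_mul_tinv).mpr (C.LN_mono (Nat.zero_le 1) le_rfl hxL)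
  · intro ω
    rw [← C.mem_swap_Btilde_iff, C.swap.mem_Btilde_iff_range]
    rfl
  · intro x
    rw [Subalgebra.mem_toSubmodule, ChartCoord.mem_BbarT_iff, C.mem_swap_Bbar_iff]
    rfl
  · intro b hb y hyP hy
    refine hsatx b hb y hyP ?_
    obtain ⟨a, c, v, hv, rfl⟩ := hy
    exact ⟨a, v, ⟨c, hv⟩, rfl⟩
  · intro x
    rw [mem_NbarT_iff, W.mem_swap_Nbar_iff']
    rfl

/-- **WP-UB, final form in the `Lattice2` vocabulary.**  Inputs: the lattices `L(b C∞) ∩ O` are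
finitely generated, the spaces `P(0,b)` of the special fibre are finite-dimensional and generated
in degree one from `b₀` on, the cusp separation on both charts (`CuspSep.of_isL2`), and the
Riemann-Roch counts `dim P(0,b) = dim red L(b C∞) + δ`, `dim P(0,b) ≤ dim red L(i D + b C∞) + δ`
for `b ≥ b₂` (use `finrank_redLat_eq` to express the right-hand sides in characteristic `0`).
Output: on BOTH charts, `B̄` has codimension exactly `δ` in `B₁ × B₂` and `N_i` has finite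
codimension at most `δ` — the instance arguments and `hcodim` of `W.exists_one_of_glued`,
`W.swap.exists_one_of_glued`. -/
theorem codim_main (hm : 0 < m) (hcart : ∀ b, (R.lat (C.LN 0 b)).FG)
    (hPfin : ∀ b, Module.Finite k (C.Pk 0 b)) (b₀ : ℕ)
    (hP : ∀ b, b₀ ≤ b → ∀ p ∈ C.Pk 0 (b + 1), ∃ p₁ ∈ C.Pk 0 b, ∃ p₂ ∈ C.Pk 0 b,
      p = p₁ + C.T * p₂)
    (hsep₁ : C.CuspSep) (hsep₂ : C.swap.CuspSep) (δ b₂ : ℕ)
    (hdimS : ∀ b, b₂ ≤ b → finrank k (C.Pk 0 b) = finrank k (R.redLat (C.LN 0 b)) + δ)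
    (i : ℕ)
    (hdimN : ∀ b, b₂ ≤ b → finrank k (C.Pk 0 b) ≤ finrank k (R.redLat (W.L i 0 b)) + δ) :
    (Module.Finite k ((C.B₁ × C.B₂) ⧸ W.NbarT i) ∧
      Module.Finite k ((C.B₁ × C.B₂) ⧸ Subalgebra.toSubmodule C.BbarT) ∧
      finrank k ((C.B₁ × C.B₂) ⧸ Subalgebra.toSubmodule C.BbarT) = δ ∧
      finrank k ((C.B₁ × C.B₂) ⧸ W.NbarT i) ≤
        finrank k ((C.B₁ × C.B₂) ⧸ Subalgebra.toSubmodule C.BbarT)) ∧
    (Module.Finite k ((C.swap.B₁ × C.swap.B₂) ⧸ W.swap.NbarT i) ∧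
      Module.Finite k ((C.swap.B₁ × C.swap.B₂) ⧸ Subalgebra.toSubmodule C.swap.BbarT) ∧
      finrank k ((C.swap.B₁ × C.swap.B₂) ⧸ Subalgebra.toSubmodule C.swap.BbarT) = δ ∧
      finrank k ((C.swap.B₁ × C.swap.B₂) ⧸ W.swap.NbarT i) ≤
        finrank k ((C.swap.B₁ × C.swap.B₂) ⧸ Subalgebra.toSubmodule C.swap.BbarT)) := by
  obtain ⟨b₁, hb₁⟩ := C.exists_sat_overlap hcart hPfin b₀ hP hsep₁ hsep₂
  set b₃ := max b₁ b₂ with hb₃
  have h1 : ∀ b, b₃ ≤ b → b₁ ≤ b := fun b hb => (le_max_left _ _).trans hb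
  have h2 : ∀ b, b₃ ≤ b → b₂ ≤ b := fun b hb => (le_max_right _ _).trans hb
  refine ⟨W.codim_le hm hPfin δ b₃ (fun b hb => hdimS b (h2 b hb)) ?_ i
      (fun b hb => hdimN b (h2 b hb)),
    W.codim_le_swap hm hPfin δ b₃ (fun b hb => hdimS b (h2 b hb))
      (fun b hb => hb₁ b (h1 b hb)) i (fun b hb => hdimN b (h2 b hb))⟩
  intro b hb y hyP hy
  exact hb₁ b (h1 b hb) y hyP ⟨0, y, hy, by rw [pow_zero, one_mul]⟩

/-- **Saturation in the `hsat` shape of `ExistsOne.exists_one_of_counts`**, on both charts: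
`v ∈ PT b`, `incl v ∈ B̄` ⇒ `v ∈ NbT 0 b` for `b ≥ b₁`. -/
theorem exists_sat_PT (hcart : ∀ b, (R.lat (C.LN 0 b)).FG)
    (hPfin : ∀ b, Module.Finite k (C.Pk 0 b)) (b₀ : ℕ)
    (hP : ∀ b, b₀ ≤ b → ∀ p ∈ C.Pk 0 (b + 1), ∃ p₁ ∈ C.Pk 0 b, ∃ p₂ ∈ C.Pk 0 b,
      p = p₁ + C.T * p₂)
    (hsep₁ : C.CuspSep) (hsep₂ : C.swap.CuspSep) :
    ∃ b₁ : ℕ, ∀ b, b₁ ≤ b →
      (∀ v ∈ C.PT b, C.incl v ∈ C.Bbar → v ∈ W.NbT 0 b) ∧
      (∀ v ∈ C.swap.PT b, C.swap.incl v ∈ C.swap.Bbar → v ∈ W.swap.NbT 0 b) := by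
  obtain ⟨b₁, hb₁⟩ := C.exists_sat_both hcart hPfin b₀ hP hsep₁ hsep₂
  refine ⟨b₁, fun b hb => ⟨fun v hvP hvB => ?_, fun v hvP hvB => ?_⟩⟩
  · show C.incl v ∈ R.redLat (W.L 0 0 b)
    rw [W.L_zero]
    exact (hb₁ b hb).1 _ hvP hvB
  · show C.swap.incl v ∈ R.redLat (W.swap.L 0 0 b)
    rw [W.swap.L_zero]
    exact (hb₁ b hb).2 _ hvP hvB

/-- `codim_main` with the cusp separation given by (L2) and the two separating elements in
`κ`-form (chart `∞`: `(1, c * T₂) ∈ B̄`; chart `0`: `(1, c' * Ti₂) ∈ B̄'`). -/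
theorem codim_main_of_isL2 (hm : 0 < m) (hcart : ∀ b, (R.lat (C.LN 0 b)).FG)
    (hPfin : ∀ b, Module.Finite k (C.Pk 0 b)) (b₀ : ℕ)
    (hP : ∀ b, b₀ ≤ b → ∀ p ∈ C.Pk 0 (b + 1), ∃ p₁ ∈ C.Pk 0 b, ∃ p₂ ∈ C.Pk 0 b,
      p = p₁ + C.T * p₂)
    (hL2 : C.IsL2) (hL2' : C.swap.IsL2)
    (he : ∃ c : κ₂, IsIntegral (Algebra.adjoin k {C.T.2}) c ∧ ((1 : κ₁), c * C.T.2) ∈ C.Bbar)
    (he' : ∃ c : κ₂, IsIntegral (Algebra.adjoin k {C.Ti.2}) c ∧
      ((1 : κ₁), c * C.Ti.2) ∈ C.swap.Bbar)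
    (δ b₂ : ℕ)
    (hdimS : ∀ b, b₂ ≤ b → finrank k (C.Pk 0 b) = finrank k (R.redLat (C.LN 0 b)) + δ)
    (i : ℕ)
    (hdimN : ∀ b, b₂ ≤ b → finrank k (C.Pk 0 b) ≤ finrank k (R.redLat (W.L i 0 b)) + δ) :
    (Module.Finite k ((C.B₁ × C.B₂) ⧸ W.NbarT i) ∧
      Module.Finite k ((C.B₁ × C.B₂) ⧸ Subalgebra.toSubmodule C.BbarT) ∧
      finrank k ((C.B₁ × C.B₂) ⧸ Subalgebra.toSubmodule C.BbarT) = δ ∧
      finrank k ((C.B₁ × C.B₂) ⧸ W.NbarT i) ≤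
        finrank k ((C.B₁ × C.B₂) ⧸ Subalgebra.toSubmodule C.BbarT)) ∧
    (Module.Finite k ((C.swap.B₁ × C.swap.B₂) ⧸ W.swap.NbarT i) ∧
      Module.Finite k ((C.swap.B₁ × C.swap.B₂) ⧸ Subalgebra.toSubmodule C.swap.BbarT) ∧
      finrank k ((C.swap.B₁ × C.swap.B₂) ⧸ Subalgebra.toSubmodule C.swap.BbarT) = δ ∧
      finrank k ((C.swap.B₁ × C.swap.B₂) ⧸ W.swap.NbarT i) ≤
        finrank k ((C.swap.B₁ × C.swap.B₂) ⧸ Subalgebra.toSubmodule C.swap.BbarT)) := by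
  obtain ⟨c, hc, hce⟩ := he
  obtain ⟨c', hc', hce'⟩ := he'
  exact W.codim_main hm hcart hPfin b₀ hP (ChartCoord.CuspSep.of_isL2 hL2 hc hce)
    (ChartCoord.CuspSep.of_isL2 hL2' hc' hce') δ b₂ hdimS i hdimN

end TwistFam

end Prod

end Fermat.Agent.S34x.Lattice2
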