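import Fermat.Agent.S34x.Lattice2.AssembleUB

/-!
# P-S34 (T4), `w`-uniform form

`exists_const_mul_pow_of_ubbridge` for the family `TwistFam.ofDivisor` of an ARBITRARY normalised
pair `(w, D)` (`w ∈ Oˣ`, `res w = 1`, `m D = div w`), with the count `hdimN` stated uniformly for all
divisors of degree `0` (the shape of `CountsInst.exists_counts`): all remaining hypotheses are
independent of `w`.

* `TwistFam.trivial C m`: the untwisted family `L i a b = L(a C₀ + b C∞)`, `u = 1`;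
* `degree_eq_zero_of_ord`: `m D = div w` ⇒ `deg D = 0`;
* `finite_quotient_BbarT`: `B̄` has finite codimension in `B₁ × B₂` on both charts
  (`w`-independent; the field `finite` of `TheoremBInstK.ChartBase`);
* `exists_const_mul_pow_of_counts`: (T4) for every normalised `(w, D)`.
-/

set_option autoImplicit false
set_option linter.unusedSectionVars false
set_option linter.style.haveILetI false

noncomputable section

namespace Fermat.Agent.S34x.Lattice2

open AlgebraicCurve Module IntermediateField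
open Fermat.Agent.Gateway.C0 Fermat.Agent.S34x.C0two
open Fermat.Agent.Lib.RiemannRoch

section trivial

variable {K : Type*} [Field K] {A : ValuationSubring K} {F : Type*} [Field F] [Algebra K F]
  {S : SmallRing F} {k κ : Type*} [Field k] [CommRing κ] [Algebra k κ]
  {R : RedSetup2 A S k κ}

/-- The untwisted family `L i a b = L(a C₀ + b C∞)`, `u = 1`. -/
def TwistFam.trivial (C : ChartCoord R) (m : ℕ) : TwistFam C m where
  L _ a b := C.LN a b
  L_zero _ _ := rfl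
  L_mono ha hb := C.LN_mono ha hb
  L_mul hx hy := C.LN_mul hx hy
  L_inf hx hx' := twoPole_inf _ _ hx hx'
  L_shift := T_mul_mem_twoPole_iff C.t_mul_tinv
  u := 1
  u_ne := one_ne_zero
  u_mem := S.O.one_mem
  uinv_mem := by rw [inv_one]; exact S.O.one_mem
  res_u := map_one R.res
  u_mul hx := by rwa [one_mul]
  uinv_mul hx := by rwa [inv_one, one_mul]

@[simp] theorem TwistFam.trivial_L (C : ChartCoord R) (m i a b : ℕ) :
    (TwistFam.trivial C m).L i a b = C.LN a b := rfl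

end trivial

variable {K : Type*} [Field K] [IsAlgClosed K] [CharZero K] {A : ValuationSubring K}
  {F : Type*} [Field F] [Algebra K F] {S : SmallRing F}

/-- `m D = div w` ⇒ `deg D = 0`. -/
theorem degree_eq_zero_of_ord {t : F} (ht : Transcendental K t) [FiniteDimensional K⟮t⟯ F]
    {m : ℕ} (hm0 : 0 < m) {w : F} (hw0 : w ≠ 0) {D : Divisor K F}
    (hD : ∀ v : Place K F, (m : ℤ) * D v = v.ord w) : Divisor.degree D = 0 := by
  haveI := hasPrincipalDivisors_cz ht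
  haveI : ∀ v : Place K F, v.FiniteResidue := finiteResidue_cz ht
  have h : m • D = divOf (K := K) w := by
    ext v
    rw [Finsupp.smul_apply, nsmul_eq_mul, divOf_apply hw0]
    exact hD v
  have h2 := congrArg Divisor.degree h
  rw [map_nsmul, degree_divOf, nsmul_eq_mul] at h2
  rcases mul_eq_zero.mp h2 with h3 | h3
  · exact absurd (by exact_mod_cast h3) hm0.ne'
  · exact h3

variable {k κ₁ κ₂ : Type*} [Field k] [IsAlgClosed k] [CommRing κ₁] [CommRing κ₂] [Algebra k κ₁]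
  [Algebra k κ₂] [Nontrivial κ₁]
  {R : RedSetup2 A S k (κ₁ × κ₂)} (C : ChartCoord R)
  (ht : Transcendental K C.t) [FiniteDimensional K⟮C.t⟯ F]
  {Dt : Divisor K F} (hDt : ∀ v : Place K F, Dt v = v.ord C.t)
  (hcart : ∀ V : Submodule K F, FiniteDimensional K V → (R.lat V).FG)
  [hPfin : ∀ b, FiniteDimensional k (C.Pk 0 b)] {b₀ : ℕ}
  (hgen : ∀ b, b₀ ≤ b → ∀ x ∈ C.Pk 0 (b + 1), ∃ y ∈ C.Pk 0 b, ∃ z ∈ C.Pk 0 b, x = y + C.T * z)
  (hL2 : C.IsL2) (hL2₀ : C.swap.IsL2)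
  (he : ∃ c : κ₂, IsIntegral (Algebra.adjoin k {C.T.2}) c ∧ ((1 : κ₁), c * C.T.2) ∈ C.Bbar)
  (he₀ : ∃ c : κ₂, IsIntegral (Algebra.adjoin k {C.Ti.2}) c ∧
    ((1 : κ₁), c * C.Ti.2) ∈ C.swap.Bbar)
  (δ b₂ : ℕ)
  (hdimS : ∀ b, b₂ ≤ b → finrank k (C.Pk 0 b) = finrank k (R.redLat (C.LN 0 b)) + δ)

include ht hDt hcart hgen hL2 hL2₀ he he₀ hdimS in
/-- **`B̄` has codimension `δ` in `B₁ × B₂`, on both charts** (independent of any twist): the field
`finite` of `TheoremBInstK.ChartBase` for `j := C.incl`, `Bbar := C.Bbar` (resp. `C.swap`). -/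
theorem finite_quotient_BbarT :
    (Module.Finite k ((C.B₁ × C.B₂) ⧸ Subalgebra.toSubmodule C.BbarT) ∧
      finrank k ((C.B₁ × C.B₂) ⧸ Subalgebra.toSubmodule C.BbarT) = δ) ∧
    (Module.Finite k ((C.swap.B₁ × C.swap.B₂) ⧸ Subalgebra.toSubmodule C.swap.BbarT) ∧
      finrank k ((C.swap.B₁ × C.swap.B₂) ⧸ Subalgebra.toSubmodule C.swap.BbarT) = δ) := by
  have hfg := fg_lat_LN C ht hDt hcart
  obtain ⟨⟨-, i2, hδ, -⟩, ⟨-, i4, hδ₀, -⟩⟩ :=
    (TwistFam.trivial C 1).codim_main_of_isL2 Nat.one_pos hfg hPfin b₀ hgen hL2 hL2₀ he he₀ δ b₂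
      hdimS 0 (fun b hb => (hdimS b hb).le)
  exact ⟨⟨i2, hδ⟩, ⟨i4, hδ₀⟩⟩

variable {m : ℕ} (hm : IsUnit ((m : ℕ) : A)) (hm2 : 2 ≤ m)
  (g : SemilinearAut K F) (hgt : g • C.t = C.t) (hgO : ∀ f ∈ S.O, g • f ∈ S.O)
  (hgres : ∀ (f : F) (hf : f ∈ S.O), R.res ⟨g • f, hgO f hf⟩ = R.res ⟨f, hf⟩)
  {p : ℕ} (hp : 2 ≤ p)
  (hN1 : ∀ g : C.B₂, ∃ g' : C.B₂, ((0 : C.B₁), g - g' ^ p) ∈ C.BbarT)
  {p₀ : ℕ} (hp₀ : 2 ≤ p₀)
  (hN1₀ : ∀ g : C.swap.B₂, ∃ g' : C.swap.B₂, ((0 : C.swap.B₁), g - g' ^ p₀) ∈ C.swap.BbarT)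
  (hdimN : ∀ E : Divisor K F, Divisor.degree E = 0 → ∀ b, b₂ ≤ b →
    finrank k (C.Pk 0 b) ≤ finrank k (R.redLat ((TwoCharts.ofDivisor Dt).LM E 0 b)) + δ)

include ht hDt hcart hgen hL2 hL2₀ he he₀ hdimS hm hm2 hgt hgres hp hN1 hp₀ hN1₀ hdimN in
/-- **(T4), `w`-uniform**: for EVERY normalised pair `(w, D)` (`w` a unit of `S.O` with reduction
`1`, `m D = div w`), `g • w / w = c * v ^ m`.  All hypotheses are independent of `w`. -/
theorem exists_const_mul_pow_of_counts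
    {w : F} (hw0 : w ≠ 0) (hwO : w ∈ S.O) (hwiO : w⁻¹ ∈ S.O) (hw1 : R.res ⟨w, hwO⟩ = 1)
    {D : Divisor K F} (hD : ∀ v : Place K F, (m : ℤ) * D v = v.ord w) :
    ∃ (c : K) (v : F), g • w / w = algebraMap K F c * v ^ m := by
  haveI := isSeparable_adjoin_of_charZero (K := K) C.t
  have hm0 : 0 < m := by omega
  have hD0 : Divisor.degree D = 0 := degree_eq_zero_of_ord ht hm0 hw0 hD
  refine exists_const_mul_pow_of_ubbridge C ht hDt hcart hgen hm hm2 g hgt hgO hgres hw0 hwO hwiO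
    hw1 hD (TwistFam.ofDivisor C ht hDt D hw0 hwO hwiO hw1 hD) (fun _ _ _ => rfl) hL2 hL2₀ he he₀
    hp hN1 hp₀ hN1₀ δ b₂ hdimS ?_
  intro i b hb
  refine hdimN (i • D) ?_ b hb
  rw [map_nsmul, hD0, smul_zero]

end Fermat.Agent.S34x.Lattice2
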