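import Fermat.Agent.Lib.RiemannRoch.FunctionFieldRR
import Fermat.Agent.S34x.UB
import Fermat.Agent.S24.PrincipalDiv

/-!
# P-S34, WP3 (dimension counts): the pole filtration `L(D + b (x)_∞)` of a function field

helper26.  `K` algebraically closed (any characteristic), `F / K(y)` finite separable for some
`y`, `x` ANY transcendental element, `n = [F : K(x)]`, genus `g`, `C = (x)_∞` the pole divisor of `x`, `D` any divisor, `Lb D C b := L(D + b C)`.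

* `exists_poleDiv` : `C` exists and has degree `n`.
* `Lb` is monotone, finite-dimensional, `x • Lb b ≤ Lb (b+1)`, and
  `f ∈ Lb (b+1), x f ∈ Lb (b+1) ⇒ f ∈ Lb b` (pole-filtration property).
* `le_finrank_Lb`, `finrank_Lb` : Riemann's inequality and Riemann-Roch for large `b`.
* `Lb_eq_sup_map` : `Lb (b+2) = Lb (b+1) ⊔ x • Lb (b+1)` for `b ≥ b₀`.
* the same for the product of two function fields (the two components of the special fibre).
-/

set_option autoImplicit false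
set_option linter.unusedSectionVars false
set_option linter.style.haveILetI false

noncomputable section

namespace Fermat.Agent.S34x.Lattice2.Dim

open AlgebraicCurve Polynomial IntermediateField Module
open Fermat.Agent.Lib.RiemannRoch Fermat.Agent.Lib.RiemannRoch.FunctionFieldRR

section Basic

variable {K F : Type*} [Field K] [Field F] [Algebra K F]

/-- The pole filtration `b ↦ L(D + b C)`. -/
def Lb (D C : Divisor K F) (b : ℕ) : Submodule K F := riemannRochSpace (D + b • C)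

theorem mem_Lb_iff {D C : Divisor K F} {b : ℕ} {f : F} :
    f ∈ Lb D C b ↔ ∀ v : Place K F, f = 0 ∨ -(D v + b * C v) ≤ v.ord f := by
  unfold Lb
  rw [mem_riemannRochSpace_iff]
  refine forall_congr' fun v => ?_
  rw [Finsupp.add_apply, Finsupp.smul_apply, nsmul_eq_mul]

theorem Lb_mono (D : Divisor K F) {C : Divisor K F} (hC0 : ∀ v, 0 ≤ C v) : Monotone (Lb D C) := by
  intro b b' hbb' f hf
  rw [mem_Lb_iff] at hf ⊢
  intro v
  rcases hf v with h | h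
  · exact Or.inl h
  · right
    have : (b : ℤ) * C v ≤ (b' : ℤ) * C v :=
      mul_le_mul_of_nonneg_right (by exact_mod_cast hbb') (hC0 v)
    linarith

variable {x : F} {C : Divisor K F} (hC : ∀ v : Place K F, C v = max 0 (-(v.ord x)))

include hC in
theorem poleDiv_nonneg (v : Place K F) : 0 ≤ C v := by
  rw [hC]; exact le_max_left _ _

include hC in
/-- `x • L(D + b C) ≤ L(D + (b+1) C)`. -/
theorem mul_mem_Lb_succ (D : Divisor K F) {b : ℕ} {f : F} (hf : f ∈ Lb D C b) :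
    x * f ∈ Lb D C (b + 1) := by
  rw [mem_Lb_iff] at hf ⊢
  intro v
  rcases eq_or_ne f 0 with rfl | hf0
  · left; simp
  rcases eq_or_ne x 0 with rfl | hx0
  · left; simp
  right
  have h1 := (hf v).resolve_left hf0
  rw [v.ord_mul hx0 hf0]
  have h2 : -(C v) ≤ v.ord x := by
    rw [hC]
    have := le_max_right 0 (-(v.ord x))
    omega
  have h3 := poleDiv_nonneg hC v
  push_cast
  nlinarith

include hC in
/-- **Pole-filtration property**: `f, x f ∈ L(D + (b+1) C) ⇒ f ∈ L(D + b C)`. -/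
theorem mem_Lb_of_mul_mem (D : Divisor K F) {b : ℕ} {f : F} (hf : f ∈ Lb D C (b + 1))
    (hxf : x * f ∈ Lb D C (b + 1)) : f ∈ Lb D C b := by
  rw [mem_Lb_iff] at hf hxf ⊢
  intro v
  rcases eq_or_ne f 0 with rfl | hf0
  · left; rfl
  right
  have h1 := (hf v).resolve_left hf0
  push_cast at h1
  rcases le_or_gt 0 (v.ord x) with hpos | hneg
  · -- `C v = 0`
    have hCv : C v = 0 := by rw [hC]; exact max_eq_left (by omega)
    rw [hCv] at h1 ⊢
    linarith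
  · -- a pole of `x`
    have hx0 : x ≠ 0 := by
      rintro rfl
      rw [Place.ord_zero] at hneg
      exact lt_irrefl _ hneg
    have hCv : C v = -(v.ord x) := by rw [hC]; exact max_eq_right (by omega)
    have h2 := (hxf v).resolve_left (mul_ne_zero hx0 hf0)
    rw [v.ord_mul hx0 hf0] at h2
    push_cast at h2
    rw [hCv] at h2 ⊢
    linarith

end Basic

section XSetting

/-! `y` is a separating element (the source of Riemann-Roch); `x` is ANY transcendental element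
defining the filtration (e.g. `x = y ^ q` in characteristic `q`, for which `F / K(x)` is
inseparable). -/

variable {K F : Type*} [Field K] [IsAlgClosed K] [Field F] [Algebra K F] {y x : F}
  (hy : Transcendental K y) [FiniteDimensional K⟮y⟯ F] [Algebra.IsSeparable K⟮y⟯ F]
  (hx : Transcendental K x) [FiniteDimensional K⟮x⟯ F]

include hy hx in
/-- The pole divisor `(x)_∞` exists and has degree `[F : K(x)]`. -/
theorem exists_poleDiv :
    ∃ C : Divisor K F, (∀ v : Place K F, C v = max 0 (-(v.ord x))) ∧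
      Divisor.degree C = (finrank K⟮x⟯ F : ℤ) := by
  haveI := nonempty_place hy
  haveI : ∀ v : Place K F, v.FiniteResidue := FunctionField.finiteResidue K y
  haveI := hasPrincipalDivisors hy
  have hl0 : finrank K (riemannRochSpace (0 : Divisor K F)) = 1 := ell_zero_eq_one
  have h0fin : Module.Finite K (riemannRochSpace (0 : Divisor K F)) :=
    Module.finite_of_finrank_pos (by omega)
  have hdiv : ∀ f : F, f ≠ 0 → ∃ D : Divisor K F, ∀ v, D v = v.ord f := fun f hf => by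
    obtain ⟨D, hD, -⟩ := HasPrincipalDivisors.exists_divisor (K := K) f hf
    exact ⟨D, hD⟩
  have hx0 : x ≠ 0 := by
    rintro rfl
    exact hx isAlgebraic_zero
  refine ⟨DegBound.poleDivisor (K := K) x, DegBound.poleDivisor_apply hx0, ?_⟩
  exact FunctionFieldDeg.degree_poles_eq_finrank x hx h0fin hdiv (DegBound.poleDivisor_apply hx0)

variable {C : Divisor K F} (hC : ∀ v : Place K F, C v = max 0 (-(v.ord x)))
  (hCdeg : Divisor.degree C = (finrank K⟮x⟯ F : ℤ))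

include hy in
omit [FiniteDimensional K⟮x⟯ F] in
theorem finite_Lb (D C : Divisor K F) (b : ℕ) : Module.Finite K (Lb D C b) := by
  obtain ⟨W, -, -, hW⟩ := riemannRoch_sep_algClosed hy
  exact (hW _).1

include hCdeg in
omit [IsAlgClosed K] [FiniteDimensional K⟮y⟯ F] [Algebra.IsSeparable K⟮y⟯ F] in
theorem degree_add_nsmul (D : Divisor K F) (b : ℕ) :
    Divisor.degree (D + b • C) = Divisor.degree D + b * (finrank K⟮x⟯ F : ℤ) := by
  rw [map_add, map_nsmul, hCdeg, nsmul_eq_mul]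

include hy hCdeg in
/-- **Riemann's inequality** along the pole filtration. -/
theorem le_finrank_Lb (D : Divisor K F) (b : ℕ) :
    Divisor.degree D + b * (finrank K⟮x⟯ F : ℤ) + 1 - genusFF K F ≤
      (finrank K (Lb D C b) : ℤ) := by
  have := (riemann_ineq_algClosed hy (D + b • C)).1
  rwa [degree_add_nsmul hCdeg] at this

include hy hCdeg in
/-- **Riemann-Roch** along the pole filtration, for large `b`. -/
theorem finrank_Lb (D : Divisor K F) {b : ℕ}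
    (hb : 2 * (genusFF K F : ℤ) - 2 < Divisor.degree D + b * (finrank K⟮x⟯ F : ℤ)) :
    (finrank K (Lb D C b) : ℤ) =
      Divisor.degree D + b * (finrank K⟮x⟯ F : ℤ) + 1 - genusFF K F := by
  have := (riemann_ineq_algClosed hy (D + b • C)).2
  rw [degree_add_nsmul hCdeg] at this
  exact this hb

include hy hC hCdeg in
/-- `L(D + (b+2) C) = L(D + (b+1) C) + x L(D + (b+1) C)` as soon as
`deg D + b n > 2 g - 2`. -/
theorem Lb_eq_sup_map (D : Divisor K F) {b₀ : ℕ}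
    (hb₀ : 2 * (genusFF K F : ℤ) - 2 < Divisor.degree D + b₀ * (finrank K⟮x⟯ F : ℤ))
    (b : ℕ) (hb : b₀ ≤ b) :
    Lb D C (b + 2) = Lb D C (b + 1) ⊔ (Lb D C (b + 1)).map (LinearMap.mulLeft K x) := by
  haveI : ∀ b, FiniteDimensional K (Lb D C b) := fun b => finite_Lb hy D C b
  refine UB.eq_sup_map_of_linear_growth (LinearMap.mulLeft K x) (Lb D C)
    (Lb_mono D (poleDiv_nonneg hC)) (fun b f hf => mul_mem_Lb_succ hC D hf)
    (fun b f hf hxf => mem_Lb_of_mul_mem hC D hf hxf)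
    (finrank K⟮x⟯ F) (Divisor.degree D + 1 - genusFF K F) b₀ (fun b hb => ?_) b hb
  have h1 : 2 * (genusFF K F : ℤ) - 2 < Divisor.degree D + b * (finrank K⟮x⟯ F : ℤ) := by
    have h2 : (b₀ : ℤ) * (finrank K⟮x⟯ F : ℤ) ≤ (b : ℤ) * (finrank K⟮x⟯ F : ℤ) :=
      mul_le_mul_of_nonneg_right (by exact_mod_cast hb) (Int.natCast_nonneg _)
    linarith
  rw [finrank_Lb hy hCdeg D h1]
  ring

end XSetting

section Power

/-! ### The `q`-th power of a separating element (`x = y ^ q`, e.g. `tbar ^ q` on the second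
component of the special fibre) -/

variable {K F : Type*} [Field K] [IsAlgClosed K] [Field F] [Algebra K F] {y : F}
  (hy : Transcendental K y) [FiniteDimensional K⟮y⟯ F] [Algebra.IsSeparable K⟮y⟯ F]

include hy in
omit [IsAlgClosed K] [FiniteDimensional K⟮y⟯ F] [Algebra.IsSeparable K⟮y⟯ F] in
theorem transcendental_pow {q : ℕ} (hq : 0 < q) : Transcendental K (y ^ q) :=
  fun h => hy ((IsAlgebraic.of_pow hq) h)

include hy in
omit [IsAlgClosed K] [Algebra.IsSeparable K⟮y⟯ F] in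
theorem finiteDimensional_adjoin_pow {q : ℕ} (hq : 0 < q) : FiniteDimensional K⟮y ^ q⟯ F :=
  Fermat.Agent.S24.PD.finiteDimensional_adjoin_of_transcendental (x := y)
    (transcendental_pow hy hq)

omit [IsAlgClosed K] [FiniteDimensional K⟮y⟯ F] [Algebra.IsSeparable K⟮y⟯ F] in
/-- `(y ^ q)_∞ = q (y)_∞`. -/
theorem poleDiv_pow {C : Divisor K F} (hC : ∀ v : Place K F, C v = max 0 (-(v.ord y))) (q : ℕ)
    (v : Place K F) : (q • C) v = max 0 (-(v.ord (y ^ q))) := by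
  have hpow : v.ord (y ^ q) = q * v.ord y := by
    have := v.ord_zpow y q
    rwa [zpow_natCast] at this
  rw [Finsupp.smul_apply, nsmul_eq_mul, hC, hpow]
  rcases le_or_gt 0 (v.ord y) with h | h
  · have h1 : (0 : ℤ) ≤ q * v.ord y := mul_nonneg (Int.natCast_nonneg _) h
    rw [max_eq_left (by omega), max_eq_left (by omega), mul_zero]
  · have h1 : (q : ℤ) * v.ord y ≤ 0 :=
      mul_nonpos_of_nonneg_of_nonpos (Int.natCast_nonneg _) h.le
    rw [max_eq_right (by omega), max_eq_right (by omega)]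
    ring

include hy in
/-- `[F : K(y ^ q)] = q [F : K(y)]`. -/
theorem finrank_adjoin_pow {q : ℕ} (hq : 0 < q) [FiniteDimensional K⟮y ^ q⟯ F] :
    finrank K⟮y ^ q⟯ F = q * finrank K⟮y⟯ F := by
  obtain ⟨C, hC, hCdeg⟩ := exists_poleDiv hy hy
  obtain ⟨C', hC', hCdeg'⟩ := exists_poleDiv hy (transcendental_pow hy hq)
  have hCC' : C' = q • C := by
    ext v
    rw [hC', poleDiv_pow hC q v]
  have : (finrank K⟮y ^ q⟯ F : ℤ) = q * (finrank K⟮y⟯ F : ℤ) := by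
    rw [← hCdeg', hCC', map_nsmul, hCdeg, nsmul_eq_mul]
  exact_mod_cast this

end Power

section Product

/-! ### The product of two function fields (two components of a special fibre) -/

variable {k : Type*} [Field k]

/-- `p.prod q ≃ p × q`. -/
def prodSubEquiv {V₁ V₂ : Type*} [AddCommGroup V₁] [Module k V₁] [AddCommGroup V₂] [Module k V₂]
    (p : Submodule k V₁) (q : Submodule k V₂) : ↥(p.prod q) ≃ₗ[k] ↥p × ↥q where
  toFun z := (⟨z.1.1, z.2.1⟩, ⟨z.1.2, z.2.2⟩)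
  invFun w := ⟨(w.1.1, w.2.1), ⟨w.1.2, w.2.2⟩⟩
  map_add' _ _ := rfl
  map_smul' _ _ := rfl
  left_inv _ := rfl
  right_inv _ := rfl

theorem finite_prod {V₁ V₂ : Type*} [AddCommGroup V₁] [Module k V₁] [AddCommGroup V₂]
    [Module k V₂] (p : Submodule k V₁) (q : Submodule k V₂) [Module.Finite k p]
    [Module.Finite k q] : Module.Finite k ↥(p.prod q) :=
  Module.Finite.equiv (prodSubEquiv p q).symm

theorem finrank_prod' {V₁ V₂ : Type*} [AddCommGroup V₁] [Module k V₁] [AddCommGroup V₂]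
    [Module k V₂] (p : Submodule k V₁) (q : Submodule k V₂) [Module.Finite k p]
    [Module.Finite k q] : finrank k ↥(p.prod q) = finrank k p + finrank k q := by
  rw [(prodSubEquiv p q).finrank_eq, Module.finrank_prod]

variable [IsAlgClosed k] {F₁ F₂ : Type*} [Field F₁] [Algebra k F₁] [Field F₂] [Algebra k F₂]
  {y₁ x₁ : F₁} {y₂ x₂ : F₂} (hy₁ : Transcendental k y₁) (hy₂ : Transcendental k y₂)
  [FiniteDimensional k⟮y₁⟯ F₁] [Algebra.IsSeparable k⟮y₁⟯ F₁]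
  [FiniteDimensional k⟮y₂⟯ F₂] [Algebra.IsSeparable k⟮y₂⟯ F₂]
  [FiniteDimensional k⟮x₁⟯ F₁] [FiniteDimensional k⟮x₂⟯ F₂]
  {C₁ : Divisor k F₁} (hC₁ : ∀ v : Place k F₁, C₁ v = max 0 (-(v.ord x₁)))
  (hCdeg₁ : Divisor.degree C₁ = (finrank k⟮x₁⟯ F₁ : ℤ))
  {C₂ : Divisor k F₂} (hC₂ : ∀ v : Place k F₂, C₂ v = max 0 (-(v.ord x₂)))
  (hCdeg₂ : Divisor.degree C₂ = (finrank k⟮x₂⟯ F₂ : ℤ))

/-- The pole filtration of the product `F₁ × F₂`. -/
def Pb (D₁ C₁ : Divisor k F₁) (D₂ C₂ : Divisor k F₂) (b : ℕ) : Submodule k (F₁ × F₂) :=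
  (Lb D₁ C₁ b).prod (Lb D₂ C₂ b)

/-- Multiplication by `(x₁, x₂)` on `F₁ × F₂`. -/
def mulT (x₁ : F₁) (x₂ : F₂) : (F₁ × F₂) →ₗ[k] (F₁ × F₂) :=
  (LinearMap.mulLeft k x₁).prodMap (LinearMap.mulLeft k x₂)

omit [IsAlgClosed k] in
theorem mulT_apply (x₁ : F₁) (x₂ : F₂) (z : F₁ × F₂) :
    mulT (k := k) x₁ x₂ z = (x₁ * z.1, x₂ * z.2) := rfl

omit [IsAlgClosed k] in
theorem mem_Pb_iff {D₁ C₁ : Divisor k F₁} {D₂ C₂ : Divisor k F₂} {b : ℕ} {z : F₁ × F₂} :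
    z ∈ Pb D₁ C₁ D₂ C₂ b ↔ z.1 ∈ Lb D₁ C₁ b ∧ z.2 ∈ Lb D₂ C₂ b := Submodule.mem_prod

include hC₁ hC₂ in
omit [IsAlgClosed k] [FiniteDimensional k⟮y₁⟯ F₁] [Algebra.IsSeparable k⟮y₁⟯ F₁]
  [FiniteDimensional k⟮y₂⟯ F₂] [Algebra.IsSeparable k⟮y₂⟯ F₂]
  [FiniteDimensional k⟮x₁⟯ F₁] [FiniteDimensional k⟮x₂⟯ F₂] in
theorem Pb_mono (D₁ : Divisor k F₁) (D₂ : Divisor k F₂) : Monotone (Pb D₁ C₁ D₂ C₂) :=
  fun _ _ h => Submodule.prod_mono (Lb_mono D₁ (poleDiv_nonneg hC₁) h)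
    (Lb_mono D₂ (poleDiv_nonneg hC₂) h)

include hC₁ hC₂ in
omit [IsAlgClosed k] [FiniteDimensional k⟮y₁⟯ F₁] [Algebra.IsSeparable k⟮y₁⟯ F₁]
  [FiniteDimensional k⟮y₂⟯ F₂] [Algebra.IsSeparable k⟮y₂⟯ F₂]
  [FiniteDimensional k⟮x₁⟯ F₁] [FiniteDimensional k⟮x₂⟯ F₂] in
theorem mulT_mem_Pb_succ (D₁ : Divisor k F₁) (D₂ : Divisor k F₂) {b : ℕ} {z : F₁ × F₂}
    (hz : z ∈ Pb D₁ C₁ D₂ C₂ b) : mulT (k := k) x₁ x₂ z ∈ Pb D₁ C₁ D₂ C₂ (b + 1) :=
  ⟨mul_mem_Lb_succ hC₁ D₁ hz.1, mul_mem_Lb_succ hC₂ D₂ hz.2⟩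

include hC₁ hC₂ in
omit [IsAlgClosed k] [FiniteDimensional k⟮y₁⟯ F₁] [Algebra.IsSeparable k⟮y₁⟯ F₁]
  [FiniteDimensional k⟮y₂⟯ F₂] [Algebra.IsSeparable k⟮y₂⟯ F₂]
  [FiniteDimensional k⟮x₁⟯ F₁] [FiniteDimensional k⟮x₂⟯ F₂] in
theorem mem_Pb_of_mulT_mem (D₁ : Divisor k F₁) (D₂ : Divisor k F₂) {b : ℕ} {z : F₁ × F₂}
    (hz : z ∈ Pb D₁ C₁ D₂ C₂ (b + 1)) (hTz : mulT (k := k) x₁ x₂ z ∈ Pb D₁ C₁ D₂ C₂ (b + 1)) :
    z ∈ Pb D₁ C₁ D₂ C₂ b :=
  ⟨mem_Lb_of_mul_mem hC₁ D₁ hz.1 hTz.1, mem_Lb_of_mul_mem hC₂ D₂ hz.2 hTz.2⟩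

include hy₁ hy₂ in
omit [FiniteDimensional k⟮x₁⟯ F₁] [FiniteDimensional k⟮x₂⟯ F₂] in
theorem finite_Pb (D₁ C₁ : Divisor k F₁) (D₂ C₂ : Divisor k F₂) (b : ℕ) :
    Module.Finite k (Pb D₁ C₁ D₂ C₂ b) := by
  haveI := finite_Lb hy₁ D₁ C₁ b
  haveI := finite_Lb hy₂ D₂ C₂ b
  exact finite_prod _ _

include hy₁ hy₂ hCdeg₁ hCdeg₂ in
/-- **Riemann-Roch on the two components**: for `b` large,
`dim P b = b (n₁ + n₂) + deg D₁ + deg D₂ + 2 - g₁ - g₂`. -/
theorem finrank_Pb (D₁ : Divisor k F₁) (D₂ : Divisor k F₂) {b : ℕ}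
    (hb₁ : 2 * (genusFF k F₁ : ℤ) - 2 < Divisor.degree D₁ + b * (finrank k⟮x₁⟯ F₁ : ℤ))
    (hb₂ : 2 * (genusFF k F₂ : ℤ) - 2 < Divisor.degree D₂ + b * (finrank k⟮x₂⟯ F₂ : ℤ)) :
    (finrank k (Pb D₁ C₁ D₂ C₂ b) : ℤ) =
      ((finrank k⟮x₁⟯ F₁ + finrank k⟮x₂⟯ F₂ : ℕ) : ℤ) * b +
        (Divisor.degree D₁ + Divisor.degree D₂ + 2 - genusFF k F₁ - genusFF k F₂) := by
  haveI := finite_Lb hy₁ D₁ C₁ b
  haveI := finite_Lb hy₂ D₂ C₂ b
  unfold Pb
  rw [finrank_prod']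
  push_cast
  rw [finrank_Lb hy₁ hCdeg₁ D₁ hb₁, finrank_Lb hy₂ hCdeg₂ D₂ hb₂]
  ring

include hy₁ hy₂ hCdeg₁ hCdeg₂ in
/-- **Riemann's inequality on the two components.** -/
theorem le_finrank_Pb (D₁ : Divisor k F₁) (D₂ : Divisor k F₂) (b : ℕ) :
    ((finrank k⟮x₁⟯ F₁ + finrank k⟮x₂⟯ F₂ : ℕ) : ℤ) * b +
        (Divisor.degree D₁ + Divisor.degree D₂ + 2 - genusFF k F₁ - genusFF k F₂) ≤
      (finrank k (Pb D₁ C₁ D₂ C₂ b) : ℤ) := by
  haveI := finite_Lb hy₁ D₁ C₁ b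
  haveI := finite_Lb hy₂ D₂ C₂ b
  unfold Pb
  rw [finrank_prod']
  push_cast
  have h1 := le_finrank_Lb hy₁ hCdeg₁ D₁ b
  have h2 := le_finrank_Lb hy₂ hCdeg₂ D₂ b
  linarith

include hy₁ hy₂ hC₁ hC₂ hCdeg₁ hCdeg₂ in
/-- `P (b+2) = P (b+1) ⊔ T (P (b+1))` for `b ≥ b₀`, `T = (x₁, x₂)`. -/
theorem Pb_eq_sup_map (D₁ : Divisor k F₁) (D₂ : Divisor k F₂) {b₀ : ℕ}
    (hb₁ : 2 * (genusFF k F₁ : ℤ) - 2 < Divisor.degree D₁ + b₀ * (finrank k⟮x₁⟯ F₁ : ℤ))
    (hb₂ : 2 * (genusFF k F₂ : ℤ) - 2 < Divisor.degree D₂ + b₀ * (finrank k⟮x₂⟯ F₂ : ℤ))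
    (b : ℕ) (hb : b₀ ≤ b) :
    Pb D₁ C₁ D₂ C₂ (b + 2) =
      Pb D₁ C₁ D₂ C₂ (b + 1) ⊔ (Pb D₁ C₁ D₂ C₂ (b + 1)).map (mulT (k := k) x₁ x₂) := by
  haveI : ∀ b, FiniteDimensional k (Pb D₁ C₁ D₂ C₂ b) := fun b => finite_Pb hy₁ hy₂ D₁ C₁ D₂ C₂ b
  refine UB.eq_sup_map_of_linear_growth (mulT (k := k) x₁ x₂) (Pb D₁ C₁ D₂ C₂)
    (Pb_mono hC₁ hC₂ D₁ D₂) (fun b z hz => mulT_mem_Pb_succ hC₁ hC₂ D₁ D₂ hz)
    (fun b z hz hTz => mem_Pb_of_mulT_mem hC₁ hC₂ D₁ D₂ hz hTz)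
    (finrank k⟮x₁⟯ F₁ + finrank k⟮x₂⟯ F₂)
    (Divisor.degree D₁ + Divisor.degree D₂ + 2 - genusFF k F₁ - genusFF k F₂) b₀
    (fun b hb => ?_) b hb
  have hmono : ∀ n : ℕ, (b₀ : ℤ) * (n : ℤ) ≤ (b : ℤ) * (n : ℤ) := fun n =>
    mul_le_mul_of_nonneg_right (by exact_mod_cast hb) (Int.natCast_nonneg _)
  exact finrank_Pb hy₁ hy₂ hCdeg₁ hCdeg₂ D₁ D₂
    (by linarith [hmono (finrank k⟮x₁⟯ F₁)]) (by linarith [hmono (finrank k⟮x₂⟯ F₂)])

end Product

end Fermat.Agent.S34x.Lattice2.Dim
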