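import Fermat.Agent.S34x.Lattice2.Setup
import Fermat.Agent.S34x.TheoremB
import Fermat.Agent.Gateway.C0.Main

/-!
# P-S34 WP3 (abstract layer): the twisted family of a divisor

`F / K` a function field, `C : ChartCoord R` with `C.t` transcendental, `Dt = div t`,
`T = TwoCharts.ofDivisor Dt` (`Gateway/C0/DivSide`).

* `LN_eq`: `T.LN a b = C.LN a b` (the place-free description, `C0/Main.mem_LN_iff_isIntegral`);
* `TwistFam.ofDivisor`: for a divisor `D` with `m D = div u`, `u` a unit of `S.O` reducing to `1`,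
  the family `L i a b = T.LM (i • D) a b = L(i D + a C₀ + b C∞)` is a `TwistFam C m`;
  so `W.L 1 0 b`, `W.L (m-1) 0 b` are literally the spaces consumed by `TheoremB`/`ExistsOne`;
  (the divisor computation of (N3) is `TheoremB.mul_mem_LM_of_sigma`, `S34x/TheoremBSigma.lean`).
-/

set_option autoImplicit false
set_option linter.unusedSectionVars false
set_option linter.style.haveILetI false

noncomputable section

namespace Fermat.Agent.S34x.Lattice2

open AlgebraicCurve IntermediateField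
open Fermat.Agent.Gateway.C0 Fermat.Agent.S34x.C0two

variable {K : Type*} [Field K] {A : ValuationSubring K} {F : Type*} [Field F] [Algebra K F]
  {S : SmallRing F} {k κ : Type*} [Field k] [CommRing κ] [Algebra k κ]
  {R : RedSetup2 A S k κ} (C : ChartCoord R)

section rrs

/-- multiplication by `u` with `div u = m D`: `u · L((i + m) D + D') ⊆ L(i D + D')`. -/
theorem mul_mem_rrs_of_div {D D' : Divisor K F} {m : ℕ} {u : F} (hu0 : u ≠ 0)
    (hD : ∀ v : Place K F, (m : ℤ) * D v = v.ord u) (i : ℕ) {x : F}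
    (hx : x ∈ riemannRochSpace ((i + m) • D + D')) : u * x ∈ riemannRochSpace (i • D + D') := by
  by_cases hx0 : x = 0
  · subst hx0; simp
  rw [mem_riemannRochSpace_iff] at hx ⊢
  intro v
  right
  have h := (hx v).resolve_left hx0
  rw [v.ord_mul hu0 hx0, ← hD v]
  simp only [Finsupp.add_apply, Finsupp.smul_apply, nsmul_eq_mul] at h ⊢
  push_cast at h ⊢
  linarith

/-- multiplication by `u⁻¹` with `div u = m D`: `u⁻¹ · L(i D + D') ⊆ L((i + m) D + D')`. -/
theorem inv_mul_mem_rrs_of_div {D D' : Divisor K F} {m : ℕ} {u : F} (hu0 : u ≠ 0)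
    (hD : ∀ v : Place K F, (m : ℤ) * D v = v.ord u) (i : ℕ) {x : F}
    (hx : x ∈ riemannRochSpace (i • D + D')) :
    u⁻¹ * x ∈ riemannRochSpace ((i + m) • D + D') := by
  by_cases hx0 : x = 0
  · subst hx0; simp
  rw [mem_riemannRochSpace_iff] at hx ⊢
  intro v
  right
  have h := (hx v).resolve_left hx0
  rw [v.ord_mul (inv_ne_zero hu0) hx0, v.ord_inv, ← hD v]
  simp only [Finsupp.add_apply, Finsupp.smul_apply, nsmul_eq_mul] at h ⊢
  push_cast at h ⊢
  linarith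

end rrs

variable (ht : Transcendental K C.t) [FiniteDimensional K⟮C.t⟯ F] [Algebra.IsSeparable K⟮C.t⟯ F]
  {Dt : Divisor K F} (hDt : ∀ v : Place K F, Dt v = v.ord C.t)

include ht hDt in
/-- The divisor description and the place-free description of `L(a C₀ + b C∞)` agree. -/
theorem LN_eq (a b : ℕ) : (TwoCharts.ofDivisor Dt).LN a b = C.LN a b := by
  ext f
  rw [mem_LN_iff_isIntegral ht hDt]
  rfl

/-- **The twisted family of a divisor `D` with `m D = div u`.** -/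
def TwistFam.ofDivisor (D : Divisor K F) {m : ℕ} {u : F} (hu0 : u ≠ 0) (huO : u ∈ S.O)
    (huiO : u⁻¹ ∈ S.O) (hu1 : R.res ⟨u, huO⟩ = 1)
    (hD : ∀ v : Place K F, (m : ℤ) * D v = v.ord u) : TwistFam C m where
  L i a b := (TwoCharts.ofDivisor Dt).LM (i • D) a b
  L_zero a b := by
    rw [zero_smul, TwoCharts.LM_zero_eq, LN_eq C ht hDt]
  L_mono ha hb := (TwoCharts.ofDivisor Dt).LM_mono _ ha hb
  L_mul {i j a b a' b' x y} hx hy := by
    have := mul_mem_rrs hx hy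
    rw [TwoCharts.LM, TwoCharts.dv_add, add_smul]
    convert this using 2
    abel
  L_inf hx hx' := (TwoCharts.ofDivisor Dt).LM_inf _ hx hx'
  L_shift {i a b x} := by
    rw [TheoremB.mem_LM_iff_pow_mul C.t_ne hDt, TheoremB.mem_LM_iff_pow_mul C.t_ne hDt (i • D) (a + 1)]
    have e1 : C.t ^ a * (C.t * x) = C.t ^ (a + 1) * x := by ring
    have e2 : a + (b + 1) = a + 1 + b := by ring
    rw [e1, e2]
  u := u
  u_ne := hu0
  u_mem := huO
  uinv_mem := huiO
  res_u := hu1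
  u_mul {i a b x} hx := mul_mem_rrs_of_div hu0 hD i hx
  uinv_mul {i a b x} hx := inv_mul_mem_rrs_of_div hu0 hD i hx

theorem TwistFam.ofDivisor_L (D : Divisor K F) {m : ℕ} {u : F} (hu0 : u ≠ 0) (huO : u ∈ S.O)
    (huiO : u⁻¹ ∈ S.O) (hu1 : R.res ⟨u, huO⟩ = 1)
    (hD : ∀ v : Place K F, (m : ℤ) * D v = v.ord u) (i a b : ℕ) :
    (TwistFam.ofDivisor C ht hDt D hu0 huO huiO hu1 hD).L i a b =
      (TwoCharts.ofDivisor Dt).LM (i • D) a b := rfl

theorem TwistFam.ofDivisor_u (D : Divisor K F) {m : ℕ} {u : F} (hu0 : u ≠ 0) (huO : u ∈ S.O)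
    (huiO : u⁻¹ ∈ S.O) (hu1 : R.res ⟨u, huO⟩ = 1)
    (hD : ∀ v : Place K F, (m : ℤ) * D v = v.ord u) :
    (TwistFam.ofDivisor C ht hDt D hu0 huO huiO hu1 hD).u = u := rfl

theorem TwistFam.ofDivisor_L_one (D : Divisor K F) {m : ℕ} {u : F} (hu0 : u ≠ 0) (huO : u ∈ S.O)
    (huiO : u⁻¹ ∈ S.O) (hu1 : R.res ⟨u, huO⟩ = 1)
    (hD : ∀ v : Place K F, (m : ℤ) * D v = v.ord u) (a b : ℕ) :
    (TwistFam.ofDivisor C ht hDt D hu0 huO huiO hu1 hD).L 1 a b =
      (TwoCharts.ofDivisor Dt).LM D a b := by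
  rw [TwistFam.ofDivisor_L, one_smul]

/-- `hN` of `TheoremBInst.exists_const_mul_pow_of_charts` (chart `∞`) for the family of `D`. -/
theorem TwistFam.ofDivisor_mem_Nbar_one (D : Divisor K F) {m : ℕ} {u : F} (hu0 : u ≠ 0)
    (huO : u ∈ S.O) (huiO : u⁻¹ ∈ S.O) (hu1 : R.res ⟨u, huO⟩ = 1)
    (hD : ∀ v : Place K F, (m : ℤ) * D v = v.ord u) {y : κ}
    (hy : y ∈ (TwistFam.ofDivisor C ht hDt D hu0 huO huiO hu1 hD).Nbar 1) :
    ∃ b, y ∈ R.redLat ((TwoCharts.ofDivisor Dt).LM D 0 b) := by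
  obtain ⟨b, hb⟩ := hy
  exact ⟨b, by rwa [TwistFam.ofDivisor_L_one] at hb⟩

/-- `hN'` of `TheoremBInst.exists_const_mul_pow_of_charts` (chart `∞`) for the family of `D`. -/
theorem TwistFam.ofDivisor_mem_Nbar (D : Divisor K F) {m : ℕ} {u : F} (hu0 : u ≠ 0)
    (huO : u ∈ S.O) (huiO : u⁻¹ ∈ S.O) (hu1 : R.res ⟨u, huO⟩ = 1)
    (hD : ∀ v : Place K F, (m : ℤ) * D v = v.ord u) (i : ℕ) {y : κ}
    (hy : y ∈ (TwistFam.ofDivisor C ht hDt D hu0 huO huiO hu1 hD).Nbar i) :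
    ∃ b, y ∈ R.redLat ((TwoCharts.ofDivisor Dt).LM (i • D) 0 b) := hy

end Fermat.Agent.S34x.Lattice2
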