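import Fermat.Agent.S34x.Lattice2.L2
import Fermat.Agent.S34x.Lattice2.Swap
import Fermat.Agent.S34x.Lattice2.OfDivisor
import Fermat.Agent.S34x.TheoremBInst

/-!
# P-S34 (T4) in the `Lattice2` vocabulary

`TheoremBInst.exists_const_mul_pow_of_charts` (helper45) specialised to the objects of
`Lattice2/{Setup,L2,Swap,OfDivisor}`: for `R : RedSetup2 A S k (κ₁ × κ₂)`, a chart coordinate
`C : ChartCoord R` with `C.t` transcendental, a twisted family `W : TwistFam C m` with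
`W.L i a b = L(i D + a C₀ + b C∞)` (e.g. `TwistFam.ofDivisor`), and `g : SemilinearAut K F` fixing
`t`, preserving `S.O` and acting trivially on the reduction:

`(L2)` on both charts (`C.IsL2`, `C.swap.IsL2`), reducedness of the glueing rings (`hN1`), and the
codimension bounds `codim N_1, codim N_{m-1} ≤ codim B̄` on both charts give
`g • w / w = c * v ^ m`.

Everything chart-dependent is stated for `C` (chart `∞`) and for `C.swap` (chart `0`) in the same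
shape (`C.B₁ × C.B₂`, `C.BbarT`, `W.NbarT i`).
-/

set_option autoImplicit false
set_option linter.unusedSectionVars false
set_option linter.style.haveILetI false

noncomputable section

namespace Fermat.Agent.S34x.Lattice2

open AlgebraicCurve Module IntermediateField
open Fermat.Agent.Gateway.C0 Fermat.Agent.S34x.C0two

/-- in characteristic zero `F / K(t)` is separable -/
theorem isSeparable_adjoin_of_charZero {K F : Type*} [Field K] [CharZero K] [Field F] [Algebra K F]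
    (t : F) [FiniteDimensional K⟮t⟯ F] : Algebra.IsSeparable K⟮t⟯ F := by
  haveI : CharZero K⟮t⟯ := charZero_of_injective_algebraMap (algebraMap K K⟮t⟯).injective
  infer_instance

variable {K : Type*} [Field K] [IsAlgClosed K] [CharZero K] {A : ValuationSubring K}
  {F : Type*} [Field F] [Algebra K F] {S : SmallRing F}
  {k κ₁ κ₂ : Type*} [Field k] [IsAlgClosed k] [CommRing κ₁] [CommRing κ₂] [Algebra k κ₁]
  [Algebra k κ₂] [Nontrivial κ₁]
  {R : RedSetup2 A S k (κ₁ × κ₂)} (C : ChartCoord R)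
  (ht : Transcendental K C.t) [FiniteDimensional K⟮C.t⟯ F]
  {Dt : Divisor K F} (hDt : ∀ v : Place K F, Dt v = v.ord C.t)
  (hcart : ∀ V : Submodule K F, FiniteDimensional K V → (R.lat V).FG)
  [∀ b, FiniteDimensional k (C.Pk 0 b)] {b₀ : ℕ}
  (hgen : ∀ b, b₀ ≤ b → ∀ x ∈ C.Pk 0 (b + 1), ∃ y ∈ C.Pk 0 b, ∃ z ∈ C.Pk 0 b, x = y + C.T * z)
  {m : ℕ} (hm : IsUnit ((m : ℕ) : A)) (hm2 : 2 ≤ m)
  (g : SemilinearAut K F) (hgt : g • C.t = C.t) (hgO : ∀ f ∈ S.O, g • f ∈ S.O)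
  (hgres : ∀ (f : F) (hf : f ∈ S.O), R.res ⟨g • f, hgO f hf⟩ = R.res ⟨f, hf⟩)
  {w : F} (hw0 : w ≠ 0) (hwO : w ∈ S.O) (hwiO : w⁻¹ ∈ S.O) (hw1 : R.res ⟨w, hwO⟩ = 1)
  {D : Divisor K F} (hD : ∀ v : Place K F, (m : ℤ) * D v = v.ord w)

include ht hDt hcart hgen hm hm2 hgt hgres hw0 hwiO hw1 hD in
/-- **(T4) from the codimension bounds on the two charts**, in the `Lattice2` vocabulary. -/
theorem exists_const_mul_pow_of_codim
    (W : TwistFam C m)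
    (hWL : ∀ i a b, W.L i a b = (TwoCharts.ofDivisor Dt).LM (i • D) a b)
    -- chart `∞`
    (hL2 : C.IsL2)
    [hfB : Module.Finite k ((C.B₁ × C.B₂) ⧸ Subalgebra.toSubmodule C.BbarT)]
    {p : ℕ} (hp : 2 ≤ p)
    (hN1 : ∀ g : C.B₂, ∃ g' : C.B₂, ((0 : C.B₁), g - g' ^ p) ∈ C.BbarT)
    [hfN : Module.Finite k ((C.B₁ × C.B₂) ⧸ W.NbarT 1)]
    [hfN' : Module.Finite k ((C.B₁ × C.B₂) ⧸ W.NbarT (m - 1))]
    (hcodim : finrank k ((C.B₁ × C.B₂) ⧸ W.NbarT 1) ≤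
      finrank k ((C.B₁ × C.B₂) ⧸ Subalgebra.toSubmodule C.BbarT))
    (hcodim' : finrank k ((C.B₁ × C.B₂) ⧸ W.NbarT (m - 1)) ≤
      finrank k ((C.B₁ × C.B₂) ⧸ Subalgebra.toSubmodule C.BbarT))
    -- chart `0`
    (hL2₀ : C.swap.IsL2)
    [hfB₀ : Module.Finite k ((C.swap.B₁ × C.swap.B₂) ⧸ Subalgebra.toSubmodule C.swap.BbarT)]
    {p₀ : ℕ} (hp₀ : 2 ≤ p₀)
    (hN1₀ : ∀ g : C.swap.B₂, ∃ g' : C.swap.B₂, ((0 : C.swap.B₁), g - g' ^ p₀) ∈ C.swap.BbarT)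
    [hfN₀ : Module.Finite k ((C.swap.B₁ × C.swap.B₂) ⧸ W.swap.NbarT 1)]
    [hfN₀' : Module.Finite k ((C.swap.B₁ × C.swap.B₂) ⧸ W.swap.NbarT (m - 1))]
    (hcodim₀ : finrank k ((C.swap.B₁ × C.swap.B₂) ⧸ W.swap.NbarT 1) ≤
      finrank k ((C.swap.B₁ × C.swap.B₂) ⧸ Subalgebra.toSubmodule C.swap.BbarT))
    (hcodim₀' : finrank k ((C.swap.B₁ × C.swap.B₂) ⧸ W.swap.NbarT (m - 1)) ≤
      finrank k ((C.swap.B₁ × C.swap.B₂) ⧸ Subalgebra.toSubmodule C.swap.BbarT)) :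
    ∃ (c : K) (v : F), g • w / w = algebraMap K F c * v ^ m := by
  haveI := isSeparable_adjoin_of_charZero (K := K) C.t
  have hm0 : 0 < m := by omega
  have h1m : 1 + (m - 1) = m := by omega
  have hSC : ∀ (b : ℕ) (f : F) (hf : f ∈ S.O), f ∈ (TwoCharts.ofDivisor Dt).LN 0 b →
      R.res ⟨f, hf⟩ ∈ C.Pk 0 b := by
    intro b f hf hfL
    rw [LN_eq C ht hDt] at hfL
    exact C.SC 0 b f hf hfL
  have hrad : ∀ (b : ℕ) (x : κ₁ × κ₂), x ^ m ∈ C.Pk 0 (m * b) → x ∈ C.Pk 0 b := by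
    intro b x hx
    refine twoPole_radical hm0 0 b x ?_
    rw [Nat.mul_zero]
    exact hx
  haveI i1 : Module.Finite k ((C.B₁ × C.B₂) ⧸ Subalgebra.toSubmodule (C.Bbar.comap C.incl)) := hfB
  haveI i2 : Module.Finite k ((C.B₁ × C.B₂) ⧸ (W.Nbar 1).comap C.incl.toLinearMap) := hfN
  haveI i3 : Module.Finite k ((C.B₁ × C.B₂) ⧸ (W.Nbar (m - 1)).comap C.incl.toLinearMap) := hfN'
  haveI i4 : Module.Finite k ((C.swap.B₁ × C.swap.B₂) ⧸
      Subalgebra.toSubmodule (C.swap.Bbar.comap C.swap.incl)) := hfB₀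
  haveI i5 : Module.Finite k ((C.swap.B₁ × C.swap.B₂) ⧸
      (W.swap.Nbar 1).comap C.swap.incl.toLinearMap) := hfN₀
  haveI i6 : Module.Finite k ((C.swap.B₁ × C.swap.B₂) ⧸
      (W.swap.Nbar (m - 1)).comap C.swap.incl.toLinearMap) := hfN₀'
  refine TheoremBInst.exists_const_mul_pow_of_charts R ht hDt C.t_mem C.tinv_mem hcart
    (fun b => C.Pk 0 b) hgen hSC hrad hm g hgt hgO hgres hw0 hwO hwiO hw1 hD hm0
    -- chart `∞`
    C.incl C.Bbar (W.Nbar 1) (W.Nbar (m - 1)) hL2.h1 hL2.h2 hp hN1 hcodim hcodim'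
    (fun n hn => W.pow_mem_Bbar hn) (fun n hn => W.pow_mem_Bbar hn)
    (fun n hn n' hn' => W.mul_mem_Bbar h1m hn hn') ?_ ?_
    -- chart `0`
    C.swap.incl C.swap.Bbar (W.swap.Nbar 1) (W.swap.Nbar (m - 1)) hL2₀.h1 hL2₀.h2 hp₀ hN1₀
    hcodim₀ hcodim₀'
    (fun n hn => W.swap.pow_mem_Bbar hn) (fun n hn => W.swap.pow_mem_Bbar hn)
    (fun n hn n' hn' => W.swap.mul_mem_Bbar h1m hn hn') ?_ ?_
  · rintro x ⟨b, hb⟩
    exact ⟨b, by rwa [hWL, one_smul] at hb⟩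
  · rintro x ⟨b, hb⟩
    exact ⟨b, by rwa [hWL] at hb⟩
  · rintro x ⟨a, ha⟩
    exact ⟨a, by rwa [TwistFam.swap_L, hWL, one_smul] at ha⟩
  · rintro x ⟨a, ha⟩
    exact ⟨a, by rwa [TwistFam.swap_L, hWL] at ha⟩

end Fermat.Agent.S34x.Lattice2
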