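import Fermat.Agent.S34x.Lattice2.AssembleCounts
import Fermat.Agent.S34x.ChartOK

/-!
# P-S34 (T4): the chart inputs `ChartBase` / `ChartOK` of `TheoremBInstK` from `Lattice2`

For helper71's consumer `TheoremBInstK.normalised_of_charts` (`S34x/ChartOK.lean`):

* `ChartCoord.chartBase`: the `w`-independent data of the chart of `C` (`j := C.incl`,
  `Bbar := C.Bbar`, (L2), finiteness, (N1));
* `ChartCoord.chartOK_of_codim`: `ChartOK` from the codimension bounds for `N_1`, `N_{m-1}`;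
* `chartBaseInf`, `chartBaseZero`: the two chart bases from the `w`-independent inputs of WP-UB
  (finiteness by `finite_quotient_BbarT`);
* `chartOK_of_counts`: the hypothesis `hcharts` of `normalised_of_charts` for every normalised
  pair `(w, D)`.
-/

set_option autoImplicit false
set_option linter.unusedSectionVars false
set_option linter.style.haveILetI false

noncomputable section


namespace Fermat.Agent.S34x.Lattice2

open AlgebraicCurve Module IntermediateField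
open Fermat.Agent.Gateway.C0 Fermat.Agent.S34x.C0two Fermat.Agent.S34x.TheoremBInstK

section base

variable {K : Type*} [Field K] {A : ValuationSubring K} {F : Type*} [Field F] [Algebra K F]
  {S : SmallRing F} {k κ₁ κ₂ : Type*} [Field k] [CommRing κ₁] [CommRing κ₂] [Algebra k κ₁]
  [Algebra k κ₂] {R : RedSetup2 A S k (κ₁ × κ₂)}

/-- The `w`-independent chart data of `C` in the shape of `TheoremBInstK.ChartBase`. -/
def ChartCoord.chartBase (C : ChartCoord R) (hL2 : C.IsL2)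
    (hfin : Module.Finite k ((C.B₁ × C.B₂) ⧸ Subalgebra.toSubmodule C.BbarT))
    {p : ℕ} (hp : 2 ≤ p)
    (hN1 : ∀ g : C.B₂, ∃ g' : C.B₂, ((0 : C.B₁), g - g' ^ p) ∈ C.BbarT) :
    ChartBase k (κ₁ × κ₂) C.B₁ C.B₂ where
  j := C.incl
  Bbar := C.Bbar
  h₁ := hL2.h1
  h₂ := hL2.h2
  finite := hfin
  p := p
  hp := hp
  hpth := hN1

/-- `ChartOK` on the chart of `C` from the codimension bounds for `N_1`, `N_{m-1}`. -/
theorem ChartCoord.chartOK_of_codim {C : ChartCoord R} (hL2 : C.IsL2)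
    (hfin : Module.Finite k ((C.B₁ × C.B₂) ⧸ Subalgebra.toSubmodule C.BbarT))
    {p : ℕ} (hp : 2 ≤ p)
    (hN1 : ∀ g : C.B₂, ∃ g' : C.B₂, ((0 : C.B₁), g - g' ^ p) ∈ C.BbarT)
    {m : ℕ} (hm : 0 < m) (W : TwistFam C m) (V V' : ℕ → Submodule K F)
    (hV : ∀ b, W.L 1 0 b = V b) (hV' : ∀ b, W.L (m - 1) 0 b = V' b)
    (hfN : Module.Finite k ((C.B₁ × C.B₂) ⧸ W.NbarT 1))
    (hfN' : Module.Finite k ((C.B₁ × C.B₂) ⧸ W.NbarT (m - 1)))
    (hcodim : finrank k ((C.B₁ × C.B₂) ⧸ W.NbarT 1) ≤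
      finrank k ((C.B₁ × C.B₂) ⧸ Subalgebra.toSubmodule C.BbarT))
    (hcodim' : finrank k ((C.B₁ × C.B₂) ⧸ W.NbarT (m - 1)) ≤
      finrank k ((C.B₁ × C.B₂) ⧸ Subalgebra.toSubmodule C.BbarT)) :
    ChartOK R (C.chartBase hL2 hfin hp hN1) m V V' := by
  have h1m : 1 + (m - 1) = m := by omega
  refine ⟨W.Nbar 1, W.Nbar (m - 1), hfN, hfN', hcodim, hcodim', fun n hn => W.pow_mem_Bbar hn,
    fun n hn => W.pow_mem_Bbar hn, fun n hn n' hn' => W.mul_mem_Bbar h1m hn hn', ?_, ?_⟩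
  · rintro x ⟨b, hb⟩
    exact ⟨b, by rwa [hV] at hb⟩
  · rintro x ⟨b, hb⟩
    exact ⟨b, by rwa [hV'] at hb⟩

end base

variable {K : Type*} [Field K] [IsAlgClosed K] [CharZero K] {A : ValuationSubring K}
  {F : Type*} [Field F] [Algebra K F] {S : SmallRing F}
  {k κ₁ κ₂ : Type*} [Field k] [IsAlgClosed k] [CommRing κ₁] [CommRing κ₂] [Algebra k κ₁]
  [Algebra k κ₂] [Nontrivial κ₁]
  {R : RedSetup2 A S k (κ₁ × κ₂)} (C : ChartCoord R)
  (ht : Transcendental K C.t) [FiniteDimensional K⟮C.t⟯ F]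
  {Dt : Divisor K F} (hDt : ∀ v : Place K F, Dt v = v.ord C.t)
  (hcart : ∀ V : Submodule K F, FiniteDimensional K V → (R.lat V).FG)
  [hPfin : ∀ b, FiniteDimensional k (C.Pk 0 b)] {b₀ : ℕ}
  (hgen : ∀ b, b₀ ≤ b → ∀ x ∈ C.Pk 0 (b + 1), ∃ y ∈ C.Pk 0 b, ∃ z ∈ C.Pk 0 b, x = y + C.T * z)
  (hL2 : C.IsL2) (hL2₀ : C.swap.IsL2)
  (he : ∃ c : κ₂, IsIntegral (Algebra.adjoin k {C.T.2}) c ∧ ((1 : κ₁), c * C.T.2) ∈ C.Bbar)
  (he₀ : ∃ c : κ₂, IsIntegral (Algebra.adjoin k {C.Ti.2}) c ∧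
    ((1 : κ₁), c * C.Ti.2) ∈ C.swap.Bbar)
  (δ b₂ : ℕ)
  (hdimS : ∀ b, b₂ ≤ b → finrank k (C.Pk 0 b) = finrank k (R.redLat (C.LN 0 b)) + δ)
  {p : ℕ} (hp : 2 ≤ p)
  (hN1 : ∀ g : C.B₂, ∃ g' : C.B₂, ((0 : C.B₁), g - g' ^ p) ∈ C.BbarT)
  {p₀ : ℕ} (hp₀ : 2 ≤ p₀)
  (hN1₀ : ∀ g : C.swap.B₂, ∃ g' : C.swap.B₂, ((0 : C.swap.B₁), g - g' ^ p₀) ∈ C.swap.BbarT)

/-- the chart base of the chart `∞` -/
def chartBaseInf : ChartBase k (κ₁ × κ₂) C.B₁ C.B₂ :=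
  C.chartBase hL2 (finite_quotient_BbarT C ht hDt hcart hgen hL2 hL2₀ he he₀ δ b₂ hdimS).1.1 hp hN1

/-- the chart base of the chart `0` -/
def chartBaseZero : ChartBase k (κ₁ × κ₂) C.swap.B₁ C.swap.B₂ :=
  C.swap.chartBase hL2₀
    (finite_quotient_BbarT C ht hDt hcart hgen hL2 hL2₀ he he₀ δ b₂ hdimS).2.1 hp₀ hN1₀

variable {m : ℕ} (hm2 : 2 ≤ m)
  (hdimN : ∀ E : Divisor K F, Divisor.degree E = 0 → ∀ b, b₂ ≤ b →
    finrank k (C.Pk 0 b) ≤ finrank k (R.redLat ((TwoCharts.ofDivisor Dt).LM E 0 b)) + δ)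

include hm2 hdimN in
/-- **`hcharts` of `TheoremBInstK`**: `ChartOK` on both charts for every normalised `(w, D)`. -/
theorem chartOK_of_counts
    {w : F} (hw0 : w ≠ 0) (hwO : w ∈ S.O) (hwiO : w⁻¹ ∈ S.O) (hw1 : R.res ⟨w, hwO⟩ = 1)
    {D : Divisor K F} (hD : ∀ v : Place K F, (m : ℤ) * D v = v.ord w) :
    ChartOK R (chartBaseInf C ht hDt hcart hgen hL2 hL2₀ he he₀ δ b₂ hdimS hp hN1) m
        (fun b => (TwoCharts.ofDivisor Dt).LM D 0 b)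
        (fun b => (TwoCharts.ofDivisor Dt).LM ((m - 1) • D) 0 b) ∧
      ChartOK R (chartBaseZero C ht hDt hcart hgen hL2 hL2₀ he he₀ δ b₂ hdimS hp₀ hN1₀) m
        (fun a => (TwoCharts.ofDivisor Dt).LM D a 0)
        (fun a => (TwoCharts.ofDivisor Dt).LM ((m - 1) • D) a 0) := by
  haveI := isSeparable_adjoin_of_charZero (K := K) C.t
  have hm0 : 0 < m := by omega
  have hD0 : Divisor.degree D = 0 := degree_eq_zero_of_ord ht hm0 hw0 hD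
  have hfg := fg_lat_LN C ht hDt hcart
  set W := TwistFam.ofDivisor C ht hDt D hw0 hwO hwiO hw1 hD with hW
  have hN : ∀ i b, b₂ ≤ b → finrank k (C.Pk 0 b) ≤ finrank k (R.redLat (W.L i 0 b)) + δ := by
    intro i b hb
    refine hdimN (i • D) ?_ b hb
    rw [map_nsmul, hD0, smul_zero]
  obtain ⟨⟨i1, -, -, hc1⟩, ⟨i3, -, -, hc3⟩⟩ :=
    W.codim_main_of_isL2 hm0 hfg hPfin b₀ hgen hL2 hL2₀ he he₀ δ b₂ hdimS 1 (hN 1)
  obtain ⟨⟨j1, -, -, hc2⟩, ⟨j3, -, -, hc4⟩⟩ :=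
    W.codim_main_of_isL2 hm0 hfg hPfin b₀ hgen hL2 hL2₀ he he₀ δ b₂ hdimS (m - 1) (hN (m - 1))
  refine ⟨ChartCoord.chartOK_of_codim hL2 _ hp hN1 hm0 W _ _ ?_ (fun _ => rfl) i1 j1 hc1 hc2,
    ChartCoord.chartOK_of_codim hL2₀ _ hp₀ hN1₀ hm0 W.swap _ _ ?_ (fun _ => rfl) i3 j3 hc3 hc4⟩
  · intro b
    exact TwistFam.ofDivisor_L_one C ht hDt D hw0 hwO hwiO hw1 hD 0 b
  · intro a
    exact TwistFam.ofDivisor_L_one C ht hDt D hw0 hwO hwiO hw1 hD a 0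

variable (hm : IsUnit ((m : ℕ) : A))
  (g : SemilinearAut K F) (hgt : g • C.t = C.t) (hgO : ∀ f ∈ S.O, g • f ∈ S.O)
  (hgres : ∀ (f : F) (hf : f ∈ S.O), R.res ⟨g • f, hgO f hf⟩ = R.res ⟨f, hf⟩)

include ht hDt hcart hgen hL2 hL2₀ he he₀ hdimS hp hN1 hp₀ hN1₀ hm2 hdimN hm hgt hgres in
/-- Sanity check of the route through `TheoremBInstK.normalised_of_charts` (helper71): the same
conclusion as `exists_const_mul_pow_of_counts`, with `m ∣ div w` instead of a divisor `D`. -/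
theorem exists_const_mul_pow_of_chartOK
    {w : F} (hw0 : w ≠ 0) (hwO : w ∈ S.O) (hwiO : w⁻¹ ∈ S.O) (hw1 : R.res ⟨w, hwO⟩ = 1)
    (hdiv : ∀ v : Place K F, (m : ℤ) ∣ v.ord w) :
    ∃ (c : K) (v : F), g • w / w = algebraMap K F c * v ^ m := by
  haveI := isSeparable_adjoin_of_charZero (K := K) C.t
  have hm0 : 0 < m := by omega
  have hSC : ∀ (b : ℕ) (f : F) (hf : f ∈ S.O), f ∈ (TwoCharts.ofDivisor Dt).LN 0 b →
      R.res ⟨f, hf⟩ ∈ C.Pk 0 b := by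
    intro b f hf hfL
    rw [LN_eq C ht hDt] at hfL
    exact C.SC 0 b f hf hfL
  have hrad : ∀ (b : ℕ) (x : κ₁ × κ₂), x ^ m ∈ C.Pk 0 (m * b) → x ∈ C.Pk 0 b := by
    intro b x hx
    refine twoPole_radical hm0 0 b x ?_
    rw [Nat.mul_zero]
    exact hx
  exact normalised_of_charts R ht hDt C.t_mem C.tinv_mem hcart (fun b => C.Pk 0 b) hgen hSC hrad hm
    g hgt hgO hgres
    (chartBaseInf C ht hDt hcart hgen hL2 hL2₀ he he₀ δ b₂ hdimS hp hN1)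
    (chartBaseZero C ht hDt hcart hgen hL2 hL2₀ he he₀ δ b₂ hdimS hp₀ hN1₀)
    hw0 hwO hwiO hw1 hdiv
    (fun D hD => chartOK_of_counts C ht hDt hcart hgen hL2 hL2₀ he he₀ δ b₂ hdimS hp hN1 hp₀ hN1₀
      hm2 hdimN hw0 hwO hwiO hw1 hD)

end Fermat.Agent.S34x.Lattice2
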