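import Fermat.Agent.S34x.Lattice2.AssembleProd
import Fermat.Agent.S35x.SigmaNbar

/-!
# P-S34 phase 2 (S35): Theorem B' for a semilinear pair `(σ, φ)`, `w`-uniform form

The phase-2 twin of `exists_const_mul_pow_of_counts` / `exists_const_mul_pow_of_prod`:
`S35x/SigmaNbar.exists_const_mul_pow_of_twistFam` (helper43) for the family `TwistFam.ofDivisor` of
an arbitrary normalised pair `(w, D_w)`, with the codimension bounds produced by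
`UBBridge.codim_main_of_isL2` (helper7) from `w`-independent inputs.

`σ : F →+* F` preserves `O` and all `L(a C₀ + b C∞)`, `res ∘ σ = φ ∘ res` with `φ` `θ`-semilinear;
`m e = Q + i'`; on each chart a `θ`-semilinear surjective lift `φV` of `φ` to `B₁ × B₂` with
`φ B̄ ⊆ B̄` and (CONG) `φV z - z ^ Q ∈ I₁ × I₂`.  Conclusion: `σ w / w ^ Q = c * v ^ m` for every
normalised `(w, D_w)` with `m ∣ div (σ w)` and `res (σ w / w ^ Q) = 1`.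
-/

set_option autoImplicit false
set_option linter.unusedSectionVars false
set_option linter.style.haveILetI false

noncomputable section

namespace Fermat.Agent.S34x.Lattice2

open AlgebraicCurve Module IntermediateField
open Fermat.Agent.Gateway.C0 Fermat.Agent.S34x.C0two

section General

variable {K : Type*} [Field K] [IsAlgClosed K] [CharZero K] {A : ValuationSubring K}
  {F : Type*} [Field F] [Algebra K F] {S : SmallRing F}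
  {k κ₁ κ₂ : Type*} [Field k] [IsAlgClosed k] [CommRing κ₁] [CommRing κ₂] [Algebra k κ₁]
  [Algebra k κ₂] [Nontrivial κ₁]
  {R : RedSetup2 A S k (κ₁ × κ₂)} (C : ChartCoord R)
  (ht : Transcendental K C.t) [FiniteDimensional K⟮C.t⟯ F]
  {Dt : Divisor K F} (hDt : ∀ v : Place K F, Dt v = v.ord C.t)
  (hcart : ∀ V : Submodule K F, FiniteDimensional K V → (R.lat V).FG)
  [hPfin : ∀ b, FiniteDimensional k (C.Pk 0 b)] {b₀ : ℕ}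
  (hgen : ∀ b, b₀ ≤ b → ∀ x ∈ C.Pk 0 (b + 1), ∃ y ∈ C.Pk 0 b, ∃ z ∈ C.Pk 0 b, x = y + C.T * z)
  (hL2 : C.IsL2) (hL2₀ : C.swap.IsL2)
  (he : ∃ c : κ₂, IsIntegral (Algebra.adjoin k {C.T.2}) c ∧ ((1 : κ₁), c * C.T.2) ∈ C.Bbar)
  (he₀ : ∃ c : κ₂, IsIntegral (Algebra.adjoin k {C.Ti.2}) c ∧
    ((1 : κ₁), c * C.Ti.2) ∈ C.swap.Bbar)
  (δ b₂ : ℕ)
  (hdimS : ∀ b, b₂ ≤ b → finrank k (C.Pk 0 b) = finrank k (R.redLat (C.LN 0 b)) + δ)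
  (hdimN : ∀ E : Divisor K F, Divisor.degree E = 0 → ∀ b, b₂ ≤ b →
    finrank k (C.Pk 0 b) ≤ finrank k (R.redLat ((TwoCharts.ofDivisor Dt).LM E 0 b)) + δ)
  {m : ℕ} (hmA : IsUnit ((m : ℕ) : A)) (hm0 : 0 < m)
  {σ : F →+* F}
  (hσLN : ∀ (a b : ℕ) (x : F), x ∈ (TwoCharts.ofDivisor Dt).LN a b →
    σ x ∈ (TwoCharts.ofDivisor Dt).LN a b)
  (hσO : ∀ x ∈ S.O, σ x ∈ S.O)
  {Q e i' : ℕ} (hQ : m * e = Q + i')
  (θ : k ≃+* k) (φ : (κ₁ × κ₂) →+* (κ₁ × κ₂))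
  (hφsmul : ∀ (c : k) (y : κ₁ × κ₂), φ (c • y) = θ c • φ y)
  (hσres : ∀ (f : F) (hf : f ∈ S.O), R.res ⟨σ f, hσO f hf⟩ = φ (R.res ⟨f, hf⟩))
  -- chart `∞`
  {p : ℕ} (hp : 2 ≤ p)
  (hN1 : ∀ g : C.B₂, ∃ g' : C.B₂, ((0 : C.B₁), g - g' ^ p) ∈ C.BbarT)
  (φV : (C.B₁ × C.B₂) →+* (C.B₁ × C.B₂)) (hφVsurj : Function.Surjective φV)
  (hφVsmul : ∀ (c : k) (v : C.B₁ × C.B₂), φV (c • v) = θ c • φV v)
  (hjφ : ∀ v, C.incl (φV v) = φ (C.incl v)) (hφBbar : ∀ y ∈ C.Bbar, φ y ∈ C.Bbar)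
  (hcong : ∀ z : C.B₁ × C.B₂, ((φV z - z ^ Q).1, (0 : C.B₂)) ∈ C.BbarT ∧
    ((0 : C.B₁), (φV z - z ^ Q).2) ∈ C.BbarT)
  -- chart `0`
  {p₀ : ℕ} (hp₀ : 2 ≤ p₀)
  (hN1₀ : ∀ g : C.swap.B₂, ∃ g' : C.swap.B₂, ((0 : C.swap.B₁), g - g' ^ p₀) ∈ C.swap.BbarT)
  (φV₀ : (C.swap.B₁ × C.swap.B₂) →+* (C.swap.B₁ × C.swap.B₂))
  (hφVsurj₀ : Function.Surjective φV₀)
  (hφVsmul₀ : ∀ (c : k) (v : C.swap.B₁ × C.swap.B₂), φV₀ (c • v) = θ c • φV₀ v)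
  (hjφ₀ : ∀ v, C.swap.incl (φV₀ v) = φ (C.swap.incl v))
  (hφBbar₀ : ∀ y ∈ C.swap.Bbar, φ y ∈ C.swap.Bbar)
  (hcong₀ : ∀ z : C.swap.B₁ × C.swap.B₂,
    ((φV₀ z - z ^ Q).1, (0 : C.swap.B₂)) ∈ C.swap.BbarT ∧
    ((0 : C.swap.B₁), (φV₀ z - z ^ Q).2) ∈ C.swap.BbarT)

include ht hDt hcart hgen hL2 hL2₀ he he₀ hdimS hdimN hmA hm0 hσLN hQ hφsmul hσres hp hN1 hφVsurj
  hφVsmul hjφ hφBbar hcong hp₀ hN1₀ hφVsurj₀ hφVsmul₀ hjφ₀ hφBbar₀ hcong₀ in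
/-- **Theorem B' for a semilinear pair, `w`-uniform**: for EVERY normalised pair `(w, D_w)` with
`m ∣ div (σ w)` and `res (σ w / w ^ Q) = 1`, `σ w / w ^ Q = c * v ^ m`.  All hypotheses before `w`
are independent of `w`. -/
theorem exists_const_mul_pow_sigma_of_counts
    {w : F} (hw0 : w ≠ 0) (hwO : w ∈ S.O) (hwiO : w⁻¹ ∈ S.O) (hw1 : R.res ⟨w, hwO⟩ = 1)
    {Dw : Divisor K F} (hDw : ∀ v : Place K F, (m : ℤ) * Dw v = v.ord w)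
    (hdiv : ∀ v : Place K F, (m : ℤ) ∣ v.ord (σ w))
    (huO : σ w / w ^ Q ∈ S.O) (hu1 : R.res ⟨σ w / w ^ Q, huO⟩ = 1) :
    ∃ (c : K) (v : F), σ w / w ^ Q = algebraMap K F c * v ^ m := by
  haveI := isSeparable_adjoin_of_charZero (K := K) C.t
  have hD0 : Divisor.degree Dw = 0 := degree_eq_zero_of_ord ht hm0 hw0 hDw
  have hfg := fg_lat_LN C ht hDt hcart
  set W := TwistFam.ofDivisor C ht hDt Dw hw0 hwO hwiO hw1 hDw with hW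
  have hN : ∀ i b, b₂ ≤ b → finrank k (C.Pk 0 b) ≤ finrank k (R.redLat (W.L i 0 b)) + δ := by
    intro i b hb
    refine hdimN (i • Dw) ?_ b hb
    rw [map_nsmul, hD0, smul_zero]
  obtain ⟨⟨i1, i2, -, hc1⟩, ⟨i3, i4, -, hc3⟩⟩ :=
    W.codim_main_of_isL2 hm0 hfg hPfin b₀ hgen hL2 hL2₀ he he₀ δ b₂ hdimS 1 (hN 1)
  obtain ⟨⟨j1, -, -, hc2⟩, ⟨j3, -, -, hc4⟩⟩ :=
    W.codim_main_of_isL2 hm0 hfg hPfin b₀ hgen hL2 hL2₀ he he₀ δ b₂ hdimS i' (hN i')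
  have hSC : ∀ (b : ℕ) (f : F) (hf : f ∈ S.O), f ∈ (TwoCharts.ofDivisor Dt).LN 0 b →
      R.res ⟨f, hf⟩ ∈ C.Pk 0 b := by
    intro b f hf hfL
    rw [LN_eq C ht hDt] at hfL
    exact C.SC 0 b f hf hfL
  have hrad : ∀ (b : ℕ) (x : κ₁ × κ₂), x ^ m ∈ C.Pk 0 (m * b) → x ∈ C.Pk 0 b := by
    intro b x hx
    refine twoPole_radical hm0 0 b x ?_
    rw [Nat.mul_zero]
    exact hx
  exact S35x.SigmaNbar.exists_const_mul_pow_of_twistFam R ht hDt C.t_mem C.tinv_mem hcart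
    (fun b => C.Pk 0 b) hgen hSC hrad hmA hσLN hσO hw0 hwO hw1 hDw hdiv hQ huO hu1 θ φ hφsmul hσres
    hm0 W (fun a b => TwistFam.ofDivisor_L_one C ht hDt Dw hw0 hwO hwiO hw1 hDw a b)
    (fun _ _ => rfl) hL2 hp hN1 hc1 hc2 φV hφVsurj hφVsmul hjφ hφBbar hcong
    hL2₀ hp₀ hN1₀ hc3 hc4 φV₀ hφVsurj₀ hφVsmul₀ hjφ₀ hφBbar₀ hcong₀

end General

section Prod

/-! ### The two-component special fibre `E × E`, `T̄ = (x, x ^ q)` -/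

open Fermat.Agent.S34x.Inst

variable {K : Type*} [Field K] [IsAlgClosed K] [CharZero K] {A : ValuationSubring K}
  {F : Type*} [Field F] [Algebra K F] {S : SmallRing F}
  {k : Type*} [Field k] [IsAlgClosed k] {E : Type*} [Field E] [Algebra k E] {x : E}
  (hx : Transcendental k x) [FiniteDimensional k⟮x⟯ E] [Algebra.IsSeparable k⟮x⟯ E]
  {q : ℕ} (hq : 0 < q)
  {R : RedSetup2 A S k (E × E)} (C : ChartCoord R) (hT : C.T = (x, x ^ q))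
  (ht : Transcendental K C.t) [FiniteDimensional K⟮C.t⟯ F]
  {Dt : Divisor K F} (hDt : ∀ v : Place K F, Dt v = v.ord C.t)
  (hn : finrank K⟮C.t⟯ F = (q + 1) * finrank k⟮x⟯ E)
  (hcart : ∀ V : Submodule K F, FiniteDimensional K V → (R.lat V).FG)
  (hL2 : C.IsL2) (hL2₀ : C.swap.IsL2)
  (he : ∃ c : E, IsIntegral (Algebra.adjoin k {C.T.2}) c ∧ ((1 : E), c * C.T.2) ∈ C.Bbar)
  (he₀ : ∃ c : E, IsIntegral (Algebra.adjoin k {C.Ti.2}) c ∧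
    ((1 : E), c * C.Ti.2) ∈ C.swap.Bbar)
  {m : ℕ} (hmA : IsUnit ((m : ℕ) : A)) (hm0 : 0 < m)
  {σ : F →+* F}
  (hσLN : ∀ (a b : ℕ) (x : F), x ∈ (TwoCharts.ofDivisor Dt).LN a b →
    σ x ∈ (TwoCharts.ofDivisor Dt).LN a b)
  (hσO : ∀ x ∈ S.O, σ x ∈ S.O)
  {Q e i' : ℕ} (hQ : m * e = Q + i')
  (θ : k ≃+* k) (φ : (E × E) →+* (E × E))
  (hφsmul : ∀ (c : k) (y : E × E), φ (c • y) = θ c • φ y)
  (hσres : ∀ (f : F) (hf : f ∈ S.O), R.res ⟨σ f, hσO f hf⟩ = φ (R.res ⟨f, hf⟩))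
  -- chart `∞`
  {p : ℕ} (hp : 2 ≤ p)
  (hN1 : ∀ g : C.B₂, ∃ g' : C.B₂, ((0 : C.B₁), g - g' ^ p) ∈ C.BbarT)
  (φV : (C.B₁ × C.B₂) →+* (C.B₁ × C.B₂)) (hφVsurj : Function.Surjective φV)
  (hφVsmul : ∀ (c : k) (v : C.B₁ × C.B₂), φV (c • v) = θ c • φV v)
  (hjφ : ∀ v, C.incl (φV v) = φ (C.incl v)) (hφBbar : ∀ y ∈ C.Bbar, φ y ∈ C.Bbar)
  (hcong : ∀ z : C.B₁ × C.B₂, ((φV z - z ^ Q).1, (0 : C.B₂)) ∈ C.BbarT ∧
    ((0 : C.B₁), (φV z - z ^ Q).2) ∈ C.BbarT)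
  -- chart `0`
  {p₀ : ℕ} (hp₀ : 2 ≤ p₀)
  (hN1₀ : ∀ g : C.swap.B₂, ∃ g' : C.swap.B₂, ((0 : C.swap.B₁), g - g' ^ p₀) ∈ C.swap.BbarT)
  (φV₀ : (C.swap.B₁ × C.swap.B₂) →+* (C.swap.B₁ × C.swap.B₂))
  (hφVsurj₀ : Function.Surjective φV₀)
  (hφVsmul₀ : ∀ (c : k) (v : C.swap.B₁ × C.swap.B₂), φV₀ (c • v) = θ c • φV₀ v)
  (hjφ₀ : ∀ v, C.swap.incl (φV₀ v) = φ (C.swap.incl v))
  (hφBbar₀ : ∀ y ∈ C.swap.Bbar, φ y ∈ C.swap.Bbar)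
  (hcong₀ : ∀ z : C.swap.B₁ × C.swap.B₂,
    ((φV₀ z - z ^ Q).1, (0 : C.swap.B₂)) ∈ C.swap.BbarT ∧
    ((0 : C.swap.B₁), (φV₀ z - z ^ Q).2) ∈ C.swap.BbarT)

include hx hq hT ht hDt hn hcart hL2 hL2₀ he he₀ hmA hm0 hσLN hQ hφsmul hσres hp hN1 hφVsurj
  hφVsmul hjφ hφBbar hcong hp₀ hN1₀ hφVsurj₀ hφVsmul₀ hjφ₀ hφBbar₀ hcong₀ in
/-- **Theorem B' for a semilinear pair at a two-component special fibre `E × E`,
`T̄ = (x, x ^ q)`**: the `k`-side inputs and the counts are discharged. -/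
theorem exists_const_mul_pow_sigma_of_prod
    {w : F} (hw0 : w ≠ 0) (hwO : w ∈ S.O) (hwiO : w⁻¹ ∈ S.O) (hw1 : R.res ⟨w, hwO⟩ = 1)
    {Dw : Divisor K F} (hDw : ∀ v : Place K F, (m : ℤ) * Dw v = v.ord w)
    (hdiv : ∀ v : Place K F, (m : ℤ) ∣ v.ord (σ w))
    (huO : σ w / w ^ Q ∈ S.O) (hu1 : R.res ⟨σ w / w ^ Q, huO⟩ = 1) :
    ∃ (c : K) (v : F), σ w / w ^ Q = algebraMap K F c * v ^ m := by
  haveI := isSeparable_adjoin_of_charZero (K := K) C.t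
  haveI hPfin : ∀ b, FiniteDimensional k (C.Pk 0 b) := fun b => CountsInst.finite_Pk hx hq C hT 0 b
  obtain ⟨b₀, hgen⟩ := exists_hgen_prod hx hq C hT
  obtain ⟨δ, -, b₂, hdimS, hdimN⟩ := CountsInst.exists_counts_prod hx hq C hT ht hDt hn
    (fun E' _ b => hcart _ ((TwoCharts.ofDivisor Dt).LM_finite ht E' 0 b))
  exact exists_const_mul_pow_sigma_of_counts C ht hDt hcart hgen hL2 hL2₀ he he₀ δ b₂ hdimS hdimN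
    hmA hm0 hσLN hσO hQ θ φ hφsmul hσres hp hN1 φV hφVsurj hφVsmul hjφ hφBbar hcong hp₀ hN1₀
    φV₀ hφVsurj₀ hφVsmul₀ hjφ₀ hφBbar₀ hcong₀ hw0 hwO hwiO hw1 hDw hdiv huO hu1

end Prod

end Fermat.Agent.S34x.Lattice2
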