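import Fermat.Agent.S34x.Lattice2.Assemble
import Fermat.Agent.S34x.Lattice2.UBBridge

/-!
# P-S34 (T4) from the inputs of WP-UB

`Lattice2.exists_const_mul_pow_of_codim` (`Assemble.lean`) with the codimension bounds on the two
charts produced by helper7's `TwistFam.codim_main_of_isL2` (`UBBridge.lean`): the remaining inputs
are the cartesian property `hcart`, the `k`-side facts on `P(0,b)` (finite dimension, generation in
degree one), (L2) and the separating element on both charts, the node condition (N1) on both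
charts, and the Riemann-Roch counts `hdimS`, `hdimN` (for `i = 1` and `i = m - 1`).

This is the last abstract theorem of the chain: every hypothesis is a statement about the concrete
data at the good level.
-/

set_option autoImplicit false
set_option linter.unusedSectionVars false
set_option linter.style.haveILetI false

noncomputable section

namespace Fermat.Agent.S34x.Lattice2

open AlgebraicCurve Module IntermediateField
open Fermat.Agent.Gateway.C0 Fermat.Agent.S34x.C0two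

variable {K : Type*} [Field K] [IsAlgClosed K] [CharZero K] {A : ValuationSubring K}
  {F : Type*} [Field F] [Algebra K F] {S : SmallRing F}
  {k κ₁ κ₂ : Type*} [Field k] [IsAlgClosed k] [CommRing κ₁] [CommRing κ₂] [Algebra k κ₁]
  [Algebra k κ₂] [Nontrivial κ₁]
  {R : RedSetup2 A S k (κ₁ × κ₂)} (C : ChartCoord R)
  (ht : Transcendental K C.t) [FiniteDimensional K⟮C.t⟯ F]
  {Dt : Divisor K F} (hDt : ∀ v : Place K F, Dt v = v.ord C.t)
  (hcart : ∀ V : Submodule K F, FiniteDimensional K V → (R.lat V).FG)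
  [hPfin : ∀ b, FiniteDimensional k (C.Pk 0 b)] {b₀ : ℕ}
  (hgen : ∀ b, b₀ ≤ b → ∀ x ∈ C.Pk 0 (b + 1), ∃ y ∈ C.Pk 0 b, ∃ z ∈ C.Pk 0 b, x = y + C.T * z)
  {m : ℕ} (hm : IsUnit ((m : ℕ) : A)) (hm2 : 2 ≤ m)
  (g : SemilinearAut K F) (hgt : g • C.t = C.t) (hgO : ∀ f ∈ S.O, g • f ∈ S.O)
  (hgres : ∀ (f : F) (hf : f ∈ S.O), R.res ⟨g • f, hgO f hf⟩ = R.res ⟨f, hf⟩)
  {w : F} (hw0 : w ≠ 0) (hwO : w ∈ S.O) (hwiO : w⁻¹ ∈ S.O) (hw1 : R.res ⟨w, hwO⟩ = 1)
  {D : Divisor K F} (hD : ∀ v : Place K F, (m : ℤ) * D v = v.ord w)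

include ht hDt hcart in
/-- the lattices `L(b C∞) ∩ O` are finitely generated -/
theorem fg_lat_LN (b : ℕ) : (R.lat (C.LN 0 b)).FG := by
  haveI := isSeparable_adjoin_of_charZero (K := K) C.t
  rw [← LN_eq C ht hDt]
  exact hcart _ ((TwoCharts.ofDivisor Dt).LN_finite ht 0 b)

include ht hDt hcart hgen hm hm2 hgt hgres hw0 hwiO hw1 hD in
/-- **(T4) from the inputs of WP-UB** (`UBBridge.codim_main_of_isL2`), both charts. -/
theorem exists_const_mul_pow_of_ubbridge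
    (W : TwistFam C m)
    (hWL : ∀ i a b, W.L i a b = (TwoCharts.ofDivisor Dt).LM (i • D) a b)
    -- (L2), the separating elements and (N1) on the two charts
    (hL2 : C.IsL2) (hL2₀ : C.swap.IsL2)
    (he : ∃ c : κ₂, IsIntegral (Algebra.adjoin k {C.T.2}) c ∧ ((1 : κ₁), c * C.T.2) ∈ C.Bbar)
    (he₀ : ∃ c : κ₂, IsIntegral (Algebra.adjoin k {C.Ti.2}) c ∧
      ((1 : κ₁), c * C.Ti.2) ∈ C.swap.Bbar)
    {p : ℕ} (hp : 2 ≤ p)
    (hN1 : ∀ g : C.B₂, ∃ g' : C.B₂, ((0 : C.B₁), g - g' ^ p) ∈ C.BbarT)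
    {p₀ : ℕ} (hp₀ : 2 ≤ p₀)
    (hN1₀ : ∀ g : C.swap.B₂, ∃ g' : C.swap.B₂, ((0 : C.swap.B₁), g - g' ^ p₀) ∈ C.swap.BbarT)
    -- the counts
    (δ b₂ : ℕ)
    (hdimS : ∀ b, b₂ ≤ b → finrank k (C.Pk 0 b) = finrank k (R.redLat (C.LN 0 b)) + δ)
    (hdimN : ∀ i b, b₂ ≤ b → finrank k (C.Pk 0 b) ≤ finrank k (R.redLat (W.L i 0 b)) + δ) :
    ∃ (c : K) (v : F), g • w / w = algebraMap K F c * v ^ m := by
  have hm0 : 0 < m := by omega
  have hfg := fg_lat_LN C ht hDt hcart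
  obtain ⟨⟨i1, i2, hδ, hc1⟩, ⟨i3, i4, hδ₀, hc3⟩⟩ :=
    W.codim_main_of_isL2 hm0 hfg hPfin b₀ hgen hL2 hL2₀ he he₀ δ b₂ hdimS 1 (hdimN 1)
  obtain ⟨⟨j1, -, -, hc2⟩, ⟨j3, -, -, hc4⟩⟩ :=
    W.codim_main_of_isL2 hm0 hfg hPfin b₀ hgen hL2 hL2₀ he he₀ δ b₂ hdimS (m - 1) (hdimN (m - 1))
  exact exists_const_mul_pow_of_codim C ht hDt hcart hgen hm hm2 g hgt hgO hgres hw0 hwO hwiO hw1 hD
    W hWL hL2 hp hN1 hc1 hc2 hL2₀ hp₀ hN1₀ hc3 hc4

end Fermat.Agent.S34x.Lattice2
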