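import Fermat.Agent.S34x.Lattice2.Dim
import Fermat.Agent.Gateway.C0.Exports

/-!
# P-S34, WP3-inst (I3'): bridge between integrality (place-free) spaces and `Lb` / `Pb`

helper26.  `k` algebraically closed (any characteristic), `E` a function field over `k`, `x`
transcendental with `E / k(x)` finite separable, `C = (x)_∞`.

* `isIntegral_adjoin_pow_iff` : integrality over `k[x^q]` and over `k[x]` agree (pure algebra).
* `mem_Lb_iff_isIntegral` : `L(b C) = {f | f integral over k[x], x⁻ᵇ f integral over k[x⁻¹]}`.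
* `mem_Lb_pow_iff_isIntegral` : the same for `X = x^q`, `(X)_∞ = q C`, although `E / k(X)` is
  inseparable.
* `mem_Pb_iff_isIntegral` : the product `κ' × κ'` with `T = (x, x^q)`.
* `isIntegral_prod_iff` : integrality over `k[(T₁,T₂)]` in a product is componentwise.
* `mem_Lb_of_pow_mem`, `mem_Pb_of_pow_mem` : the filtrations are radical.
* `finrank_Pb_pow`, `Pb_pow_eq_sup_map`, `exists_add_mul_of_mem_Pb_succ`, `exists_threshold` :
  dimension `(q+1) n' b + 2 - 2 g'` and one-step generation `p = y + T z` for large `b`.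
* `exists_mem_Pb_of_isIntegral`, `isIntegral_iff_exists_mem_Pb` : exhaustion.
* section `Chart2` : the same for `x⁻¹` (`C' = (x)_0`, `Ti = (x⁻¹, (x^q)⁻¹)`).
* `exists_filtration`, `exists_filtration_inv` : packaged divisor-free statements per chart.
-/

set_option autoImplicit false
set_option linter.unusedSectionVars false
set_option linter.style.haveILetI false

noncomputable section

namespace Fermat.Agent.S34x.Lattice2.DimBridge

open AlgebraicCurve Polynomial IntermediateField Module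
open Fermat.Agent.Lib.RiemannRoch Fermat.Agent.Lib.RiemannRoch.FunctionFieldRR
open Fermat.Agent.S34x.Lattice2.Dim

section Pow

/-! ### Integrality over `k[x^q]` versus `k[x]` -/

variable {k E : Type*} [CommRing k] [CommRing E] [Algebra k E] (x : E)

theorem adjoin_pow_le (q : ℕ) : Algebra.adjoin k {x ^ q} ≤ Algebra.adjoin k {x} :=
  Algebra.adjoin_le (Set.singleton_subset_iff.mpr
    (pow_mem (Algebra.self_mem_adjoin_singleton k x) q))

/-- Integrality is monotone in the base subalgebra. -/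
theorem isIntegral_of_le {S S' : Subalgebra k E} (h : S ≤ S') {f : E} (hf : IsIntegral S f) :
    IsIntegral S' f := by
  have := IsIntegral.map_of_comp_eq (Subalgebra.inclusion h).toRingHom (RingHom.id E)
    (by ext a; rfl) hf
  simpa using this

/-- If every element of `S'` is integral over `S`, integrality over `S'` implies integrality
over `S`. -/
theorem isIntegral_of_forall_isIntegral {S S' : Subalgebra k E}
    (h : ∀ s ∈ S', IsIntegral S s) {f : E} (hf : IsIntegral S' f) : IsIntegral S f := by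
  let IC := integralClosure S E
  let ψ : S' →+* IC :=
    { toFun := fun s => ⟨s.1, h s.1 s.2⟩
      map_one' := rfl
      map_mul' := fun _ _ => rfl
      map_zero' := rfl
      map_add' := fun _ _ => rfl }
  have h1 : IsIntegral IC f := by
    have := IsIntegral.map_of_comp_eq ψ (RingHom.id E) (by ext a; rfl) hf
    simpa using this
  exact isIntegral_trans (R := S) (A := IC) f h1

theorem isIntegral_self_adjoin_pow {q : ℕ} (hq : 0 < q) :
    IsIntegral (Algebra.adjoin k {x ^ q}) x := by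
  let S := Algebra.adjoin k {x ^ q}
  let c : S := ⟨x ^ q, Algebra.self_mem_adjoin_singleton k (x ^ q)⟩
  refine ⟨X ^ q - C c, monic_X_pow_sub_C c hq.ne', ?_⟩
  simp only [eval₂_sub, eval₂_pow, eval₂_X, eval₂_C]
  exact sub_self _

theorem isIntegral_adjoin_pow_iff {q : ℕ} (hq : 0 < q) (f : E) :
    IsIntegral (Algebra.adjoin k {x ^ q}) f ↔ IsIntegral (Algebra.adjoin k {x}) f := by
  refine ⟨isIntegral_of_le (adjoin_pow_le x q), isIntegral_of_forall_isIntegral fun s hs => ?_⟩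
  -- the integral closure of `k[x^q]` contains `k` and `x`
  have hle : Algebra.adjoin k {x} ≤
      (integralClosure (Algebra.adjoin k {x ^ q}) E).restrictScalars k :=
    Algebra.adjoin_le (Set.singleton_subset_iff.mpr (isIntegral_self_adjoin_pow x hq))
  exact hle hs

end Pow

section Prod

/-! ### Integrality in a product is componentwise -/

variable {k E₁ E₂ : Type*} [CommRing k] [CommRing E₁] [CommRing E₂] [Algebra k E₁] [Algebra k E₂]
  (T₁ : E₁) (T₂ : E₂)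

theorem isIntegral_fst {y : E₁ × E₂} (hy : IsIntegral (Algebra.adjoin k {(T₁, T₂)}) y) :
    IsIntegral (Algebra.adjoin k {T₁}) y.1 := by
  have hmap : ∀ s ∈ Algebra.adjoin k {(T₁, T₂)}, (AlgHom.fst k E₁ E₂) s ∈ Algebra.adjoin k {T₁} := by
    intro s hs
    have : (Algebra.adjoin k {(T₁, T₂)}).map (AlgHom.fst k E₁ E₂) ≤ Algebra.adjoin k {T₁} := by
      rw [AlgHom.map_adjoin]
      exact Algebra.adjoin_mono (by simp)
    exact this ⟨s, hs, rfl⟩
  let ψ : Algebra.adjoin k {(T₁, T₂)} →+* Algebra.adjoin k {T₁} :=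
    ((AlgHom.fst k E₁ E₂).toRingHom.comp (Algebra.adjoin k {(T₁, T₂)}).val.toRingHom).codRestrict
      (Algebra.adjoin k {T₁}) (fun s => hmap s.1 s.2)
  exact IsIntegral.map_of_comp_eq ψ (AlgHom.fst k E₁ E₂).toRingHom (by ext a; rfl) hy

theorem isIntegral_snd {y : E₁ × E₂} (hy : IsIntegral (Algebra.adjoin k {(T₁, T₂)}) y) :
    IsIntegral (Algebra.adjoin k {T₂}) y.2 := by
  have hmap : ∀ s ∈ Algebra.adjoin k {(T₁, T₂)}, (AlgHom.snd k E₁ E₂) s ∈ Algebra.adjoin k {T₂} := by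
    intro s hs
    have : (Algebra.adjoin k {(T₁, T₂)}).map (AlgHom.snd k E₁ E₂) ≤ Algebra.adjoin k {T₂} := by
      rw [AlgHom.map_adjoin]
      exact Algebra.adjoin_mono (by simp)
    exact this ⟨s, hs, rfl⟩
  let ψ : Algebra.adjoin k {(T₁, T₂)} →+* Algebra.adjoin k {T₂} :=
    ((AlgHom.snd k E₁ E₂).toRingHom.comp (Algebra.adjoin k {(T₁, T₂)}).val.toRingHom).codRestrict
      (Algebra.adjoin k {T₂}) (fun s => hmap s.1 s.2)
  exact IsIntegral.map_of_comp_eq ψ (AlgHom.snd k E₁ E₂).toRingHom (by ext a; rfl) hy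

/-- The projection `k[(T₁,T₂)] → k[T₁]` is surjective. -/
theorem exists_adjoin_fst_eq {c : E₁} (hc : c ∈ Algebra.adjoin k {T₁}) :
    ∃ s ∈ Algebra.adjoin k {(T₁, T₂)}, s.1 = c := by
  have : (Algebra.adjoin k {(T₁, T₂)}).map (AlgHom.fst k E₁ E₂) = Algebra.adjoin k {T₁} := by
    rw [AlgHom.map_adjoin]
    congr 1
    simp
  rw [← this] at hc
  obtain ⟨s, hs, rfl⟩ := hc
  exact ⟨s, hs, rfl⟩

theorem exists_adjoin_snd_eq {c : E₂} (hc : c ∈ Algebra.adjoin k {T₂}) :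
    ∃ s ∈ Algebra.adjoin k {(T₁, T₂)}, s.2 = c := by
  have : (Algebra.adjoin k {(T₁, T₂)}).map (AlgHom.snd k E₁ E₂) = Algebra.adjoin k {T₂} := by
    rw [AlgHom.map_adjoin]
    congr 1
    simp
  rw [← this] at hc
  obtain ⟨s, hs, rfl⟩ := hc
  exact ⟨s, hs, rfl⟩

/-- `(y₁, 0)` is integral over `k[(T₁,T₂)]` if `y₁` is integral over `k[T₁]`. -/
theorem isIntegral_inl {y₁ : E₁} (hy : IsIntegral (Algebra.adjoin k {T₁}) y₁) :
    IsIntegral (Algebra.adjoin k {(T₁, T₂)}) ((y₁, 0) : E₁ × E₂) := by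
  classical
  obtain ⟨p, hp, hpy⟩ := hy
  -- the ring hom `k[(T₁,T₂)] → k[T₁]`
  have hmap : ∀ s ∈ Algebra.adjoin k {(T₁, T₂)},
      (AlgHom.fst k E₁ E₂) s ∈ Algebra.adjoin k {T₁} := by
    intro s hs
    have : (Algebra.adjoin k {(T₁, T₂)}).map (AlgHom.fst k E₁ E₂) ≤ Algebra.adjoin k {T₁} := by
      rw [AlgHom.map_adjoin]
      exact Algebra.adjoin_mono (by simp)
    exact this ⟨s, hs, rfl⟩
  let ψ : Algebra.adjoin k {(T₁, T₂)} →+* Algebra.adjoin k {T₁} :=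
    ((AlgHom.fst k E₁ E₂).toRingHom.comp (Algebra.adjoin k {(T₁, T₂)}).val.toRingHom).codRestrict
      (Algebra.adjoin k {T₁}) (fun s => hmap s.1 s.2)
  have hψ : Function.Surjective ψ := by
    rintro ⟨c, hc⟩
    obtain ⟨s, hs, rfl⟩ := exists_adjoin_fst_eq T₁ T₂ hc
    exact ⟨⟨s, hs⟩, rfl⟩
  obtain ⟨P, hP⟩ := Polynomial.map_surjective ψ hψ p
  -- make `P` monic: replace by a monic lift
  rcases subsingleton_or_nontrivial (Algebra.adjoin k {T₁}) with hsub | hnt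
  · -- degenerate case: `E₁` is trivial
    have h10 : (1 : E₁) = 0 := by
      have := congrArg (fun s : Algebra.adjoin k {T₁} => (s : E₁)) (Subsingleton.elim 1 0)
      simpa using this
    have hy0 : y₁ = 0 := by rw [← one_mul y₁, h10, zero_mul]
    rw [hy0]
    exact isIntegral_zero
  obtain ⟨Q, hQmap, -, hQmonic⟩ :=
    Polynomial.lifts_and_degree_eq_and_monic ((Polynomial.mem_lifts _).mpr ⟨P, hP⟩) hp
  refine ⟨X * Q, (monic_X.mul hQmonic), ?_⟩
  rw [eval₂_mul, eval₂_X]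
  -- first component of `Q (y₁,0)` is `p y₁ = 0`
  have hfst : (eval₂ (algebraMap (Algebra.adjoin k {(T₁, T₂)}) (E₁ × E₂)) (y₁, 0) Q).1 = 0 := by
    have h1 : (eval₂ (algebraMap (Algebra.adjoin k {(T₁, T₂)}) (E₁ × E₂)) (y₁, 0) Q).1 =
        eval₂ (algebraMap (Algebra.adjoin k {T₁}) E₁) y₁ (Q.map ψ) := by
      rw [eval₂_map]
      have hcomp : (RingHom.fst E₁ E₂).comp
          (algebraMap (Algebra.adjoin k {(T₁, T₂)}) (E₁ × E₂)) =
          (algebraMap (Algebra.adjoin k {T₁}) E₁).comp ψ := by ext a; rfl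
      have := Polynomial.hom_eval₂ Q (algebraMap (Algebra.adjoin k {(T₁, T₂)}) (E₁ × E₂))
        (RingHom.fst E₁ E₂) ((y₁, 0) : E₁ × E₂)
      rw [hcomp] at this
      simpa using this
    rw [h1, hQmap, hpy]
  ext
  · simp [hfst]
  · simp

/-- `(0, y₂)` is integral over `k[(T₁,T₂)]` if `y₂` is integral over `k[T₂]`. -/
theorem isIntegral_inr {y₂ : E₂} (hy : IsIntegral (Algebra.adjoin k {T₂}) y₂) :
    IsIntegral (Algebra.adjoin k {(T₁, T₂)}) ((0, y₂) : E₁ × E₂) := by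
  classical
  obtain ⟨p, hp, hpy⟩ := hy
  have hmap : ∀ s ∈ Algebra.adjoin k {(T₁, T₂)},
      (AlgHom.snd k E₁ E₂) s ∈ Algebra.adjoin k {T₂} := by
    intro s hs
    have : (Algebra.adjoin k {(T₁, T₂)}).map (AlgHom.snd k E₁ E₂) ≤ Algebra.adjoin k {T₂} := by
      rw [AlgHom.map_adjoin]
      exact Algebra.adjoin_mono (by simp)
    exact this ⟨s, hs, rfl⟩
  let ψ : Algebra.adjoin k {(T₁, T₂)} →+* Algebra.adjoin k {T₂} :=
    ((AlgHom.snd k E₁ E₂).toRingHom.comp (Algebra.adjoin k {(T₁, T₂)}).val.toRingHom).codRestrict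
      (Algebra.adjoin k {T₂}) (fun s => hmap s.1 s.2)
  have hψ : Function.Surjective ψ := by
    rintro ⟨c, hc⟩
    obtain ⟨s, hs, rfl⟩ := exists_adjoin_snd_eq T₁ T₂ hc
    exact ⟨⟨s, hs⟩, rfl⟩
  obtain ⟨P, hP⟩ := Polynomial.map_surjective ψ hψ p
  rcases subsingleton_or_nontrivial (Algebra.adjoin k {T₂}) with hsub | hnt
  · have h10 : (1 : E₂) = 0 := by
      have := congrArg (fun s : Algebra.adjoin k {T₂} => (s : E₂)) (Subsingleton.elim 1 0)
      simpa using this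
    have hy0 : y₂ = 0 := by rw [← one_mul y₂, h10, zero_mul]
    rw [hy0]
    exact isIntegral_zero
  obtain ⟨Q, hQmap, -, hQmonic⟩ :=
    Polynomial.lifts_and_degree_eq_and_monic ((Polynomial.mem_lifts _).mpr ⟨P, hP⟩) hp
  refine ⟨X * Q, (monic_X.mul hQmonic), ?_⟩
  rw [eval₂_mul, eval₂_X]
  have hsnd : (eval₂ (algebraMap (Algebra.adjoin k {(T₁, T₂)}) (E₁ × E₂)) (0, y₂) Q).2 = 0 := by
    have h1 : (eval₂ (algebraMap (Algebra.adjoin k {(T₁, T₂)}) (E₁ × E₂)) (0, y₂) Q).2 =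
        eval₂ (algebraMap (Algebra.adjoin k {T₂}) E₂) y₂ (Q.map ψ) := by
      rw [eval₂_map]
      have hcomp : (RingHom.snd E₁ E₂).comp
          (algebraMap (Algebra.adjoin k {(T₁, T₂)}) (E₁ × E₂)) =
          (algebraMap (Algebra.adjoin k {T₂}) E₂).comp ψ := by ext a; rfl
      have := Polynomial.hom_eval₂ Q (algebraMap (Algebra.adjoin k {(T₁, T₂)}) (E₁ × E₂))
        (RingHom.snd E₁ E₂) ((0, y₂) : E₁ × E₂)
      rw [hcomp] at this
      simpa using this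
    rw [h1, hQmap, hpy]
  ext
  · simp
  · simp [hsnd]

/-- **Integrality over `k[(T₁,T₂)]` in a product is componentwise.** -/
theorem isIntegral_prod_iff (y : E₁ × E₂) :
    IsIntegral (Algebra.adjoin k {(T₁, T₂)}) y ↔
      IsIntegral (Algebra.adjoin k {T₁}) y.1 ∧ IsIntegral (Algebra.adjoin k {T₂}) y.2 := by
  refine ⟨fun h => ⟨isIntegral_fst T₁ T₂ h, isIntegral_snd T₁ T₂ h⟩, fun ⟨h1, h2⟩ => ?_⟩
  have : y = (y.1, 0) + (0, y.2) := by ext <;> simp
  rw [this]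
  exact (isIntegral_inl T₁ T₂ h1).add (isIntegral_inr T₁ T₂ h2)

end Prod

section Bridge

/-! ### `L(b (x)_∞)` via integrality -/

open Fermat.Agent.Gateway.GoodRed.PlacesIntegral

variable {k E : Type*} [Field k] [Field E] [Algebra k E] {x : E}
  (hx : Transcendental k x) [FiniteDimensional k⟮x⟯ E] [Algebra.IsSeparable k⟮x⟯ E]
  {C : Divisor k E} (hC : ∀ v : Place k E, C v = max 0 (-(v.ord x)))

include hx in
omit [FiniteDimensional k⟮x⟯ E] [Algebra.IsSeparable k⟮x⟯ E] in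
theorem transcendental_inv : Transcendental k x⁻¹ :=
  fun h => hx (IsAlgebraic.inv_iff.mp h)

omit [Algebra.IsSeparable k⟮x⟯ E] in
theorem finiteDimensional_inv : FiniteDimensional k⟮x⁻¹⟯ E := by
  rw [DegBound.adjoin_simple_inv]; infer_instance

omit [FiniteDimensional k⟮x⟯ E] in
theorem isSeparable_inv : Algebra.IsSeparable k⟮x⁻¹⟯ E := by
  rw [DegBound.adjoin_simple_inv]; infer_instance

include hx hC in
/-- `L(b (x)_∞) = {f | f integral over k[x], x⁻ᵇ f integral over k[x⁻¹]}`. -/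
theorem mem_Lb_iff_isIntegral (b : ℕ) (f : E) :
    f ∈ Lb 0 C b ↔ IsIntegral (Algebra.adjoin k {x}) f ∧
      IsIntegral (Algebra.adjoin k {x⁻¹}) (x⁻¹ ^ b * f) := by
  have hx0 : x ≠ 0 := by
    rintro rfl
    exact hx isAlgebraic_zero
  have hxi : Transcendental k x⁻¹ := transcendental_inv hx
  haveI : FiniteDimensional k⟮x⁻¹⟯ E := finiteDimensional_inv
  haveI : Algebra.IsSeparable k⟮x⁻¹⟯ E := isSeparable_inv
  rw [mem_Lb_iff, isIntegral_iff_forall_ord_nonneg x hx, isIntegral_iff_forall_ord_nonneg x⁻¹ hxi]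
  rcases eq_or_ne f 0 with rfl | hf0
  · simp
  have hord : ∀ v : Place k E, v.ord (x⁻¹ ^ b * f) = -(b : ℤ) * v.ord x + v.ord f := fun v => by
    rw [v.ord_mul (pow_ne_zero _ (inv_ne_zero hx0)) hf0, ← zpow_natCast, v.ord_zpow, v.ord_inv]
    ring
  constructor
  · intro h
    refine ⟨fun v hv => ?_, fun v hv => ?_⟩
    · have h1 := (h v).resolve_left hf0
      rw [hC, max_eq_left (by omega)] at h1
      simpa using h1
    · rw [v.ord_inv] at hv
      have h1 := (h v).resolve_left hf0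
      rw [hC, max_eq_right (by omega)] at h1
      rw [hord]
      simp only [Finsupp.coe_zero, Pi.zero_apply, zero_add] at h1
      linarith
  · rintro ⟨h1, h2⟩ v
    right
    simp only [Finsupp.coe_zero, Pi.zero_apply, zero_add]
    rcases le_or_gt 0 (v.ord x) with hv | hv
    · rw [hC, max_eq_left (by omega), mul_zero, neg_zero]
      exact h1 v hv
    · rw [hC, max_eq_right (by omega)]
      have := h2 v (by rw [v.ord_inv]; omega)
      rw [hord] at this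
      linarith

omit [FiniteDimensional k⟮x⟯ E] [Algebra.IsSeparable k⟮x⟯ E] in
theorem Lb_nsmul (q b : ℕ) : Lb 0 (q • C) b = Lb 0 C (q * b) := by
  unfold Lb
  rw [smul_smul, mul_comm]

include hx hC in
/-- The same for `X = x ^ q` (`(X)_∞ = q (x)_∞`), although `E / k(X)` is inseparable. -/
theorem mem_Lb_pow_iff_isIntegral {q : ℕ} (hq : 0 < q) (b : ℕ) (f : E) :
    f ∈ Lb 0 (q • C) b ↔ IsIntegral (Algebra.adjoin k {x ^ q}) f ∧
      IsIntegral (Algebra.adjoin k {(x ^ q)⁻¹}) ((x ^ q)⁻¹ ^ b * f) := by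
  rw [Lb_nsmul, mem_Lb_iff_isIntegral hx hC, isIntegral_adjoin_pow_iff x hq, ← inv_pow,
    isIntegral_adjoin_pow_iff x⁻¹ hq, ← pow_mul]

include hx hC in
/-- **Bridge for the product `E × E`, `T = (x, x^q)`**: `P b = L(b C) × L(b q C)` is the space of
`z` integral over `k[T]` with `T⁻ᵇ z` integral over `k[T⁻¹]`. -/
theorem mem_Pb_iff_isIntegral {q : ℕ} (hq : 0 < q) (b : ℕ) (z : E × E) :
    z ∈ Pb 0 C 0 (q • C) b ↔
      IsIntegral (Algebra.adjoin k {((x, x ^ q) : E × E)}) z ∧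
        IsIntegral (Algebra.adjoin k {((x⁻¹, (x ^ q)⁻¹) : E × E)})
          (((x⁻¹, (x ^ q)⁻¹) : E × E) ^ b * z) := by
  rw [mem_Pb_iff, mem_Lb_iff_isIntegral hx hC, mem_Lb_pow_iff_isIntegral hx hC hq,
    isIntegral_prod_iff, isIntegral_prod_iff]
  simp only [Prod.fst_mul, Prod.snd_mul, Prod.pow_fst, Prod.pow_snd]
  tauto

end Bridge

section Radical

/-! ### `L(b C)` and `P b` are radical: `f ^ m ∈ L(m b C) ⇒ f ∈ L(b C)` -/

variable {k E : Type*} [Field k] [Field E] [Algebra k E]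

theorem mem_Lb_of_pow_mem {C : Divisor k E} {m : ℕ} (hm : 0 < m) (b : ℕ) {f : E}
    (hf : f ^ m ∈ Lb 0 C (m * b)) : f ∈ Lb 0 C b := by
  rw [mem_Lb_iff] at hf ⊢
  intro v
  rcases eq_or_ne f 0 with rfl | hf0
  · left; rfl
  right
  have h1 := (hf v).resolve_left (pow_ne_zero _ hf0)
  have hpow : v.ord (f ^ m) = m * v.ord f := by
    have := v.ord_zpow f m
    rwa [zpow_natCast] at this
  rw [hpow] at h1
  simp only [Finsupp.coe_zero, Pi.zero_apply, zero_add] at h1 ⊢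
  push_cast at h1
  have hm' : (0 : ℤ) < m := by exact_mod_cast hm
  have h2 : (m : ℤ) * (-((b : ℤ) * C v)) ≤ (m : ℤ) * v.ord f := by linarith
  exact le_of_mul_le_mul_left h2 hm'

theorem mem_Pb_of_pow_mem {E₂ : Type*} [Field E₂] [Algebra k E₂] {C₁ : Divisor k E}
    {C₂ : Divisor k E₂} {m : ℕ} (hm : 0 < m) (b : ℕ) {z : E × E₂}
    (hz : z ^ m ∈ Pb 0 C₁ 0 C₂ (m * b)) : z ∈ Pb 0 C₁ 0 C₂ b := by
  rw [mem_Pb_iff] at hz ⊢
  exact ⟨mem_Lb_of_pow_mem hm b (by simpa using hz.1), mem_Lb_of_pow_mem hm b (by simpa using hz.2)⟩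

end Radical

section BridgeDim

/-! ### Dimension, generation and exhaustion for `P b = L(b C) × L(b q C)`, `T = (x, x ^ q)` -/

variable {k E : Type*} [Field k] [IsAlgClosed k] [Field E] [Algebra k E] {x : E}
  (hx : Transcendental k x) [FiniteDimensional k⟮x⟯ E] [Algebra.IsSeparable k⟮x⟯ E]
  {C : Divisor k E} (hC : ∀ v : Place k E, C v = max 0 (-(v.ord x)))
  (hCdeg : Divisor.degree C = (finrank k⟮x⟯ E : ℤ))

include hx in
theorem finite_Pb_pow (q b : ℕ) : Module.Finite k (Pb 0 C 0 (q • C) b) :=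
  finite_Pb hx hx 0 C 0 (q • C) b

include hx hCdeg in
theorem degree_nsmul_poleDiv {q : ℕ} (hq : 0 < q) [FiniteDimensional k⟮x ^ q⟯ E] :
    Divisor.degree (q • C) = (finrank k⟮x ^ q⟯ E : ℤ) := by
  rw [map_nsmul, hCdeg, nsmul_eq_mul, finrank_adjoin_pow hx hq]
  push_cast
  ring

include hx hCdeg in
/-- **Riemann-Roch on `κ' × κ'`**: `dim P b = (q+1) n' b + 2 - 2 g'` for `b n' > 2 g' - 2`. -/
theorem finrank_Pb_pow {q : ℕ} (hq : 0 < q) {b : ℕ}
    (hb : 2 * (genusFF k E : ℤ) - 2 < b * (finrank k⟮x⟯ E : ℤ)) :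
    (finrank k (Pb 0 C 0 (q • C) b) : ℤ) =
      (((q + 1) * finrank k⟮x⟯ E : ℕ) : ℤ) * b + (2 - 2 * (genusFF k E : ℤ)) := by
  haveI : FiniteDimensional k⟮x ^ q⟯ E := finiteDimensional_adjoin_pow hx hq
  have hq1 : (1 : ℤ) ≤ q := by exact_mod_cast hq
  have hbn : (0 : ℤ) ≤ (b : ℤ) * (finrank k⟮x⟯ E : ℤ) :=
    mul_nonneg (Int.natCast_nonneg _) (Int.natCast_nonneg _)
  have h := finrank_Pb (x₁ := x) (x₂ := x ^ q) hx hx hCdeg (degree_nsmul_poleDiv hx hCdeg hq)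
    (0 : Divisor k E) (0 : Divisor k E) (b := b) (by simpa using hb)
    (by
      rw [finrank_adjoin_pow hx hq]
      push_cast
      simp only [map_zero, zero_add]
      nlinarith)
  rw [h, finrank_adjoin_pow hx hq]
  push_cast
  simp only [map_zero]
  ring

include hx hC hCdeg in
/-- `P (b+2) = P (b+1) ⊔ T P (b+1)` for `b ≥ b₀`, as soon as `b₀ n' > 2 g' - 2`. -/
theorem Pb_pow_eq_sup_map {q : ℕ} (hq : 0 < q) {b₀ : ℕ}
    (hb₀ : 2 * (genusFF k E : ℤ) - 2 < b₀ * (finrank k⟮x⟯ E : ℤ)) (b : ℕ) (hb : b₀ ≤ b) :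
    Pb 0 C 0 (q • C) (b + 2) =
      Pb 0 C 0 (q • C) (b + 1) ⊔ (Pb 0 C 0 (q • C) (b + 1)).map (mulT (k := k) x (x ^ q)) := by
  haveI : FiniteDimensional k⟮x ^ q⟯ E := finiteDimensional_adjoin_pow hx hq
  have hq1 : (1 : ℤ) ≤ q := by exact_mod_cast hq
  have hbn : (0 : ℤ) ≤ (b₀ : ℤ) * (finrank k⟮x⟯ E : ℤ) :=
    mul_nonneg (Int.natCast_nonneg _) (Int.natCast_nonneg _)
  exact Pb_eq_sup_map (x₁ := x) (x₂ := x ^ q) hx hx hC hCdeg (poleDiv_pow hC q)
    (degree_nsmul_poleDiv hx hCdeg hq) (0 : Divisor k E) (0 : Divisor k E) (b₀ := b₀)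
    (by simpa using hb₀)
    (by
      rw [finrank_adjoin_pow hx hq]
      push_cast
      simp only [map_zero, zero_add]
      nlinarith) b hb

include hx hC hCdeg in
/-- **Generation (elementwise form, as consumed by `TheoremB` / `exists_saturation`)**:
for `b ≥ b₀ + 1`, every `p ∈ P (b+1)` is `y + T z` with `y, z ∈ P b`, `T = (x, x ^ q)`. -/
theorem exists_add_mul_of_mem_Pb_succ {q : ℕ} (hq : 0 < q) {b₀ : ℕ}
    (hb₀ : 2 * (genusFF k E : ℤ) - 2 < b₀ * (finrank k⟮x⟯ E : ℤ)) (b : ℕ) (hb : b₀ + 1 ≤ b)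
    {p : E × E} (hp : p ∈ Pb 0 C 0 (q • C) (b + 1)) :
    ∃ y ∈ Pb 0 C 0 (q • C) b, ∃ z ∈ Pb 0 C 0 (q • C) b, p = y + ((x, x ^ q) : E × E) * z := by
  obtain ⟨b', rfl⟩ : ∃ b', b = b' + 1 := ⟨b - 1, by omega⟩
  have h := Pb_pow_eq_sup_map hx hC hCdeg hq hb₀ b' (by omega)
  rw [show b' + 1 + 1 = b' + 2 from rfl, h] at hp
  obtain ⟨y, hy, w, hw, rfl⟩ := Submodule.mem_sup.mp hp
  obtain ⟨z, hz, rfl⟩ := Submodule.mem_map.mp hw
  exact ⟨y, hy, z, hz, rfl⟩

include hx in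
/-- A threshold `b₀` with `b₀ n' > 2 g' - 2` exists. -/
theorem exists_threshold : ∃ b₀ : ℕ, 2 * (genusFF k E : ℤ) - 2 < b₀ * (finrank k⟮x⟯ E : ℤ) := by
  have hn : 0 < finrank k⟮x⟯ E := Module.finrank_pos
  refine ⟨2 * genusFF k E, ?_⟩
  have h1 : (1 : ℤ) ≤ (finrank k⟮x⟯ E : ℤ) := by exact_mod_cast hn
  have h2 : (0 : ℤ) ≤ (genusFF k E : ℤ) := Int.natCast_nonneg _
  push_cast
  nlinarith

end BridgeDim

section Exhaustion

/-! ### Exhaustion: the `P b` exhaust the integral closure of `k[T]` in `κ' × κ'` -/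

variable {k E : Type*} [Field k] [Field E] [Algebra k E] {x : E}
  (hx : Transcendental k x) [FiniteDimensional k⟮x⟯ E] [Algebra.IsSeparable k⟮x⟯ E]
  {C : Divisor k E} (hC : ∀ v : Place k E, C v = max 0 (-(v.ord x)))

include hx hC in
theorem exists_mem_Lb_of_isIntegral {f : E} (hf : IsIntegral (Algebra.adjoin k {x}) f) :
    ∃ b₀ : ℕ, ∀ b : ℕ, b₀ ≤ b → f ∈ Lb 0 C b := by
  obtain ⟨b₀, hb₀⟩ := Fermat.Agent.Gateway.C0.exists_isIntegral_inv_pow_mul hx hf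
  exact ⟨b₀, fun b hb => (mem_Lb_iff_isIntegral hx hC b f).mpr ⟨hf, hb₀ b hb⟩⟩

include hx hC in
/-- **Exhaustion**: `z` integral over `k[(x, x^q)]` lies in `P b` for all large `b`. -/
theorem exists_mem_Pb_of_isIntegral {q : ℕ} (hq : 0 < q) {z : E × E}
    (hz : IsIntegral (Algebra.adjoin k {((x, x ^ q) : E × E)}) z) :
    ∃ b₀ : ℕ, ∀ b : ℕ, b₀ ≤ b → z ∈ Pb 0 C 0 (q • C) b := by
  rw [isIntegral_prod_iff] at hz
  obtain ⟨b₁, hb₁⟩ := exists_mem_Lb_of_isIntegral hx hC hz.1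
  obtain ⟨b₂, hb₂⟩ := exists_mem_Lb_of_isIntegral hx hC
    ((isIntegral_adjoin_pow_iff x hq z.2).mp hz.2)
  refine ⟨max b₁ b₂, fun b hb => mem_Pb_iff.mpr ⟨hb₁ b (le_of_max_le_left hb), ?_⟩⟩
  rw [Lb_nsmul]
  refine hb₂ _ ((le_of_max_le_right hb).trans ?_)
  exact Nat.le_mul_of_pos_left b hq

include hx hC in
/-- The union of the `P b` is the integral closure of `k[T]`, `T = (x, x^q)`. -/
theorem isIntegral_iff_exists_mem_Pb {q : ℕ} (hq : 0 < q) (z : E × E) :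
    IsIntegral (Algebra.adjoin k {((x, x ^ q) : E × E)}) z ↔ ∃ b : ℕ, z ∈ Pb 0 C 0 (q • C) b := by
  constructor
  · intro hz
    obtain ⟨b₀, hb₀⟩ := exists_mem_Pb_of_isIntegral hx hC hq hz
    exact ⟨b₀, hb₀ b₀ le_rfl⟩
  · rintro ⟨b, hb⟩
    exact ((mem_Pb_iff_isIntegral hx hC hq b z).mp hb).1

end Exhaustion

section Chart2

/-! ### Chart 2: the same with `x⁻¹` in place of `x` (`C' = (x)_0 = (x⁻¹)_∞`,
`Ti = (x⁻¹, (x ^ q)⁻¹)`) -/

variable {k E : Type*} [Field k] [Field E] [Algebra k E] {x : E}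
  (hx : Transcendental k x) [FiniteDimensional k⟮x⟯ E] [Algebra.IsSeparable k⟮x⟯ E]
  {C' : Divisor k E} (hC' : ∀ v : Place k E, C' v = max 0 (v.ord x))

include hC' in
omit [FiniteDimensional k⟮x⟯ E] [Algebra.IsSeparable k⟮x⟯ E] in
theorem zeroDiv_eq_poleDiv_inv (v : Place k E) : C' v = max 0 (-(v.ord x⁻¹)) := by
  rw [hC', v.ord_inv, neg_neg]

omit [Algebra.IsSeparable k⟮x⟯ E] in
theorem finrank_adjoin_inv : finrank k⟮x⁻¹⟯ E = finrank k⟮x⟯ E := by
  rw [DegBound.adjoin_simple_inv]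

include hx hC' in
/-- **Bridge, chart 2**: `P' b = L(b (x)_0) × L(b q (x)_0)` is the space of `z` integral over
`k[Ti]` with `Tᵇ z` integral over `k[T]`. -/
theorem mem_Pb_inv_iff_isIntegral {q : ℕ} (hq : 0 < q) (b : ℕ) (z : E × E) :
    z ∈ Pb 0 C' 0 (q • C') b ↔
      IsIntegral (Algebra.adjoin k {((x⁻¹, (x ^ q)⁻¹) : E × E)}) z ∧
        IsIntegral (Algebra.adjoin k {((x, x ^ q) : E × E)})
          (((x, x ^ q) : E × E) ^ b * z) := by
  haveI : FiniteDimensional k⟮x⁻¹⟯ E := finiteDimensional_inv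
  haveI : Algebra.IsSeparable k⟮x⁻¹⟯ E := isSeparable_inv
  have h := mem_Pb_iff_isIntegral (transcendental_inv hx) (zeroDiv_eq_poleDiv_inv hC') hq b z
  have e1 : ((x⁻¹, x⁻¹ ^ q) : E × E) = (x⁻¹, (x ^ q)⁻¹) := by rw [inv_pow]
  have e2 : ((x⁻¹⁻¹, (x⁻¹ ^ q)⁻¹) : E × E) = (x, x ^ q) := by rw [inv_pow, inv_inv, inv_inv]
  rw [e1, e2] at h
  exact h

include hx hC' in
theorem exists_mem_Pb_inv_of_isIntegral {q : ℕ} (hq : 0 < q) {z : E × E}
    (hz : IsIntegral (Algebra.adjoin k {((x⁻¹, (x ^ q)⁻¹) : E × E)}) z) :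
    ∃ b₀ : ℕ, ∀ b : ℕ, b₀ ≤ b → z ∈ Pb 0 C' 0 (q • C') b := by
  haveI : FiniteDimensional k⟮x⁻¹⟯ E := finiteDimensional_inv
  haveI : Algebra.IsSeparable k⟮x⁻¹⟯ E := isSeparable_inv
  refine exists_mem_Pb_of_isIntegral (transcendental_inv hx) (zeroDiv_eq_poleDiv_inv hC') hq ?_
  have e1 : ((x⁻¹, x⁻¹ ^ q) : E × E) = (x⁻¹, (x ^ q)⁻¹) := by rw [inv_pow]
  rw [e1]
  exact hz

include hx hC' in
theorem isIntegral_iff_exists_mem_Pb_inv {q : ℕ} (hq : 0 < q) (z : E × E) :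
    IsIntegral (Algebra.adjoin k {((x⁻¹, (x ^ q)⁻¹) : E × E)}) z ↔
      ∃ b : ℕ, z ∈ Pb 0 C' 0 (q • C') b := by
  constructor
  · intro hz
    obtain ⟨b₀, hb₀⟩ := exists_mem_Pb_inv_of_isIntegral hx hC' hq hz
    exact ⟨b₀, hb₀ b₀ le_rfl⟩
  · rintro ⟨b, hb⟩
    exact ((mem_Pb_inv_iff_isIntegral hx hC' hq b z).mp hb).1

variable [IsAlgClosed k] (hCdeg' : Divisor.degree C' = (finrank k⟮x⟯ E : ℤ))

include hx in
theorem finite_Pb_inv (q b : ℕ) : Module.Finite k (Pb 0 C' 0 (q • C') b) :=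
  finite_Pb hx hx 0 C' 0 (q • C') b

include hx hCdeg' in
/-- **Riemann-Roch on `κ' × κ'`, chart 2.** -/
theorem finrank_Pb_inv {q : ℕ} (hq : 0 < q) {b : ℕ}
    (hb : 2 * (genusFF k E : ℤ) - 2 < b * (finrank k⟮x⟯ E : ℤ)) :
    (finrank k (Pb 0 C' 0 (q • C') b) : ℤ) =
      (((q + 1) * finrank k⟮x⟯ E : ℕ) : ℤ) * b + (2 - 2 * (genusFF k E : ℤ)) := by
  haveI : FiniteDimensional k⟮x⁻¹⟯ E := finiteDimensional_inv
  haveI : Algebra.IsSeparable k⟮x⁻¹⟯ E := isSeparable_inv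
  have h := finrank_Pb_pow (C := C') (transcendental_inv hx)
    (by rw [finrank_adjoin_inv]; exact hCdeg') hq (b := b)
    (by rw [finrank_adjoin_inv]; exact hb)
  rw [h, finrank_adjoin_inv]

include hx hC' hCdeg' in
/-- **Generation, chart 2**: for `b ≥ b₀ + 1`, every `p ∈ P' (b+1)` is `y + Ti z` with
`y, z ∈ P' b`, `Ti = (x⁻¹, (x ^ q)⁻¹)`. -/
theorem exists_add_mul_of_mem_Pb_inv_succ {q : ℕ} (hq : 0 < q) {b₀ : ℕ}
    (hb₀ : 2 * (genusFF k E : ℤ) - 2 < b₀ * (finrank k⟮x⟯ E : ℤ)) (b : ℕ) (hb : b₀ + 1 ≤ b)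
    {p : E × E} (hp : p ∈ Pb 0 C' 0 (q • C') (b + 1)) :
    ∃ y ∈ Pb 0 C' 0 (q • C') b, ∃ z ∈ Pb 0 C' 0 (q • C') b,
      p = y + ((x⁻¹, (x ^ q)⁻¹) : E × E) * z := by
  haveI : FiniteDimensional k⟮x⁻¹⟯ E := finiteDimensional_inv
  haveI : Algebra.IsSeparable k⟮x⁻¹⟯ E := isSeparable_inv
  have h := exists_add_mul_of_mem_Pb_succ (C := C') (transcendental_inv hx)
    (zeroDiv_eq_poleDiv_inv hC') (by rw [finrank_adjoin_inv]; exact hCdeg') hq (b₀ := b₀)
    (by rw [finrank_adjoin_inv]; exact hb₀) b hb hp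
  simpa only [inv_pow] using h

end Chart2

section Package

/-! ### Packaged, divisor-free statements (one per chart) -/

variable {k E : Type*} [Field k] [IsAlgClosed k] [Field E] [Algebra k E] {x : E}
  (hx : Transcendental k x) [FiniteDimensional k⟮x⟯ E] [Algebra.IsSeparable k⟮x⟯ E]

include hx in
/-- **k-side filtration of chart 1 on `κ = E × E`, `T = (x, x ^ q)`, `Ti = T⁻¹`.**
`P b = {z | z integral over k[T], Ti ^ b z integral over k[Ti]}` is a monotone family of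
finite-dimensional subspaces, radical, generated in one step for `b ≥ b₀`, exhausting the
integral closure of `k[T]`, of dimension `(q+1) n' b + 2 - 2 g'` for `b ≥ b₀`. -/
theorem exists_filtration {q : ℕ} (hq : 0 < q) :
    ∃ P : ℕ → Submodule k (E × E),
      (∀ b, Module.Finite k (P b)) ∧ Monotone P ∧
      (∀ b z, z ∈ P b ↔ IsIntegral (Algebra.adjoin k {((x, x ^ q) : E × E)}) z ∧
        IsIntegral (Algebra.adjoin k {((x⁻¹, (x ^ q)⁻¹) : E × E)})
          (((x⁻¹, (x ^ q)⁻¹) : E × E) ^ b * z)) ∧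
      (∀ b z, z ∈ P b → ((x, x ^ q) : E × E) * z ∈ P (b + 1)) ∧
      (∀ m : ℕ, 0 < m → ∀ b z, z ^ m ∈ P (m * b) → z ∈ P b) ∧
      (∀ z, IsIntegral (Algebra.adjoin k {((x, x ^ q) : E × E)}) z ↔ ∃ b, z ∈ P b) ∧
      ∃ b₀ : ℕ,
        (∀ b, b₀ ≤ b → ∀ p ∈ P (b + 1), ∃ y ∈ P b, ∃ z ∈ P b,
          p = y + ((x, x ^ q) : E × E) * z) ∧
        (∀ b, b₀ ≤ b → (finrank k (P b) : ℤ) =
          (((q + 1) * finrank k⟮x⟯ E : ℕ) : ℤ) * b + (2 - 2 * (genusFF k E : ℤ))) := by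
  obtain ⟨C, hC, hCdeg⟩ := exists_poleDiv hx hx
  obtain ⟨b₀, hb₀⟩ := exists_threshold (k := k) (E := E) hx
  have hmono : ∀ b : ℕ, b₀ ≤ b →
      2 * (genusFF k E : ℤ) - 2 < b * (finrank k⟮x⟯ E : ℤ) := fun b hb => by
    have : (b₀ : ℤ) * (finrank k⟮x⟯ E : ℤ) ≤ (b : ℤ) * (finrank k⟮x⟯ E : ℤ) :=
      mul_le_mul_of_nonneg_right (by exact_mod_cast hb) (Int.natCast_nonneg _)
    linarith
  refine ⟨Pb 0 C 0 (q • C), fun b => finite_Pb_pow hx q b,
    Pb_mono hC (poleDiv_pow hC q) 0 0, fun b z => mem_Pb_iff_isIntegral hx hC hq b z,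
    fun b z hz => ?_, fun m hm b z hz => mem_Pb_of_pow_mem hm b hz,
    fun z => isIntegral_iff_exists_mem_Pb hx hC hq z, b₀ + 1,
    fun b hb p hp => exists_add_mul_of_mem_Pb_succ hx hC hCdeg hq hb₀ b hb hp,
    fun b hb => finrank_Pb_pow hx hCdeg hq (hmono b (by omega))⟩
  exact mulT_mem_Pb_succ hC (poleDiv_pow hC q) 0 0 hz

include hx in
/-- **k-side filtration of chart 2** (`Ti` in place of `T`). -/
theorem exists_filtration_inv {q : ℕ} (hq : 0 < q) :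
    ∃ P : ℕ → Submodule k (E × E),
      (∀ b, Module.Finite k (P b)) ∧ Monotone P ∧
      (∀ b z, z ∈ P b ↔ IsIntegral (Algebra.adjoin k {((x⁻¹, (x ^ q)⁻¹) : E × E)}) z ∧
        IsIntegral (Algebra.adjoin k {((x, x ^ q) : E × E)})
          (((x, x ^ q) : E × E) ^ b * z)) ∧
      (∀ b z, z ∈ P b → ((x⁻¹, (x ^ q)⁻¹) : E × E) * z ∈ P (b + 1)) ∧
      (∀ m : ℕ, 0 < m → ∀ b z, z ^ m ∈ P (m * b) → z ∈ P b) ∧
      (∀ z, IsIntegral (Algebra.adjoin k {((x⁻¹, (x ^ q)⁻¹) : E × E)}) z ↔ ∃ b, z ∈ P b) ∧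
      ∃ b₀ : ℕ,
        (∀ b, b₀ ≤ b → ∀ p ∈ P (b + 1), ∃ y ∈ P b, ∃ z ∈ P b,
          p = y + ((x⁻¹, (x ^ q)⁻¹) : E × E) * z) ∧
        (∀ b, b₀ ≤ b → (finrank k (P b) : ℤ) =
          (((q + 1) * finrank k⟮x⟯ E : ℕ) : ℤ) * b + (2 - 2 * (genusFF k E : ℤ))) := by
  haveI : FiniteDimensional k⟮x⁻¹⟯ E := finiteDimensional_inv
  haveI : Algebra.IsSeparable k⟮x⁻¹⟯ E := isSeparable_inv
  obtain ⟨P, h1, h2, h3, h4, h5, h6, b₀, h7, h8⟩ :=
    exists_filtration (k := k) (E := E) (transcendental_inv hx) hq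
  have e1 : ((x⁻¹, x⁻¹ ^ q) : E × E) = (x⁻¹, (x ^ q)⁻¹) := by rw [inv_pow]
  have e2 : ((x⁻¹⁻¹, (x⁻¹ ^ q)⁻¹) : E × E) = (x, x ^ q) := by rw [inv_pow, inv_inv, inv_inv]
  rw [e1] at h3 h4 h6 h7
  rw [e2] at h3
  rw [finrank_adjoin_inv] at h8
  exact ⟨P, h1, h2, h3, h4, h5, h6, b₀, h7, h8⟩

end Package

end Fermat.Agent.S34x.Lattice2.DimBridge
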