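import Mathlib

/-!
# P-S34 WP3 (abstract layer), part (L1): integrality survives reduction, several valuations

Mathlib only.  This is the "two Gauss valuations" replacement of helper61's
`GaussExt.ResidueData.FullResidueDegree.isIntegral_red'`: there the valuation ring `O` of `F` was
the *only* extension of `O_x = O ∩ K_x` (full residue degree), so that every `f ∈ O` is integral
over `O_x`.  With two (or more) extensions `O i` of the same `O_x` this holds only for
`f ∈ ⋂ O i`, so here the integrality of `f` over `O_x` is a *hypothesis* (`hfO`); for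
`⋂ O i = ` integral closure of `O_x` it is supplied by WP1/WP2 (orthonormal basis of `⋂ O i`).

* `isIntegral_res_of_isIntegral` : `f ∈ O` integral over `O_x` and over a ring `R1 → K_x`
  ⇒ `res f` is integral over `R1k`, as soon as `res` maps the elements of `O_x` that are integral
  over `R1` to elements integral over `R1k`.  (`res : O →+* κ`, `κ` any commutative ring.)
* `isIntegral_adjoin_of_map`, `isIntegral_adjoin_map_iff` : `K[t_x] ⊆ K_x` versus `K[t] ⊆ F`.
* `isIntegral_res_adjoin` : the special case `R1 = K[t_x]`, `R1k = k[res t]`.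
-/

set_option autoImplicit false

noncomputable section

namespace Fermat.Agent.S34x.Lattice2

open Polynomial

section General

/-- Integrality only depends on the image of the base ring. -/
theorem isIntegral_of_range_le' {R R' S : Type*} [CommRing R] [CommRing R'] [CommRing S]
    [Algebra R S] [Algebra R' S] (h : (algebraMap R S).range ≤ (algebraMap R' S).range) {x : S}
    (hx : IsIntegral R x) : IsIntegral R' x := by
  obtain ⟨p, hp, hpx⟩ := hx
  have hl : p.map (algebraMap R S) ∈ Polynomial.lifts (algebraMap R' S) := by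
    rw [Polynomial.lifts_iff_coeff_lifts]
    intro i
    rw [Polynomial.coeff_map]
    exact h ⟨_, rfl⟩
  obtain ⟨q, hq, -, hqm⟩ := Polynomial.lifts_and_natDegree_eq_and_monic hl (hp.map _)
  refine ⟨q, hqm, ?_⟩
  rw [← Polynomial.eval_map, hq, Polynomial.eval_map]
  exact hpx

/-- The image of `R[x] ⊆ A` in `B` equals the image of `R[φ x] ⊆ B`. -/
theorem range_algebraMap_adjoin_eq {R A B : Type*} [CommRing R] [CommRing A] [CommRing B]
    [Algebra R A] [Algebra R B] [Algebra A B] [IsScalarTower R A B] (x : A) :
    (algebraMap (Algebra.adjoin R {x}) B).range =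
      (algebraMap (Algebra.adjoin R {algebraMap A B x}) B).range := by
  apply le_antisymm
  · rintro _ ⟨⟨s, hs⟩, rfl⟩
    rw [Algebra.adjoin_singleton_eq_range_aeval] at hs
    obtain ⟨P, rfl⟩ := hs
    refine ⟨⟨aeval (algebraMap A B x) P, ?_⟩, ?_⟩
    · rw [Algebra.adjoin_singleton_eq_range_aeval]
      exact ⟨P, rfl⟩
    · show aeval (algebraMap A B x) P = algebraMap A B (aeval x P)
      rw [aeval_algebraMap_apply]
  · rintro _ ⟨⟨s, hs⟩, rfl⟩
    rw [Algebra.adjoin_singleton_eq_range_aeval] at hs
    obtain ⟨P, rfl⟩ := hs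
    refine ⟨⟨aeval x P, ?_⟩, ?_⟩
    · rw [Algebra.adjoin_singleton_eq_range_aeval]
      exact ⟨P, rfl⟩
    · show algebraMap A B (aeval x P) = aeval (algebraMap A B x) P
      rw [aeval_algebraMap_apply]

/-- `f ∈ B` is integral over `R[x] ⊆ A` iff it is integral over `R[φ x] ⊆ B`. -/
theorem isIntegral_adjoin_map_iff {R A B : Type*} [CommRing R] [CommRing A] [CommRing B]
    [Algebra R A] [Algebra R B] [Algebra A B] [IsScalarTower R A B] (x : A) (f : B) :
    IsIntegral (Algebra.adjoin R {x}) f ↔ IsIntegral (Algebra.adjoin R {algebraMap A B x}) f :=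
  ⟨isIntegral_of_range_le' (range_algebraMap_adjoin_eq x).le,
    isIntegral_of_range_le' (range_algebraMap_adjoin_eq x).ge⟩

end General

section Single

variable {Kx F : Type*} [Field Kx] [Field F] [Algebra Kx F]
variable (O : ValuationSubring F) {κ : Type*} [CommRing κ] (res : O →+* κ)

/-- `O_x = O ∩ K_x`. -/
abbrev baseV : ValuationSubring Kx := O.comap (algebraMap Kx F)

variable (Kx) in
/-- the inclusion `O_x → O`. -/
def baseI : baseV (Kx := Kx) O →+* O :=
  (algebraMap Kx F).restrict (baseV (Kx := Kx) O) O fun _ hx => hx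

@[simp] theorem coe_baseI (c : baseV (Kx := Kx) O) :
    ((baseI Kx O c : O) : F) = algebraMap Kx F (c : Kx) := rfl

/-- evaluation of polynomials over `O_x` commutes with reduction. -/
theorem eval₂_res (Q : (baseV (Kx := Kx) O)[X]) (f : O) :
    (Q.map (res.comp (baseI Kx O))).eval (res f) = res (Q.eval₂ (baseI Kx O) f) := by
  rw [eval_map, hom_eval₂]

/-- A monic polynomial over `O_x` killing `f ∈ O` in `F` kills it in `O`. -/
theorem eval₂_baseI_eq_zero (Q : (baseV (Kx := Kx) O)[X]) (f : O)
    (h : aeval (f : F) Q = 0) : Q.eval₂ (baseI Kx O) f = 0 := by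
  apply Subtype.ext
  have h1 : ((Q.eval₂ (baseI Kx O) f : O) : F) = Q.eval₂ (algebraMap _ F) (f : F) := by
    have := hom_eval₂ Q (baseI Kx O) O.subtype f
    rw [← ValuationSubring.subtype_apply, this]
    rfl
  rw [h1, ← aeval_def, h]
  rfl

/-- **(L1), abstract core.**  Let `f ∈ O` be integral over `O_x = O ∩ K_x` and over a ring
`R1 → K_x`.  If the reduction maps the elements of `O_x` integral over `R1` to elements of `κ`
integral over `R1k`, then `res f` is integral over `R1k`. -/
theorem isIntegral_res_of_isIntegral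
    {R1 : Type*} [CommRing R1] [Algebra R1 Kx] [Algebra R1 F] [IsScalarTower R1 Kx F]
    {R1k : Type*} [CommRing R1k] [Algebra R1k κ]
    (hR : ∀ c : baseV (Kx := Kx) O, IsIntegral R1 (c : Kx) → IsIntegral R1k (res (baseI Kx O c)))
    (f : O) (hfO : IsIntegral (baseV (Kx := Kx) O) (f : F)) (hf : IsIntegral R1 (f : F)) :
    IsIntegral R1k (res f) := by
  set Q := minpoly (baseV (Kx := Kx) O) (f : F) with hQdef
  have hQ : Q.Monic := minpoly.monic hfO
  have hfQ : Q.eval₂ (baseI Kx O) f = 0 := eval₂_baseI_eq_zero O Q f (minpoly.aeval _ _)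
  -- the coefficients of `Q` are integral over `R1`
  have hQi : ∀ i, IsIntegral R1 (((Q.coeff i : baseV (Kx := Kx) O)) : Kx) := by
    intro i
    obtain ⟨P0, hP0, hP0f⟩ := hf
    have hd : minpoly Kx (f : F) ∣ P0.map (algebraMap R1 Kx) := by
      apply minpoly.dvd
      rw [aeval_def, eval₂_map, ← IsScalarTower.algebraMap_eq]
      exact hP0f
    have hint : IsIntegral Kx (f : F) := hfO.tower_top
    have hl := integralClosure.mem_lifts_of_monic_of_dvd_map Kx hP0 (minpoly.monic hint) hd
    have hc := (Polynomial.lifts_iff_coeff_lifts _).1 hl i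
    obtain ⟨y, hy⟩ := hc
    have h2 : (((Q.coeff i : baseV (Kx := Kx) O)) : Kx) = (minpoly Kx (f : F)).coeff i := by
      rw [minpoly.isIntegrallyClosed_eq_field_fractions' Kx hfO, Polynomial.coeff_map]
      rfl
    rw [h2, ← hy]
    exact y.2
  -- `res f` is integral over the integral closure of `R1k` in `κ`
  have hlift : Q.map (res.comp (baseI Kx O)) ∈
      Polynomial.lifts (algebraMap (integralClosure R1k κ) κ) := by
    rw [Polynomial.lifts_iff_coeff_lifts]
    intro i
    rw [Polynomial.coeff_map]
    exact ⟨⟨_, hR _ (hQi i)⟩, rfl⟩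
  obtain ⟨q, hq, -, hqm⟩ := Polynomial.lifts_and_natDegree_eq_and_monic hlift (hQ.map _)
  have h1 : IsIntegral (integralClosure R1k κ) (res f) := by
    refine ⟨q, hqm, ?_⟩
    rw [← Polynomial.eval_map, hq, eval₂_res, hfQ, map_zero]
  exact isIntegral_trans _ h1

end Single

end Fermat.Agent.S34x.Lattice2
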