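import Fermat.Agent.S34x.Lattice2.Setup
import Fermat.Agent.S34x.Lattice2.ProdIntegral
import Fermat.Agent.S34x.C0two.Pair

/-!
# P-S34 WP3 (abstract layer): the chart coordinate of a pair of valuations

For two ordinary residue setups `R₁ : C0.RedSetup A O₁ k κ₁`, `R₂ : C0.RedSetup A O₂ k κ₂`
(same `π`) and `R := C0two.redSetupTwoVal R₁ R₂ hπ : RedSetup2 A (twoVal O₁ O₂) k (κ₁ × κ₂)`:
a unit `t` of `O₁ ⊓ O₂` for which integrality over `K[t]`, `K[t⁻¹]` of elements of `O₁ ⊓ O₂` is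
preserved by BOTH reductions (the componentwise (L1), e.g. helper57's
`IntegralRed2.isIntegral_res_pair`) is a `ChartCoord R` (integrality over `k[(T₁,T₂)]` in a product
is componentwise).
-/

set_option autoImplicit false
set_option linter.unusedSectionVars false

noncomputable section

namespace Fermat.Agent.S34x.Lattice2

open Fermat.Agent.S34x.C0two

variable {K : Type*} [Field K] {A : ValuationSubring K} {F : Type*} [Field F] [Algebra K F]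
  {O₁ O₂ : ValuationSubring F} {k κ₁ κ₂ : Type*} [Field k] [Field κ₁] [Field κ₂] [Algebra k κ₁]
  [Algebra k κ₂]
  (R₁ : Gateway.C0.RedSetup A O₁ k κ₁) (R₂ : Gateway.C0.RedSetup A O₂ k κ₂) (hπ : R₁.π = R₂.π)

/-- The chart coordinate of a pair of valuations from the two componentwise (L1)'s. -/
def ChartCoord.ofPair (t : F) (ht0 : t ≠ 0) (ht₁ : t ∈ O₁) (hti₁ : t⁻¹ ∈ O₁) (ht₂ : t ∈ O₂)
    (hti₂ : t⁻¹ ∈ O₂)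
    (h1 : ∀ (f : F) (hf₁ : f ∈ O₁) (hf₂ : f ∈ O₂), IsIntegral (Algebra.adjoin K {t}) f →
      IsIntegral (Algebra.adjoin k {R₁.res ⟨t, ht₁⟩}) (R₁.res ⟨f, hf₁⟩) ∧
      IsIntegral (Algebra.adjoin k {R₂.res ⟨t, ht₂⟩}) (R₂.res ⟨f, hf₂⟩))
    (h2 : ∀ (f : F) (hf₁ : f ∈ O₁) (hf₂ : f ∈ O₂), IsIntegral (Algebra.adjoin K {t⁻¹}) f →
      IsIntegral (Algebra.adjoin k {R₁.res ⟨t⁻¹, hti₁⟩}) (R₁.res ⟨f, hf₁⟩) ∧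
      IsIntegral (Algebra.adjoin k {R₂.res ⟨t⁻¹, hti₂⟩}) (R₂.res ⟨f, hf₂⟩)) :
    ChartCoord (redSetupTwoVal R₁ R₂ hπ) where
  t := t
  t_ne := ht0
  t_mem := ⟨ht₁, ht₂⟩
  tinv_mem := ⟨hti₁, hti₂⟩
  hint1 f hf h := by
    show IsIntegral (Algebra.adjoin k {((R₁.res ⟨t, ht₁⟩, R₂.res ⟨t, ht₂⟩) : κ₁ × κ₂)})
      ((R₁.res ⟨f, hf.1⟩, R₂.res ⟨f, hf.2⟩) : κ₁ × κ₂)
    exact (isIntegral_adjoin_prod_iff _ _ _ _).mpr (h1 f hf.1 hf.2 h)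
  hint2 f hf h := by
    show IsIntegral (Algebra.adjoin k {((R₁.res ⟨t⁻¹, hti₁⟩, R₂.res ⟨t⁻¹, hti₂⟩) : κ₁ × κ₂)})
      ((R₁.res ⟨f, hf.1⟩, R₂.res ⟨f, hf.2⟩) : κ₁ × κ₂)
    exact (isIntegral_adjoin_prod_iff _ _ _ _).mpr (h2 f hf.1 hf.2 h)

section

variable {R₁ R₂ hπ} {t : F} {ht0 : t ≠ 0} {ht₁ : t ∈ O₁} {hti₁ : t⁻¹ ∈ O₁} {ht₂ : t ∈ O₂}
  {hti₂ : t⁻¹ ∈ O₂}
  {h1 : ∀ (f : F) (hf₁ : f ∈ O₁) (hf₂ : f ∈ O₂), IsIntegral (Algebra.adjoin K {t}) f →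
      IsIntegral (Algebra.adjoin k {R₁.res ⟨t, ht₁⟩}) (R₁.res ⟨f, hf₁⟩) ∧
      IsIntegral (Algebra.adjoin k {R₂.res ⟨t, ht₂⟩}) (R₂.res ⟨f, hf₂⟩)}
  {h2 : ∀ (f : F) (hf₁ : f ∈ O₁) (hf₂ : f ∈ O₂), IsIntegral (Algebra.adjoin K {t⁻¹}) f →
      IsIntegral (Algebra.adjoin k {R₁.res ⟨t⁻¹, hti₁⟩}) (R₁.res ⟨f, hf₁⟩) ∧
      IsIntegral (Algebra.adjoin k {R₂.res ⟨t⁻¹, hti₂⟩}) (R₂.res ⟨f, hf₂⟩)}

@[simp] theorem ChartCoord.ofPair_t :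
    (ChartCoord.ofPair R₁ R₂ hπ t ht0 ht₁ hti₁ ht₂ hti₂ h1 h2).t = t := rfl

theorem ChartCoord.ofPair_T :
    (ChartCoord.ofPair R₁ R₂ hπ t ht0 ht₁ hti₁ ht₂ hti₂ h1 h2).T =
      (R₁.res ⟨t, ht₁⟩, R₂.res ⟨t, ht₂⟩) := rfl

theorem ChartCoord.ofPair_Ti :
    (ChartCoord.ofPair R₁ R₂ hπ t ht0 ht₁ hti₁ ht₂ hti₂ h1 h2).Ti =
      (R₁.res ⟨t⁻¹, hti₁⟩, R₂.res ⟨t⁻¹, hti₂⟩) := rfl

end

/-- In an ordinary residue setup the reduction of `t⁻¹` is the inverse of the reduction of `t`. -/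
theorem res_inv_eq_inv {O : ValuationSubring F} {κ : Type*} [Field κ] [Algebra k κ]
    (R : Gateway.C0.RedSetup A O k κ) {t : F} (ht0 : t ≠ 0) (ht : t ∈ O) (hti : t⁻¹ ∈ O) :
    R.res ⟨t⁻¹, hti⟩ = (R.res ⟨t, ht⟩)⁻¹ := by
  have h1 : (⟨t, ht⟩ : O) * ⟨t⁻¹, hti⟩ = 1 := Subtype.ext (mul_inv_cancel₀ ht0)
  have h2 := congrArg R.res h1
  rw [map_mul, map_one] at h2
  exact eq_inv_of_mul_eq_one_right h2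

/-- Variant of `ChartCoord.ofPair` with the second chart stated over `k[T̄ᵢ⁻¹]` (the shape of
`Gateway/C0/Main.exists_countData_spec` `hint2` and of `IntegralRed2.isIntegral_res_pair`). -/
def ChartCoord.ofPair' (t : F) (ht0 : t ≠ 0) (ht₁ : t ∈ O₁) (hti₁ : t⁻¹ ∈ O₁) (ht₂ : t ∈ O₂)
    (hti₂ : t⁻¹ ∈ O₂)
    (h1 : ∀ (f : F) (hf₁ : f ∈ O₁) (hf₂ : f ∈ O₂), IsIntegral (Algebra.adjoin K {t}) f →
      IsIntegral (Algebra.adjoin k {R₁.res ⟨t, ht₁⟩}) (R₁.res ⟨f, hf₁⟩) ∧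
      IsIntegral (Algebra.adjoin k {R₂.res ⟨t, ht₂⟩}) (R₂.res ⟨f, hf₂⟩))
    (h2 : ∀ (f : F) (hf₁ : f ∈ O₁) (hf₂ : f ∈ O₂), IsIntegral (Algebra.adjoin K {t⁻¹}) f →
      IsIntegral (Algebra.adjoin k {(R₁.res ⟨t, ht₁⟩)⁻¹}) (R₁.res ⟨f, hf₁⟩) ∧
      IsIntegral (Algebra.adjoin k {(R₂.res ⟨t, ht₂⟩)⁻¹}) (R₂.res ⟨f, hf₂⟩)) :
    ChartCoord (redSetupTwoVal R₁ R₂ hπ) :=
  ChartCoord.ofPair R₁ R₂ hπ t ht0 ht₁ hti₁ ht₂ hti₂ h1 (by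
    intro f hf₁ hf₂ h
    rw [res_inv_eq_inv R₁ ht0 ht₁ hti₁, res_inv_eq_inv R₂ ht0 ht₂ hti₂]
    exact h2 f hf₁ hf₂ h)

end Fermat.Agent.S34x.Lattice2
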